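import Fermat.Agent.S43.Size.StepDefs
import Fermat.Agent.S43.GA.Contract

/-!
# S43 / Top0 / GenBridge : dictionary between the generalised eigenspaces used by the blocks

* `Size.th N n D a`        (SIZE, TOWER) : `Tower.gen` of the `heckeTtot N n ℓ`, `ℓ` prime, `ℓ ∤ D`;
* `GA.gEigenKV N p S a`    (GA)          : iterate form, `heckeT`, `ℓ` prime, `ℓ ∤ N`, `ℓ ∉ S`;
* `MR.Glue.eigenKV N p S a` (`Occ`)      : the eigenspace.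

`D` is ONE integer divisible by all the levels, by `p` and by the exceptional primes; `S = D.primeFactors`.
-/

set_option autoImplicit false

noncomputable section

namespace Fermat.Agent.S43.GenBridge

open AlgebraicCurve ModularCurve Fermat.Agent.S24 Fermat.Agent.GAL Fermat.Agent.GAL.Hecke
  Fermat.Agent.S41.Dual Fermat.Agent.S43.Tower Fermat.Agent.S43.Size Fermat.Agent.S43.GA
  Fermat.Agent.MR.Glue

variable {N p D : ℕ} [NeZero N] {a : ℕ → ℤ}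

theorem uop_apply (ℓ : Idx D) (x : KV Kbar (FN N) p) :
    (TT N p D ℓ - a ℓ.1 • (1 : AddMonoid.End (KV Kbar (FN N) p))) x
      = heckeTtot N p ℓ.1 x - a ℓ.1 • x := rfl

theorem uop_coe (ℓ : ℕ) [NeZero ℓ] (h : ℓ.Prime ∧ ¬ ℓ ∣ D) :
    ⇑(TT N p D ⟨ℓ, h⟩ - a ℓ • (1 : AddMonoid.End (KV Kbar (FN N) p)))
      = fun y => heckeT Kbar N ℓ p y - a ℓ • y := by
  funext y
  rw [← heckeTtot_eq N p ℓ]
  rfl

/-- membership in `th`, in the iterate form of `GA.gEigenKV`. -/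
theorem mem_th_iff {x : KV Kbar (FN N) p} :
    x ∈ th N p D a ↔ ∀ (ℓ : ℕ) [NeZero ℓ], ℓ.Prime → ¬ ℓ ∣ D →
      ∃ k : ℕ, (fun y => heckeT Kbar N ℓ p y - a ℓ • y)^[k] x = 0 := by
  constructor
  · intro hx ℓ _ h1 h2
    obtain ⟨m, hm⟩ := hx ⟨ℓ, h1, h2⟩
    refine ⟨m, ?_⟩
    rw [← uop_coe (N := N) (p := p) (a := a) ℓ ⟨h1, h2⟩, ← AddMonoid.End.coe_pow]
    exact hm
  · intro hx ℓ
    haveI : NeZero ℓ.1 := ⟨ℓ.2.1.ne_zero⟩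
    obtain ⟨m, hm⟩ := hx ℓ.1 ℓ.2.1 ℓ.2.2
    refine ⟨m, ?_⟩
    rw [← uop_coe (N := N) (p := p) (a := a) ℓ.1 ℓ.2, ← AddMonoid.End.coe_pow] at hm
    exact hm

/-- **(B1)** -/
theorem th_subset_gEigenKV (S : Finset ℕ) (h : ∀ ℓ : ℕ, ℓ.Prime → ¬ ℓ ∣ N → ℓ ∉ S → ¬ ℓ ∣ D) :
    (th N p D a : Set (KV Kbar (FN N) p)) ⊆ gEigenKV N p S a := by
  intro x hx ℓ _ h1 h2 h3
  exact mem_th_iff.1 hx ℓ h1 (h ℓ h1 h2 h3)

/-- **(B1')** -/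
theorem gEigenKV_subset_th (S : Finset ℕ) (h : ∀ ℓ : ℕ, ℓ.Prime → ¬ ℓ ∣ D → ¬ ℓ ∣ N ∧ ℓ ∉ S) :
    gEigenKV N p S a ⊆ (th N p D a : Set (KV Kbar (FN N) p)) := by
  intro x hx
  refine mem_th_iff.2 fun ℓ _ h1 h2 => ?_
  exact hx ℓ h1 (h ℓ h1 h2).1 (h ℓ h1 h2).2

/-- **(B3)** -/
theorem eigenKV_le_th (S : Finset ℕ) (h : ∀ ℓ : ℕ, ℓ.Prime → ¬ ℓ ∣ D → ¬ ℓ ∣ N ∧ ℓ ∉ S) :
    eigenKV N p S a ≤ th N p D a := by
  intro x hx
  refine mem_gen_of_eigen fun ℓ => ?_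
  haveI : NeZero ℓ.1 := ⟨ℓ.2.1.ne_zero⟩
  rw [TT_apply, heckeTtot_eq]
  exact hx ℓ.1 ℓ.2.1 (h ℓ.1 ℓ.2.1 ℓ.2.2).1 (h ℓ.1 ℓ.2.1 ℓ.2.2).2

theorem TT_commute (hp : p ≠ 0) (hND : N ∣ D) (i j : Idx D) :
    Commute (TT N p D i) (TT N p D j) := by
  ext x
  exact heckeTtot_comm N p hp i.2.1 j.2.1 (fun h => i.2.2 (h.trans hND))
    (fun h => j.2.2 (h.trans hND)) x

theorem TT_mem_th (hp : p ≠ 0) (hND : N ∣ D) (i : Idx D) {x : KV Kbar (FN N) p}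
    (hx : x ∈ th N p D a) : TT N p D i x ∈ th N p D a :=
  gen_stable (fun j => TT_commute hp hND j i) hx

/-- a non zero `θ`-part contains a non zero eigenvector. -/
theorem exists_eigen_of_th_ne_bot (hp : p ≠ 0) (hND : N ∣ D) (h : th N p D a ≠ ⊥) :
    ∃ x : KV Kbar (FN N) p, x ≠ 0 ∧ ∀ (ℓ : ℕ) [NeZero ℓ], ℓ.Prime → ¬ ℓ ∣ D →
      heckeT Kbar N ℓ p x = a ℓ • x := by
  haveI : Finite (KV Kbar (FN N) p) := finite_KV N p hp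
  obtain ⟨x, -, hx0, hx⟩ := exists_eigen (T := TT N p D) (a := fun ℓ => a ℓ.1)
    (TT_commute hp hND) (th N p D a) h (fun i x hx => TT_mem_th hp hND i hx) le_rfl
  refine ⟨x, hx0, fun ℓ _ h1 h2 => ?_⟩
  have := hx ⟨ℓ, h1, h2⟩
  rwa [TT_apply, heckeTtot_eq] at this

/-- **(B2)** -/
theorem th_eq_bot_of_eigenKV (hp : p ≠ 0) (hND : N ∣ D) (S : Finset ℕ)
    (h : ∀ ℓ : ℕ, ℓ.Prime → ¬ ℓ ∣ N → ℓ ∉ S → ¬ ℓ ∣ D) (h0 : eigenKV N p S a = ⊥) :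
    th N p D a = ⊥ := by
  by_contra hne
  obtain ⟨x, hx0, hx⟩ := exists_eigen_of_th_ne_bot hp hND hne
  have hmem : x ∈ eigenKV N p S a := fun ℓ _ h1 h2 h3 => hx ℓ h1 (h ℓ h1 h2 h3)
  rw [h0] at hmem
  exact hx0 ((AddSubgroup.mem_bot).1 hmem)

/-! ### the case `S = D.primeFactors` -/

theorem not_dvd_of_notMem_primeFactors (hD : D ≠ 0) {ℓ : ℕ} (h1 : ℓ.Prime)
    (h3 : ℓ ∉ D.primeFactors) : ¬ ℓ ∣ D :=
  fun h => h3 (Nat.mem_primeFactors.2 ⟨h1, h, hD⟩)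

theorem notMem_primeFactors_of_not_dvd {ℓ : ℕ} (h : ¬ ℓ ∣ D) : ℓ ∉ D.primeFactors :=
  fun h' => h (Nat.dvd_of_mem_primeFactors h')

theorem th_subset_gEigenKV' (hD : D ≠ 0) :
    (th N p D a : Set (KV Kbar (FN N) p)) ⊆ gEigenKV N p D.primeFactors a :=
  th_subset_gEigenKV _ fun _ h1 _ h3 => not_dvd_of_notMem_primeFactors hD h1 h3

theorem gEigenKV_subset_th' (hND : N ∣ D) :
    gEigenKV N p D.primeFactors a ⊆ (th N p D a : Set (KV Kbar (FN N) p)) :=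
  gEigenKV_subset_th _ fun _ _ h2 =>
    ⟨fun h => h2 (h.trans hND), notMem_primeFactors_of_not_dvd h2⟩

theorem eigenKV_le_th' (hND : N ∣ D) : eigenKV N p D.primeFactors a ≤ th N p D a :=
  eigenKV_le_th _ fun _ _ h2 => ⟨fun h => h2 (h.trans hND), notMem_primeFactors_of_not_dvd h2⟩

theorem th_eq_bot_iff (hp : p ≠ 0) (hD : D ≠ 0) (hND : N ∣ D) :
    th N p D a = ⊥ ↔ eigenKV N p D.primeFactors a = ⊥ := by
  constructor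
  · intro h
    exact le_bot_iff.1 (h ▸ eigenKV_le_th' hND)
  · exact th_eq_bot_of_eigenKV hp hND _ fun _ h1 _ h3 => not_dvd_of_notMem_primeFactors hD h1 h3

/-- enlarging `D` enlarges the `θ`-part. -/
theorem th_mono {D' : ℕ} (h : D ∣ D') : th N p D a ≤ th N p D' a := by
  intro x hx ℓ
  exact hx ⟨ℓ.1, ℓ.2.1, fun h' => ℓ.2.2 (h'.trans h)⟩

/-- `eigenKV` with an arbitrary exceptional set embeds in `th` as soon as `D` is divisible by `N` and by the primes of `S`. -/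
theorem eigenKV_le_th_of_dvd (S : Finset ℕ) (hND : N ∣ D) (hS : ∀ ℓ ∈ S, ℓ.Prime → ℓ ∣ D) :
    eigenKV N p S a ≤ th N p D a :=
  eigenKV_le_th S fun ℓ h1 h2 => ⟨fun h => h2 (h.trans hND), fun h => h2 (hS ℓ h h1)⟩

end Fermat.Agent.S43.GenBridge
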