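import Fermat.Agent.S43.Loc.Gen
import Fermat.Agent.S19.Defs
import Fermat.Agent.S53.Defs

/-!
# S43 / Top0 / Iface : THE interface between the geometric and the algebraic blocks of route TWX0

`LevelData p a bad Sstr eps qv C X T` : what the geometric blocks (GA, LOCQ-CONC, CTRL, SIZE, TOWER, S19, GAL/ES) deliver at the
Taylor--Wiles level `4 K ∏ (qv i)²` for `X` = the generalised `θ`-part of `KV Kbar (FN level) p`, and what the algebraic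
blocks (BC, MID, CH, GMA, LOCQ, TWLOC, FLATB, TAN, COUNT) consume.  `X` is an ABSTRACT finite `𝔽_p[G_ℚ]`-module with operators `T ℓ`.
-/

set_option autoImplicit false

namespace Fermat.Agent.S43.Top0

open Fermat.Agent.S53 (G)
open Fermat.Agent.PT.Local (Plc)

/-- `1 + σ + ⋯ + σ^(P-1)` on a `G_ℚ`-module. -/
noncomputable def nrm (X : Type) [AddCommGroup X] [DistribMulAction G X] (σ : G) (P : ℕ) : AddMonoid.End X :=
  ∑ i ∈ Finset.range P, DistribMulAction.toAddMonoidEnd G X (σ ^ i)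

/-- the `p`-part of `s - 1`. -/
def ppart (p s : ℕ) : ℕ := p ^ (s - 1).factorization p

/-- `ℓ` is a good prime. -/
def Good (bad : Finset ℕ) {r : ℕ} (qv : Fin r → ℕ) (ℓ : ℕ) : Prop :=
  ℓ.Prime ∧ ℓ ∉ bad ∧ ∀ i, ℓ ≠ qv i

/-- **The interface.**  `bad ⊇ {2, p} ∪ Sstr ∪ S₀`; `Sstr` = the odd primes `q ∣ K`; `qv` = the TW primes. -/
structure LevelData (p : ℕ) [Fact p.Prime] (a : ℕ → ℤ) (bad Sstr : Finset ℕ) (eps : ℕ → ℤ) {r : ℕ}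
    (qv : Fin r → ℕ) (C : ℕ) (X : Type) [AddCommGroup X] [DistribMulAction G X]
    (T : ℕ → AddMonoid.End X) : Prop where
  /-- (V0) -/
  fin : Finite X
  tors : ∀ x : X, p • x = 0
  /-- (V1) -/
  T_comm : ∀ ℓ ℓ', Good bad qv ℓ → Good bad qv ℓ' → Commute (T ℓ) (T ℓ')
  T_gal : ∀ ℓ, Good bad qv ℓ → ∀ (σ : G) (x : X), T ℓ (σ • x) = σ • T ℓ x
  /-- (V2) -/
  smooth : ∃ F : IntermediateField ℚ (AlgebraicClosure ℚ), FiniteDimensional ℚ F ∧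
    ∀ σ : G, (∀ z ∈ F, σ z = z) → ∀ x : X, σ • x = x
  unram : ∀ ℓ : ℕ, ℓ.Prime → ℓ ≠ 2 → ℓ ≠ p → ℓ ∉ Sstr → (∀ i, ℓ ≠ qv i) →
    ∀ A : ValuationSubring (AlgebraicClosure ℚ), A.LiesOverPrime ℓ →
    ∀ σ ∈ A.inertiaSubgroupIn ℚ, ∀ x : X, σ • x = x
  es : ∀ ℓ, Good bad qv ℓ → ∀ A : ValuationSubring (AlgebraicClosure ℚ), A.LiesOverPrime ℓ →
    ∀ φ : G, A.IsFrobeniusAt φ ℓ → ∀ x : X, φ • φ • x - T ℓ (φ • x) + ℓ • x = 0
  /-- (V3) -/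
  nil : ∀ ℓ, Good bad qv ℓ → ∃ n : ℕ, ∀ x : X, ((T ℓ - (a ℓ : AddMonoid.End X)) ^ n) x = 0
  /-- (V4) -/
  flat : Fermat.Agent.S19.IsFunFlat p X
  /-- (V5) -/
  unip : ∀ q ∈ Sstr, ∀ A : ValuationSubring (AlgebraicClosure ℚ), A.LiesOverPrime q →
    ∀ σ ∈ A.inertiaSubgroupIn ℚ, ∀ τ ∈ A.inertiaSubgroupIn ℚ, ∀ x : X,
      σ • τ • x - σ • x - τ • x + x = 0
  ga : ∀ q ∈ Sstr, ∀ A : ValuationSubring (AlgebraicClosure ℚ), A.LiesOverPrime q → ∀ x : X,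
    (∀ σ ∈ A.inertiaSubgroupIn ℚ, σ • x = x) → ∀ φ : G, A.IsFrobeniusAt φ q → φ • x = eps q • x
  /-- (V6) CONTROL -/
  ctrl : ∀ A : Fin r → ValuationSubring (AlgebraicClosure ℚ), (∀ i, (A i).LiesOverPrime (qv i)) →
    Nat.card {x : X // ∀ i, ∀ σ ∈ (A i).inertiaSubgroupIn ℚ, σ • x = x} ≤ C
  /-- (V6) SIZE; the order of the product is at the choice of the provider. -/
  size : ∀ (Pl : Fin r → Plc) (σ : Fin r → G), (∀ i, (Pl i).ℓ = qv i) →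
    (∀ i, Loc.IsTameGen p (Pl i) (σ i)) →
    ∃ (e : Equiv.Perm (Fin r)) (x : X),
      (List.ofFn fun i => nrm X (σ (e i)) (ppart p (qv (e i)))).prod x ≠ 0

end Fermat.Agent.S43.Top0
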