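import Fermat.Agent.S43.Top0.Basic
import Fermat.Agent.S43.Geo.GAK
import Fermat.Agent.S43.Geo.TWOk

/-!
# S43 / Top0 / Geom : `Geo.GeoC` (+ BASIC) ⟹ `Top0.LevelData` at the Taylor-Wiles level  (arrow (2) of the chain)

`levelData_of_geo` : in the hypothetical world at `4 K` (the eigensystem occurs at level `4 K`, at no level `4 (K / r)`), for every
Taylor-Wiles set `qv` there are a level `N` and signs `eps` with
`LevelData P.p a S K.primeFactors eps qv (#V_p(4K) ^ 3 ^ n₀) (Vth N ..) (TV N ..)`.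

The level is a PLAIN number `N = lev (4 K) l₀` (`l₀` a reference list); the exports of `Geo/Contract` are used at `N` through
`(hN : N = lev M l)` (`subst`), `lev` depending only on the primes of the list (`lev_congr`).
-/

set_option autoImplicit false
set_option linter.unusedSectionVars false
set_option linter.style.haveILetI false

noncomputable section

namespace Fermat.Agent.S43.Top0.Geom

open AlgebraicCurve ModularCurve Fermat.Agent.S24 Fermat.Agent.GAL Fermat.Agent.GAL.Hecke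
  Fermat.Agent.MR.Glue Fermat.Agent.MR.E Fermat.Agent.S43.Geo Fermat.Agent.S43.Geo.TWOk
open Fermat.Agent.PT.Local (Plc)
open Fermat.Agent.S53 (G)
open WeierstrassCurve WeierstrassCurve.Affine WeierstrassCurve.Affine.Point

/-! ### the level depends only on the primes -/

theorem lev_congr (M : ℕ) : ∀ l l' : List TWPt, l.map TWPt.s = l'.map TWPt.s → lev M l = lev M l'
  | [], [], _ => rfl
  | [], _ :: _, h => by simp at h
  | _ :: _, [], h => by simp at h
  | t :: l, t' :: l', h => by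
    simp only [List.map_cons, List.cons.injEq] at h
    rw [lev_cons, lev_cons, lev_congr M l l' h.2, h.1]

theorem lev_ofFn_congr (M : ℕ) {r : ℕ} (t t' : Fin r → TWPt) (h : ∀ i, (t i).s = (t' i).s) :
    lev M (List.ofFn t).reverse = lev M (List.ofFn t').reverse := by
  apply lev_congr
  rw [List.map_reverse, List.map_reverse, List.map_ofFn, List.map_ofFn]
  congr 2
  funext i
  exact h i

/-! ### the exports at a plain level -/

section plain

variable {P : FreyPackage} {W0 : WeierstrassCurve ℤ} {S : Finset ℕ} {M : ℕ} {l : List TWPt}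

theorem control_at (hC : ControlC) [NeZero M] (N : ℕ) [NeZero N] (hN : N = lev M l)
    (h : Hyp P W0 S M l) :
    Nat.card ↥(genKV N P.p S W0.apOfModel ⊓ fixI N P.p l) ≤
      Nat.card (KV Kbar (FN M) P.p) ^ (3 ^ l.length) := by
  subst hN
  exact hC P W0 S M l h

theorem size_at (hS : SizeC) [NeZero M] (N : ℕ) [NeZero N] (hN : N = lev M l)
    (h : Hyp P W0 S M l) (hocc : eigenKV M P.p S W0.apOfModel ≠ ⊥) :
    ∃ x ∈ genKV N P.p S W0.apOfModel, Tower.nprod (nlist l) x ≠ 0 := by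
  subst hN
  exact hS P W0 S M l h hocc

theorem gaK_at (hNL : NoLowC) {K' q : ℕ} [NeZero (4 * K')] (N : ℕ) [NeZero N]
    (hN : N = lev (4 * (K' * q)) l) (h : Hyp P W0 S (4 * (K' * q)) l) (hq : q.Prime)
    (hqK : ¬ q ∣ 4 * K') (hunr : P.GaloisRepUnramifiedAt q) (hmin : ¬ Occ P (4 * K'))
    (hne : genKV N P.p S W0.apOfModel ≠ ⊥) : GAKOut P N q S W0.apOfModel := by
  subst hN
  haveI : NeZero (lev (4 * K') l) :=
    ⟨lev_ne_zero (NeZero.ne _) fun t ht => ((h.ok t ht).prime).ne_zero⟩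
  exact gaK_lev hNL h hq hqK hunr hmin hne

end plain

/-! ### the arrow -/

theorem nprod_zero' {Γ V : Type*} [Group Γ] [AddCommGroup V] [DistribMulAction Γ V]
    (L : List (Γ × ℕ)) : Tower.nprod L (0 : V) = 0 := by
  rw [nprod_eq_prod, _root_.map_zero]

/-- **`GeoC` ⟹ `LevelData`.** -/
theorem levelData_of_geo (hG : GeoC) (P : FreyPackage) (W0 : WeierstrassCurve ℤ)
    (hW0 : W0.IsIntegralModelOf P.freyCurve)
    (hirr : GaloisRepIsIrreducible (K := AlgebraicClosure ℚ) ℚ P.freyCurve P.p)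
    (K : ℕ) [NeZero K] (hodd : Odd K) (hsq : Squarefree K) (hpK : ¬ P.p ∣ K)
    (S : Finset ℕ) (h2S : 2 ∈ S) (hpS : P.p ∈ S) (hKS : K.primeFactors ⊆ S)
    {B : Finset ℕ} (hB : FrobMod P.p (fun ℓ => W0.apOfModel ℓ) B (Ep P)) (hBS : B ⊆ S)
    (hocc : eigenKV (4 * K) P.p S W0.apOfModel ≠ ⊥)
    (hlow : ∀ (r M : ℕ) [NeZero M], r.Prime → K = M * r → ¬ Occ P (4 * M))
    {n n₀ : ℕ} (qv : Fin n₀ → ℕ) (hTW : Core.IsTWSet P S n qv) :
    ∃ (N : ℕ) (_ : NeZero N) (eps : ℕ → ℤ),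
      LevelData P.p W0.apOfModel S K.primeFactors eps qv
        (Nat.card (KV Kbar (FN (4 * K)) P.p) ^ (3 ^ n₀))
        (Vth N P.p S W0.apOfModel) (TV N P.p S W0.apOfModel) := by
  classical
  have hp5 := P.hp5
  have hpp := P.pp
  have h4K : 4 ∣ 4 * K := Dvd.intro _ rfl
  have hp4K : ¬ P.p ∣ 4 * K := by
    intro hd
    rcases (hpp.dvd_mul).1 hd with h | h
    · have := Nat.le_of_dvd (by norm_num) h
      omega
    · exact hpK h
  have hqvS : ∀ i, qv i ∉ S := fun i => (hTW.2.1 i).2.1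
  have hqvp : ∀ i, (qv i).Prime := fun i => (hTW.2.1 i).1
  -- a prime divisor of `4 K` is in `S`
  have h4KS : ∀ ℓ : ℕ, ℓ.Prime → ℓ ∣ 4 * K → ℓ = 2 ∨ ℓ ∈ K.primeFactors := by
    intro ℓ hℓ hd
    rcases (hℓ.dvd_mul).1 hd with h | h
    · left
      have h' : ℓ ∣ 2 ^ 2 := by norm_num; exact h
      exact (Nat.prime_dvd_prime_iff_eq hℓ Nat.prime_two).1 (hℓ.dvd_of_dvd_pow h')
    · right
      exact Nat.mem_primeFactors.2 ⟨hℓ, h, NeZero.ne K⟩
  have hnd : ∀ i, ¬ qv i ∣ 4 * K := by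
    intro i hd
    rcases h4KS _ (hqvp i) hd with h | h
    · exact hqvS i (h ▸ h2S)
    · exact hqvS i (hKS h)
  -- the reference list
  obtain ⟨t₀, ht₀s, ht₀ok, -⟩ := exists_pts' P W0 hB h2S hBS hTW
  have hinj₀ : ∀ t : Fin n₀ → TWPt, (∀ i, (t i).s = qv i) → Function.Injective fun i => (t i).s := by
    intro t ht i j hij
    simp only [ht] at hij
    exact hTW.1 hij
  have hypOf : ∀ t : Fin n₀ → TWPt, (∀ i, (t i).s = qv i) → (∀ i, (t i).Ok P W0.apOfModel) →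
      Hyp P W0 S (4 * K) (List.ofFn t).reverse := fun t ht hok =>
    hyp_ofFn_reverse P W0 hW0 hirr hpS h4K hp4K t hok (hinj₀ t ht) (fun i => by rw [ht i]; exact hnd i)
  have hyp₀ := hypOf t₀ ht₀s ht₀ok
  set l₀ : List TWPt := (List.ofFn t₀).reverse with hl₀
  set N : ℕ := lev (4 * K) l₀ with hN
  have hN0 : NeZero N := ⟨lev_ne_zero (NeZero.ne _) fun t ht => ((hyp₀.ok t ht).prime).ne_zero⟩
  have hNt : ∀ t : Fin n₀ → TWPt, (∀ i, (t i).s = qv i) → N = lev (4 * K) (List.ofFn t).reverse :=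
    fun t ht => lev_ofFn_congr _ t₀ t fun i => by rw [ht₀s i, ht i]
  -- prime divisors of `N`
  have hdvdN : ∀ ℓ : ℕ, ℓ.Prime → ℓ ∣ N → ℓ = 2 ∨ ℓ ∈ K.primeFactors ∨ ∃ i, ℓ = qv i := by
    intro ℓ hℓ hd
    rcases prime_dvd_lev hℓ hd with h | ⟨t, ht, h⟩
    · rcases h4KS ℓ hℓ h with h | h
      · exact Or.inl h
      · exact Or.inr (Or.inl h)
    · obtain ⟨i, rfl⟩ := (List.mem_ofFn' t₀ t).1 (List.mem_reverse.1 ht)
      rw [ht₀s i] at h
      exact Or.inr (Or.inr ⟨i, (Nat.prime_dvd_prime_iff_eq hℓ (hqvp i)).1 h⟩)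
  -- non vanishing
  obtain ⟨x₀, hx₀, hx₀ne⟩ := size_at hG.size N hN hyp₀ hocc
  have hne : genKV N P.p S W0.apOfModel ≠ ⊥ := by
    intro hbot
    rw [hbot, AddSubgroup.mem_bot] at hx₀
    rw [hx₀, nprod_zero'] at hx₀ne
    exact hx₀ne rfl
  -- the strict primes
  have hstr : ∀ q ∈ K.primeFactors, q.Prime ∧ q ≠ P.p ∧ q ≠ 2 ∧ ∃ K' : ℕ, K = K' * q ∧ ¬ q ∣ 4 * K' := by
    intro q hq
    have hqp := Nat.prime_of_mem_primeFactors hq
    have hqK := Nat.dvd_of_mem_primeFactors hq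
    have hq2 : q ≠ 2 := by
      rintro rfl
      exact (Nat.not_even_iff_odd.2 hodd) (even_iff_two_dvd.2 hqK)
    obtain ⟨K', hK'⟩ := hqK
    refine ⟨hqp, fun e => hpK (e ▸ Nat.dvd_of_mem_primeFactors hq), hq2, K', by rw [hK', mul_comm], ?_⟩
    intro hd
    rcases (hqp.dvd_mul).1 hd with h | h
    · have h' : q ∣ 2 ^ 2 := by norm_num; exact h
      exact hq2 ((Nat.prime_dvd_prime_iff_eq hqp Nat.prime_two).1 (hqp.dvd_of_dvd_pow h'))
    · obtain ⟨c, rfl⟩ := h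
      have : q * q ∣ K := ⟨c, by rw [hK']; ring⟩
      exact hqp.one_lt.ne' (Nat.isUnit_iff.1 (hsq q this))
  have hga : ∀ q ∈ K.primeFactors, GAKOut P N q S W0.apOfModel := by
    intro q hq
    obtain ⟨hqp, hqne, hq2, K', hK', hqK'⟩ := hstr q hq
    have hK'0 : NeZero K' := ⟨by
      rintro rfl
      exact (NeZero.ne K) (by rw [hK', zero_mul])⟩
    have hmin := hlow q K' hqp hK'
    have hunr : P.GaloisRepUnramifiedAt q := Fermat.Agent.S05.result P hqp hq2 hqne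
    have hyp' : Hyp P W0 S (4 * (K' * q)) l₀ := hK' ▸ hyp₀
    exact gaK_at hG.nolow N (by rw [hN, hK']) hyp' hqp hqK' hunr hmin hne
  have heps : ∀ q : ℕ, ∃ ε : ℤ, q ∈ K.primeFactors →
      ∀ A : ValuationSubring Kbar, A.LiesOverPrime q → ∀ x ∈ genKV N P.p S W0.apOfModel,
        (∀ σ ∈ A.inertiaSubgroupIn ℚ, σ • x = x) → ∀ φ : GQ, A.IsFrobeniusAt φ q → φ • x = ε • x := by
    intro q
    by_cases hq : q ∈ K.primeFactors
    · obtain ⟨ε, -, -, h⟩ := hga q hq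
      exact ⟨ε, fun _ A hA x hx hI φ hφ => ((h A hA).1 φ hφ).2 x hx hI⟩
    · exact ⟨0, fun h => absurd h hq⟩
  choose eps heps using heps
  refine ⟨N, hN0, eps, ?_⟩
  haveI : Fact P.p.Prime := ⟨hpp⟩
  refine levelData_of (n := N) (p := P.p) (S := S) (a := W0.apOfModel) S K.primeFactors eps qv _
    ?_ ?_ ?_ ?_ ?_ ?_ ?_
  · -- `p ∤ N`
    intro hd
    rcases hdvdN _ hpp hd with h | h | ⟨i, h⟩
    · omega
    · exact hpK (Nat.dvd_of_mem_primeFactors h)
    · exact hqvS i (h ▸ hpS)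
  · -- good primes
    intro ℓ hℓ
    refine ⟨fun hd => ?_, hℓ.2.1, fun e => hℓ.2.1 (e ▸ hpS)⟩
    rcases hdvdN _ hℓ.1 hd with h | h | ⟨i, h⟩
    · exact hℓ.2.1 (h ▸ h2S)
    · exact hℓ.2.1 (hKS h)
    · exact hℓ.2.2 i h
  · intro ℓ hℓ h2 hK hq hd
    rcases hdvdN _ hℓ hd with h | h | ⟨i, h⟩
    · exact h2 h
    · exact hK h
    · exact hq i h
  · intro q hq
    obtain ⟨hqp, hqne, hq2, K', hK', hqK'⟩ := hstr q hq
    have hyp' : Hyp P W0 S (4 * (K' * q)) l₀ := hK' ▸ hyp₀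
    exact ⟨hqp, hqne, lev (4 * K') l₀, by rw [hN, hK', lev_eq], not_dvd_lev hyp' hqp hqK'⟩
  · intro q hq A hA x hx hI φ hφ
    exact heps q hq A hA x hx hI φ hφ
  · -- CONTROL
    intro A hA
    obtain ⟨t, hts, htA, htok, -⟩ := exists_pts P W0 hB h2S hBS hTW A hA
    have h1 := control_at hG.control N (hNt t hts) (hypOf t hts htok)
    rw [List.length_reverse, List.length_ofFn] at h1
    refine le_trans (le_of_eq (Nat.card_congr (Equiv.subtypeEquivRight fun x => ?_))) h1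
    rw [AddSubgroup.mem_inf, mem_fixI]
    refine and_congr_right fun _ => ⟨fun h t' ht' τ hτ => ?_, fun h i σ hσ => ?_⟩
    · obtain ⟨i, rfl⟩ := (List.mem_ofFn' t t').1 (List.mem_reverse.1 ht')
      rw [htA i] at hτ
      exact h i τ hτ
    · refine h (t i) (List.mem_reverse.2 ((List.mem_ofFn' t _).2 ⟨i, rfl⟩)) σ ?_
      rw [htA i]
      exact hσ
  · -- SIZE
    intro Pl σ hPl hσ
    have hok := ok_ptOf P W0 hB h2S hBS hTW Pl σ hPl hσ
    have hs : ∀ i, (ptOf P.p qv Pl σ i).s = qv i := fun _ => rfl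
    obtain ⟨x, hx, hxne⟩ := size_at hG.size N (hNt _ hs) (hypOf _ hs hok) hocc
    refine ⟨1, x, hx, ?_⟩
    rw [nlist_ofFn_reverse] at hxne
    exact hxne

end Fermat.Agent.S43.Top0.Geom
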