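import Mathlib

/-!
# S43 / Top0 / Arith : the `p`-part of `s - 1` for a Taylor--Wiles prime `s`
-/

set_option autoImplicit false

namespace Fermat.Agent.S43.Top0.Arith

theorem exists_eu {p s n : ℕ} (hp : p.Prime) (hs : 1 < s) (h : p ^ (n + 1) ∣ s - 1) :
    ∃ u : ℕ, s = p ^ (s - 1).factorization p * u + 1 ∧ 0 < (s - 1).factorization p ∧ ¬ p ∣ u ∧
      p ^ (n + 1) ≤ p ^ (s - 1).factorization p := by
  have h0 : s - 1 ≠ 0 := by omega
  have hle : n + 1 ≤ (s - 1).factorization p := (hp.pow_dvd_iff_le_factorization h0).1 h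
  refine ⟨(s - 1) / p ^ (s - 1).factorization p, ?_, by omega, Nat.not_dvd_ordCompl hp h0,
    Nat.pow_le_pow_right hp.pos hle⟩
  have := Nat.ordProj_mul_ordCompl_eq_self (s - 1) p
  omega

end Fermat.Agent.S43.Top0.Arith
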