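import Fermat.Agent.S43.Loc.Conj
import Fermat.Agent.S43.Mid.BC
import Fermat.Agent.S56.T.AllFrob
import Fermat.Agent.S56.Lq.FrobGenQ
import Fermat.Agent.PT.Global.PlaceSystem
import Fermat.Agent.S13.Minkowski
import Fermat.Agent.S53.Defs

/-!
# S43 / Top0 / BadFields : the arithmetic fields of `Bridge.BrIn` for a general smooth `rV : G →* End_k V`

* `exists_Lall_le`  : a smooth `rV` kills a member of `Lall` (as a homomorphism to the units);
* `bad_exists_sg`   : `(σ - 1)² = 0` on `V` for all `σ` in the inertia groups above `q ≠ p`  ⟹  there is ONE element `sg`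
  (a tame generator at one place above `q`) such that every inertia element above `q` acts as a conjugate of a power of `sg`;
* `bad_hGA`         : Frobenius elements act by `e` on the inertia invariants ⟹ every element of a decomposition group acts
  by a scalar on the inertia invariants;
* `tw_hrel`         : the tame relation `φ σ = σ ^ s φ` on `V`;
* `unip_bc`, `ga_bc`: transfer from `X` to `k ⊗ X`.
-/

set_option autoImplicit false

namespace Fermat.Agent.S43.Top0.BadFields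

open Fermat.Agent.S53 (G)
open Fermat.Agent.PT
open Fermat.Agent.PT.Local (Plc IsFrob)
open scoped Pointwise

section General

variable {k V : Type*} [Field k] [AddCommGroup V] [Module k V]

/-- smoothness of an operator valued homomorphism. -/
def SmoothOp (rV : G →* Module.End k V) : Prop :=
  ∃ F : IntermediateField ℚ (AlgebraicClosure ℚ), FiniteDimensional ℚ F ∧
    ∀ σ : G, (∀ z ∈ F, σ z = z) → rV σ = 1

theorem toHomUnits_val (rV : G →* Module.End k V) (σ : G) :
    ((rV.toHomUnits σ : (Module.End k V)ˣ) : Module.End k V) = rV σ := rfl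

theorem exists_Lall_le {rV : G →* Module.End k V} (hsm : SmoothOp rV) :
    ∃ U ∈ Lall, U ≤ rV.toHomUnits.ker := by
  obtain ⟨F, hF, h⟩ := hsm
  obtain ⟨F', hle, hF', hn⟩ := Fermat.Agent.S56.Lq.FrobGenQ_exists_normal F hF
  refine ⟨F'.fixingSubgroup, ⟨hn, F', hF', rfl⟩, ?_⟩
  intro σ hσ
  rw [MonoidHom.mem_ker]
  apply Units.ext
  rw [toHomUnits_val, Units.val_one]
  apply h
  intro z hz
  exact (IntermediateField.mem_fixingSubgroup_iff _ σ).1 hσ z (hle hz)

/-- `(T - 1)² = 0` ⟹ `T ^ n = 1 + n (T - 1)`. -/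
theorem pow_eq_of_unip (T : Module.End k V) (h : (T - 1) * (T - 1) = 0) (n : ℕ) :
    T ^ n = 1 + n • (T - 1) := by
  induction n with
  | zero => simp
  | succ n ih =>
    have e : T = 1 + (T - 1) := by abel
    rw [pow_succ, ih]
    calc (1 + n • (T - 1)) * T = (1 + n • (T - 1)) * (1 + (T - 1)) := by rw [← e]
      _ = 1 + (n + 1) • (T - 1) + n • ((T - 1) * (T - 1)) := by
          rw [add_mul, mul_add, mul_add, one_mul, mul_one, one_mul, smul_mul_assoc, add_smul, one_smul]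
          abel
      _ = 1 + (n + 1) • (T - 1) := by rw [h, smul_zero, add_zero]

theorem pow_char_eq_one (p : ℕ) [CharP k p] (T : Module.End k V) (h : (T - 1) * (T - 1) = 0) :
    T ^ p = 1 := by
  rw [pow_eq_of_unip T h, ← Nat.cast_smul_eq_nsmul k, CharP.cast_eq_zero k p, zero_smul, add_zero]

theorem sq_zero_of_unip {T : Module.End k V} (h : ∀ v, T (T v) - T v - T v + v = 0) :
    (T - 1) * (T - 1) = 0 := by
  refine LinearMap.ext fun v => ?_
  rw [Module.End.mul_apply, LinearMap.sub_apply, LinearMap.sub_apply, Module.End.one_apply,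
    Module.End.one_apply, map_sub, LinearMap.zero_apply, ← h v]
  abel

variable (p : ℕ) [Fact p.Prime] [CharP k p]

omit [Fact p.Prime] in
theorem isPGroup_of_unip (rV : G →* Module.End k V) (P : Plc)
    (hunip : ∀ σ ∈ P.ine, ∀ v, rV σ (rV σ v) - rV σ v - rV σ v + v = 0) :
    IsPGroup p (P.ine.map rV.toHomUnits) := by
  rintro ⟨_, σ, hσ, rfl⟩
  refine ⟨1, Subtype.ext (Units.ext ?_)⟩
  rw [pow_one]
  show (rV σ) ^ p = 1
  exact pow_char_eq_one p _ (sq_zero_of_unip (hunip σ hσ))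

/-- conjugating an inertia element of `g • A` back to `A`. -/
theorem conj_mem_ine (A : ValuationSubring (AlgebraicClosure ℚ)) (g τ : G)
    (hτ : τ ∈ (g • A).inertiaSubgroupIn ℚ) : g⁻¹ * τ * g ∈ A.inertiaSubgroupIn ℚ := by
  have h := Levels_conj_mem_inertiaSubgroupIn (K := ℚ) (g • A) g⁻¹ τ hτ
  rwa [inv_smul_smul, inv_inv] at h

/-- **the field `hsg_gen`.** -/
theorem bad_exists_sg (rV : G →* Module.End k V) (hsm : SmoothOp rV) {q : ℕ} (hq : q.Prime)
    (hqp : q ≠ p)
    (hunip : ∀ P : ValuationSubring (AlgebraicClosure ℚ), P.LiesOverPrime q →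
      ∀ σ ∈ P.inertiaSubgroupIn ℚ, ∀ v, rV σ (rV σ v) - rV σ v - rV σ v + v = 0) :
    ∃ (P₀ : Plc) (sg : G), P₀.ℓ = q ∧ Loc.IsTameGen p P₀ sg ∧
      ∀ P : ValuationSubring (AlgebraicClosure ℚ), P.LiesOverPrime q →
        ∀ τ ∈ P.inertiaSubgroupIn ℚ, ∃ (γ : G) (n : ℕ), rV τ = rV (γ * sg ^ n * γ⁻¹) := by
  obtain ⟨A₀, hA₀⟩ := Fermat.Agent.S13.exists_liesOverPrime_Qbar hq
  let P₀ : Plc := ⟨A₀, q, hq, hA₀⟩
  obtain ⟨sg, hsg⟩ := Loc.exists_isTameGen p P₀ hqp
  have hpg := isPGroup_of_unip p rV P₀ (hunip A₀ hA₀)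
  have hU := exists_Lall_le hsm
  have hsgp : rV sg ^ p = 1 := pow_char_eq_one p _ (sq_zero_of_unip (hunip A₀ hA₀ sg hsg.1))
  refine ⟨P₀, sg, rfl, hsg, ?_⟩
  intro P hP τ hτ
  obtain ⟨g, rfl⟩ := exists_smul_eq_of_liesOverPrime hq A₀ P hA₀ hP
  have h1 : g⁻¹ * τ * g ∈ P₀.ine := conj_mem_ine A₀ g τ hτ
  obtain ⟨n, hn⟩ := hsg.exists_zpow rV.toHomUnits hU hpg h1
  -- replace `n` by a natural number
  have hp0 : (p : ℤ) ≠ 0 := by exact_mod_cast (Fact.out : p.Prime).ne_zero
  have hup : rV.toHomUnits sg ^ p = 1 := Units.ext hsgp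
  have hn' : rV.toHomUnits sg ^ n = rV.toHomUnits sg ^ (n % p).toNat := by
    have e : n = (n % p) + p * (n / p) := (Int.emod_add_mul_ediv n p).symm
    have e2 : ((n % p).toNat : ℤ) = n % p := Int.toNat_of_nonneg (Int.emod_nonneg n hp0)
    conv_lhs => rw [e]
    rw [zpow_add, zpow_mul, zpow_natCast, hup, one_zpow, mul_one, ← e2, zpow_natCast, e2]
  refine ⟨g, (n % p).toNat, ?_⟩
  have h2 : rV (g⁻¹ * τ * g) = rV sg ^ (n % p).toNat := by
    have := congrArg (fun u : (Module.End k V)ˣ => (u : Module.End k V)) (hn.trans hn')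
    simp only [Units.val_pow_eq_pow_val, toHomUnits_val] at this
    exact this
  have h3 : τ = g * (g⁻¹ * τ * g) * g⁻¹ := by group
  conv_lhs => rw [h3]
  rw [map_mul, map_mul, h2, map_mul, map_mul, map_pow]

omit [Fact p.Prime] [CharP k p] in
/-- **the field `hGA`.** -/
theorem bad_hGA (rV : G →* Module.End k V) (hsm : SmoothOp rV) {q : ℕ} (hq : q.Prime) (e : k)
    (hga : ∀ P : ValuationSubring (AlgebraicClosure ℚ), P.LiesOverPrime q → ∀ v : V,
      (∀ σ ∈ P.inertiaSubgroupIn ℚ, rV σ v = v) → ∀ φ : G, P.IsFrobeniusAt φ q → rV φ v = e • v) :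
    ∀ P : ValuationSubring (AlgebraicClosure ℚ), P.LiesOverPrime q →
      ∀ g ∈ P.decompositionSubgroup ℚ, ∃ e' : k, ∀ v : V,
        (∀ τ ∈ P.inertiaSubgroupIn ℚ, rV τ v = v) → rV g v = e' • v := by
  intro P hP g hg
  obtain ⟨F, hF, hFs⟩ := hsm
  have : IsGalois ℚ (AlgebraicClosure ℚ) := Fermat.Agent.Lib.Frobenius.isGalois_algebraicClosure _
  obtain ⟨φ, hφ⟩ := Fermat.Agent.Lib.Frobenius.exists_isFrobeniusAt P hq hP
  let Pl : Plc := ⟨P, q, hq, hP⟩
  have := hF
  obtain ⟨j, τ, hτ, u, -, hu, rfl⟩ :=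
    Fermat.Agent.S56.F.LF.dec_gen Pl (Loc.isFrob_of_isFrobeniusAt Pl hφ) F hg
  refine ⟨e ^ j, fun v hv => ?_⟩
  rw [map_mul, map_mul, hFs u hu, mul_one, Module.End.mul_apply, hv τ hτ, map_pow]
  clear hg
  induction j with
  | zero => simp
  | succ j ih =>
    rw [pow_succ, Module.End.mul_apply, hga P hP v hv φ hφ, map_smul, ih, smul_smul, pow_succ,
      mul_comm]

omit [CharP k p] in
/-- **the field `hrel`** (tame relation at a Taylor-Wiles prime). -/
theorem tw_hrel (rV : G →* Module.End k V) (hsm : SmoothOp rV) (P : Plc) (hℓ : P.ℓ ≠ p) {sT φ : G}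
    (hsT : Loc.IsTameGen p P sT) (hφ : P.A.IsFrobeniusAt φ P.ℓ)
    (hpg : IsPGroup p (P.ine.map rV.toHomUnits)) :
    rV (φ * sT) = rV (sT ^ P.ℓ * φ) := by
  have h := hsT.conj hℓ (Loc.isFrob_of_isFrobeniusAt P hφ) rV.toHomUnits (exists_Lall_le hsm) hpg
  have h1 : rV (φ * sT * φ⁻¹) = rV sT ^ P.ℓ := by
    have := congrArg (fun u : (Module.End k V)ˣ => (u : Module.End k V)) h
    simp only [Units.val_pow_eq_pow_val, toHomUnits_val] at this
    exact this
  have h2 : φ * sT = (φ * sT * φ⁻¹) * φ := by group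
  rw [h2, map_mul, h1, map_mul, map_pow]

end General

section Transfer

open scoped TensorProduct

variable (p : ℕ) [Fact p.Prime] (k : Type*) [Field k] [Algebra (ZMod p) k]
  (X : Type*) [AddCommGroup X] [Module (ZMod p) X] [DistribMulAction G X]

/-- an element acting trivially on `X` acts trivially on `k ⊗ X`. -/
theorem rk_eq_one {σ : G} (h : ∀ x : X, σ • x = x) : Mid.rk p k X G σ = 1 := by
  have h1 : DistribMulAction.toAddMonoidEnd G X σ = 1 := AddMonoidHom.ext h
  rw [Mid.rk_eq, h1, map_one]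

theorem smoothOp_rk
    (h : ∃ F : IntermediateField ℚ (AlgebraicClosure ℚ), FiniteDimensional ℚ F ∧
      ∀ σ : G, (∀ z ∈ F, σ z = z) → ∀ x : X, σ • x = x) : SmoothOp (Mid.rk p k X G) := by
  obtain ⟨F, hF, hFs⟩ := h
  exact ⟨F, hF, fun σ hσ => rk_eq_one p k X (hFs σ hσ)⟩

/-- transfer of `(σ - 1)(τ - 1) = 0`. -/
theorem unip_bc {σ τ : G} (h : ∀ x : X, σ • τ • x - σ • x - τ • x + x = 0) (v : k ⊗[ZMod p] X) :
    Mid.rk p k X G σ (Mid.rk p k X G τ v) - Mid.rk p k X G σ v - Mid.rk p k X G τ v + v = 0 := by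
  set s := DistribMulAction.toAddMonoidEnd G X σ with hs
  set t := DistribMulAction.toAddMonoidEnd G X τ with ht
  have h1 : s * t - s - t + 1 = 0 := AddMonoidHom.ext h
  have h2 := congrArg (Mid.bc p k X) h1
  rw [map_add, map_sub, map_sub, map_mul, map_one, map_zero] at h2
  exact LinearMap.congr_fun h2 v

/-- transfer of the kernel form of (GA). -/
theorem ga_bc (I : Set G) (φ : G) (ε : ℤ)
    (h : ∀ x : X, (∀ σ ∈ I, σ • x = x) → φ • x = ε • x) (v : k ⊗[ZMod p] X)
    (hv : ∀ σ ∈ I, Mid.rk p k X G σ v = v) : Mid.rk p k X G φ v = (ε : k) • v := by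
  have key := Mid.bc_ker (p := p) (k := k) (X := X)
    (fun σ : I => DistribMulAction.toAddMonoidEnd G X σ.1 - 1)
    (DistribMulAction.toAddMonoidEnd G X φ - (ε : AddMonoid.End X))
    (by
      intro x hx
      have h1 : φ • x = ε • x := h x fun σ hσ => sub_eq_zero.1 (hx ⟨σ, hσ⟩)
      show φ • x - (ε : AddMonoid.End X) x = 0
      rw [h1, sub_eq_zero]
      simp)
    v
    (by
      intro σ
      rw [map_sub, map_one, LinearMap.sub_apply, Module.End.one_apply, sub_eq_zero]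
      exact hv σ.1 σ.2)
  rw [map_sub, Mid.bc_intCast, LinearMap.sub_apply, sub_eq_zero] at key
  rw [Mid.rk_eq, key]
  rfl

end Transfer

end Fermat.Agent.S43.Top0.BadFields
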