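import Fermat.Agent.S43.Top0.LocQ

/-!
# S43 / Top0 / LocTW : Galois wiring at the Taylor--Wiles primes

For the output `(ρ, L, Φ)` of `GMA.Res.gma_res` over a ring `A` of characteristic `p` with a nilpotent augmentation ideal:
* `isPGroup_of_res` : a subgroup `I` on which `ρ ≡ 1` has `p`-group image;
* `tame_rel` : `ρ φ * ρ τ₀ = ρ τ₀ ^ s * ρ φ` for a tame generator `τ₀` and a Frobenius `φ` at a place over `s`;
* `fixed_iff` : `w` is fixed by the inertia group iff it is fixed by `τ₀`.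
-/

set_option autoImplicit false

namespace Fermat.Agent.S43.Top0

open Fermat.Agent.PT
open Fermat.Agent.PT.Local (Plc IsFrob)
open Fermat.Agent.S43.Exact
open Fermat.Agent.S43.Loc

section

variable {A : Type*} [CommRing A]

theorem pow_entry_mem (m : Ideal A) (M : Matrix (Fin 2) (Fin 2) A) (hM : ∀ i j, M i j ∈ m) (n : ℕ) :
    ∀ i j, (M ^ n) i j ∈ m ^ n := by
  induction n with
  | zero => intro i j; simp
  | succ n ih =>
    intro i j
    rw [pow_succ m, pow_succ M, Matrix.mul_apply]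
    exact Ideal.sum_mem _ fun l _ => Ideal.mul_mem_mul (ih i l) (hM l j)

/-- `X ≡ 1` modulo a nilpotent ideal, in characteristic `p`  ⟹  `X ^ (p ^ N) = 1`. -/
theorem pow_p_pow_eq_one (p : ℕ) [Fact p.Prime] [CharP A p] (m : Ideal A) (N : ℕ) (hN : m ^ N = ⊥)
    (X : Matrix (Fin 2) (Fin 2) A) (hX : ∀ i j, (X - 1) i j ∈ m) : X ^ (p ^ N) = 1 := by
  have hle : N ≤ p ^ N := (Nat.lt_pow_self (Fact.out : p.Prime).one_lt).le
  have h0 : (X - 1) ^ (p ^ N) = 0 := by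
    ext i j
    have h1 := pow_entry_mem m (X - 1) hX (p ^ N) i j
    have h2 : m ^ (p ^ N) ≤ m ^ N := Ideal.pow_le_pow_right hle
    have h3 := h2 h1
    rw [hN, Ideal.mem_bot] at h3
    simpa using h3
  have h3 := sub_pow_char_pow_of_commute (R := Matrix (Fin 2) (Fin 2) A) (p := p) (n := N)
    (Commute.one_right X)
  rw [h0, one_pow] at h3
  exact sub_eq_zero.1 h3.symm

variable {k : Type*} [CommRing k]

theorem sub_one_entry_mem_ker (π : A →+* k) (X : Matrix (Fin 2) (Fin 2) A) (hX : X.map π = 1) (i j : Fin 2) :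
    (X - 1) i j ∈ RingHom.ker π := by
  rw [RingHom.mem_ker, Matrix.sub_apply, map_sub]
  have h1 : π (X i j) = (1 : Matrix (Fin 2) (Fin 2) k) i j := by rw [← hX]; rfl
  rw [h1]
  by_cases h : i = j
  · subst h; simp
  · simp [h]

/-- a subgroup on which `ρ` is residually trivial has `p`-group image. -/
theorem isPGroup_of_res (p : ℕ) [Fact p.Prime] [CharP A p] (π : A →+* k)
    (hnil : ∃ N, (RingHom.ker π : Ideal A) ^ N = ⊥) (ρ : GQ →* GL (Fin 2) A) (I : Subgroup GQ)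
    (hI : ∀ σ ∈ I, (ρ σ).1.map π = 1) : IsPGroup p (I.map ρ) := by
  obtain ⟨N, hN⟩ := hnil
  rintro ⟨x, σ, hσ, rfl⟩
  refine ⟨N, ?_⟩
  apply Subtype.ext
  apply Units.ext
  have := pow_p_pow_eq_one p _ N hN (ρ σ).1 (sub_one_entry_mem_ker π _ (hI σ hσ))
  simpa using this

/-- **the tame relation for `ρ`.** -/
theorem tame_rel (p : ℕ) [Fact p.Prime] (ρ : GQ →* GL (Fin 2) A) (hop : ∃ U ∈ Lall, U ≤ ρ.ker)
    (P : Plc) (hP : P.ℓ ≠ p) (hpg : IsPGroup p (P.ine.map ρ)) {τ₀ φ : GQ} (hτ₀ : IsTameGen p P τ₀)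
    (hφ : P.A.IsFrobeniusAt φ P.ℓ) :
    (ρ φ).1 * (ρ τ₀).1 = (ρ τ₀).1 ^ P.ℓ * (ρ φ).1 := by
  have h := hτ₀.conj hP (isFrob_of_isFrobeniusAt P hφ) ρ hop hpg
  rw [map_mul, map_mul, map_inv, mul_inv_eq_iff_eq_mul] at h
  have := congrArg Units.val h
  simpa using this

end

section

variable {A W L : Type*} [CommRing A] [AddCommGroup W] [Module A W] [AddCommGroup L] [Module A L]
  (rW : GQ →* Module.End A W) (ρ : GQ →* GL (Fin 2) A) (Φ : W ≃ₗ[A] (Fin 2 → L))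
  (hΦ : ∀ g w, Φ (rW g w) = matAct (ρ g).1 (Φ w))

include hΦ in
/-- fixed by the inertia group ⟺ fixed by the tame generator. -/
theorem fixed_iff (p : ℕ) [Fact p.Prime] (hop : ∃ U ∈ Lall, U ≤ ρ.ker)
    (P : Plc) (hpg : IsPGroup p (P.ine.map ρ)) {τ₀ : GQ} (hτ₀ : IsTameGen p P τ₀) (w : W) :
    (∀ σ ∈ P.ine, rW σ w = w) ↔ rW τ₀ w = w := by
  refine ⟨fun h => h τ₀ hτ₀.1, fun hw τ hτ => ?_⟩
  obtain ⟨m, hm⟩ := hτ₀.exists_zpow ρ hop hpg hτ
  rw [← map_zpow] at hm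
  rw [rW_eq_of_rho_eq rW ρ Φ hΦ hm]
  exact (stabW rW w).zpow_mem hw m

include hΦ in
theorem fixed_iff_matAct (g : GQ) (w : W) : rW g w = w ↔ matAct (ρ g).1 (Φ w) = Φ w := by
  rw [← hΦ]
  exact ⟨fun h => by rw [h], fun h => Φ.injective h⟩

end

end Fermat.Agent.S43.Top0
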