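/-
S43 (route TWX0), block TOP0, leaf L2 (helper67): the residual representation `Mid.rb P = T.matRep (rho P)` of the Frey curve.
SORRY-FREE.

* `rb_eq_one`, `chi_eq_one` : `rb P`, `chi P` are trivial on the inertia groups at every prime `q ≠ 2, p`;
* `rb_tw`      : `charpoly (rho P φ) = (X - a)(X - b)` ⟹ `tr rb φ = a + b`, `det rb φ = a b`;
* `hM_frey`    : `rb P` is irreducible (hypothesis `hM` of `Mid.mid_main` = `hirr` of `Bridge.algOut_of_brIn`);
* `rSmooth_rb` : `rb P` factors through a finite level.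
-/
import Fermat.Agent.S43.Mid.Main
import Fermat.Agent.S43.BigImg.Main

set_option autoImplicit false

noncomputable section

namespace Fermat.Agent.S43.Top0

open Fermat.Agent.S53 (G M2)
open Fermat.Agent.S56
open Fermat.Agent.S43.BigImg
open Polynomial Matrix
open WeierstrassCurve WeierstrassCurve.Affine WeierstrassCurve.Affine.Point

/-- `rb P` is unramified at every prime `q ≠ 2, p`. -/
theorem rb_eq_one (P : FreyPackage) {q : ℕ} (hq : q.Prime) (hq2 : q ≠ 2) (hqp : q ≠ P.p)
    (A : ValuationSubring (AlgebraicClosure ℚ)) (hA : A.LiesOverPrime q) (t : G)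
    (ht : t ∈ A.inertiaSubgroupIn ℚ) : Mid.rb P t = 1 :=
  (B.matRep_eq_one_iff (rho P) t).2 (rho_unram P hq hq2 hqp A hA t ht)

theorem chi_eq_one (P : FreyPackage) {q : ℕ} (hq : q.Prime) (hq2 : q ≠ 2) (hqp : q ≠ P.p)
    (A : ValuationSubring (AlgebraicClosure ℚ)) (hA : A.LiesOverPrime q) (t : G)
    (ht : t ∈ A.inertiaSubgroupIn ℚ) : Mid.chi P t = 1 := by
  rw [Mid.chi, MonoidHom.comp_apply, rb_eq_one P hq hq2 hqp A hA t ht, map_one]

/-- trace and determinant from a split characteristic polynomial. -/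
theorem rb_tw (P : FreyPackage) (f : G) (a b : kk P)
    (h : LinearMap.charpoly ((rho P).ρ f) = (X - C a) * (X - C b)) :
    (Mid.rb P f).1.trace = a + b ∧ (Mid.rb P f).1.det = a * b := by
  have h1 : ((Mid.rb P f : GL (Fin 2) (kk P)) : M2 (kk P)).charpoly = (X - C a) * (X - C b) := by
    rw [← h]
    exact T.charpoly_matRep (rho P) f
  rw [Matrix.charpoly_fin_two] at h1
  have e1 := congrArg (fun Q => Polynomial.coeff Q 1) h1
  have e0 := congrArg (fun Q => Polynomial.coeff Q 0) h1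
  have r : ((X : (kk P)[X]) - C a) * (X - C b) = X ^ 2 - C (a + b) * X + C (a * b) := by
    rw [C_add, C_mul]; ring
  rw [r] at e1 e0
  simp only [coeff_add, coeff_sub, coeff_X_pow, coeff_C_mul, coeff_X_one, coeff_X_zero, coeff_C_zero,
    coeff_C_succ, mul_one, mul_zero] at e1 e0
  norm_num at e1 e0
  exact ⟨by linear_combination -e1, e0⟩

/-- `rb P` is irreducible. -/
theorem hM_frey (P : FreyPackage)
    (hirr : GaloisRepIsIrreducible (K := AlgebraicClosure ℚ) ℚ P.freyCurve P.p) :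
    ∀ U : Submodule (kk P) (Fin 2 → kk P),
      (∀ g, ∀ u ∈ U, (Mid.rb P g).1.mulVec u ∈ U) → U = ⊥ ∨ U = ⊤ := by
  intro U hU
  have hI : T.Irr2 (T.matRep (rho P)) :=
    T.irr2_matRep (rho P) (habs_frey P hirr) (fun K _ _ H hH V hV => hTW_frey P hirr K H hH V hV)
  by_contra hcon
  push Not at hcon
  obtain ⟨hb, ht⟩ := hcon
  have h2 : Module.finrank (kk P) (Fin 2 → kk P) = 2 := by simp
  have hlt : Module.finrank (kk P) U < 2 := by
    exact lt_of_lt_of_eq (Submodule.finrank_lt ht) h2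
  have hpos : 0 < Module.finrank (kk P) U := by
    rw [Module.finrank_pos_iff]
    exact (Submodule.nontrivial_iff_ne_bot).2 hb
  have h1 : Module.finrank (kk P) U = 1 := by omega
  obtain ⟨v, hv0, hv⟩ := finrank_eq_one_iff'.1 h1
  have hv0' : (v : Fin 2 → kk P) ≠ 0 := fun h => hv0 (Subtype.ext h)
  obtain ⟨g, -, hg⟩ := hI ⊤ (Or.inl rfl) (v : Fin 2 → kk P) hv0'
  obtain ⟨c, hc⟩ := hv ⟨(Mid.rb P g).1.mulVec v, hU g v v.2⟩
  exact hg c (congrArg Subtype.val hc).symm

/-- `rb P` factors through a finite level. -/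
theorem rSmooth_rb (P : FreyPackage) : B.RSmooth (Mid.rb P) := B.rSmooth_matRep (rho P)

end Fermat.Agent.S43.Top0
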