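/-
S43 (route TWX0), block TOP0, leaf L1 (helper67): an element `t` of `G_ℚ` on which the residual representation `Mid.rb P` is
trivial acts on `X` (any finite `𝔽_p[G_ℚ]`-module with `Mid.QuadHyp P X`) with `p`-power order.  SORRY-FREE.
-/
import Fermat.Agent.S43.Top0.ResFrey
import Fermat.Agent.S43.Top0.LocTW

set_option autoImplicit false

noncomputable section

namespace Fermat.Agent.S43.Top0

open Fermat.Agent.S53 (G M2)
open Fermat.Agent.S56
open Fermat.Agent.S43.BigImg Fermat.Agent.S43.GMA Fermat.Agent.S43.Exact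
open WeierstrassCurve WeierstrassCurve.Affine WeierstrassCurve.Affine.Point
open scoped TensorProduct

theorem pgroup_of_res (P : FreyPackage)
    (hirr : GaloisRepIsIrreducible (K := AlgebraicClosure ℚ) ℚ P.freyCurve P.p)
    {X : Type} [AddCommGroup X] [Module (ZMod P.p) X] [DistribMulAction G X] [Finite X] [Nontrivial X]
    (hq : Mid.QuadHyp P X) (t : G) (ht : Mid.rb P t = 1) :
    ∃ N : ℕ, ∀ x : X, (t ^ (P.p ^ N)) • x = x := by
  have H := Mid.central P hirr hq
  have h2 := Mid.nilAt P hirr hq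
  obtain ⟨ρ, L, Φ, a1, a2, -, -, -, -⟩ := Mid.mid_main P hirr (hM_frey P hirr) hq
  have : Module.Finite (ZMod P.p) X := Module.Finite.of_finite
  have : IsLocalRing (TrAlg H) := GMA.isLocalRing H h2
  have : CharP (TrAlg H) P.p :=
    charP_of_injective_algebraMap (algebraMap (kk P) (TrAlg H)).injective P.p
  obtain ⟨N, hN⟩ : ∃ N, (RingHom.ker (res H h2 : TrAlg H →+* kk P) : Ideal (TrAlg H)) ^ N = ⊥ := by
    obtain ⟨N, hN⟩ := GMA.isNilpotent_maximalIdeal H h2
    refine ⟨N, ?_⟩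
    rw [GMA.maximalIdeal_eq_ker H h2] at hN
    exact hN
  have hX : (ρ t).1.map (res H h2 : TrAlg H →+* kk P) = 1 := by
    have := a2 t
    rw [ht] at this
    exact this
  have hpow := pow_p_pow_eq_one P.p _ N hN (ρ t).1 (sub_one_entry_mem_ker _ _ hX)
  refine ⟨N, fun x => ?_⟩
  have h3 : Mid.rV P X (t ^ (P.p ^ N)) ((1 : kk P) ⊗ₜ[ZMod P.p] x) = (1 : kk P) ⊗ₜ[ZMod P.p] x := by
    apply Φ.injective
    rw [a1, map_pow, Units.val_pow_eq_pow_val, hpow, matAct_one]
  rw [Mid.rk_tmul] at h3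
  have h4 : (1 : kk P) ⊗ₜ[ZMod P.p] ((t ^ (P.p ^ N)) • x - x) = 0 := by
    rw [TensorProduct.tmul_sub, h3, sub_self]
  exact sub_eq_zero.1 ((Mid.one_tmul_eq_zero_iff _).1 h4)

end Fermat.Agent.S43.Top0
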