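import Fermat.Agent.S43.Mid.BC

/-!
# S43 / Top0 / VFlat : the `ℤ[G]`-annihilator of `X` kills `k ⊗ X`  (field `hann` of `Bridge.BrIn`)
-/

set_option autoImplicit false

namespace Fermat.Agent.S43.Top0.VLevel

open scoped TensorProduct
open Fermat.Agent.S43.Mid

variable {p : ℕ} [Fact p.Prime] {k : Type*} [Field k] [Algebra (ZMod p) k]
  {X : Type*} [AddCommGroup X] [Module (ZMod p) X] {G : Type*} [Group G] [DistribMulAction G X]

theorem hann_V (a : G →₀ ℤ) (h : ∀ x : X, (a.sum fun g n => n • (g • x)) = 0)
    (v : k ⊗[ZMod p] X) : (a.sum fun g n => n • rk p k X G g v) = 0 := by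
  classical
  have key : ∀ (s : Finset G) (x : X),
      (∑ g ∈ s, a g • DistribMulAction.toAddMonoidEnd G X g : AddMonoid.End X) x
        = ∑ g ∈ s, a g • (g • x) := by
    intro s x
    induction s using Finset.induction_on with
    | empty => rfl
    | insert g s hg ih =>
      rw [Finset.sum_insert hg, Finset.sum_insert hg, ← ih]
      rfl
  have h0 : (∑ g ∈ a.support, a g • DistribMulAction.toAddMonoidEnd G X g : AddMonoid.End X) = 0 := by
    apply AddMonoidHom.ext
    intro x
    exact (key _ x).trans (h x)
  have h1 := congrArg (fun f => bc p k X f v) h0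
  simp only [map_sum, map_zsmul, map_zero, LinearMap.sum_apply, LinearMap.smul_apply,
    LinearMap.zero_apply] at h1
  rw [Finsupp.sum]
  exact h1

end Fermat.Agent.S43.Top0.VLevel
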