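import Fermat.Agent.S43.Mid.BC

/-!
# S43 / Top0 / VLevel : transfer of statements on `X` to `V = k ⊗_{𝔽_p} X` (operator language, pure Mathlib)

`G` any group acting on the `𝔽_p`-module `X`; `Mid.rk p k X G : G →* End_k (k ⊗ X)`.

* `rk_eq_of`, `rk_eq_one`       : equality of the actions;
* `fix_imp`                     : (`x` fixed by the `s i` ⟹ `g x = e x`) passes to `V`;
* `unip_V`                      : `(σ - 1)(τ - 1) = 0` passes to `V`;
* `size_V`                      : non vanishing of an ordered product of norms passes to `V`;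
* `ctrl_V`                      : the bound on the fixed points passes to `V`.
-/

set_option autoImplicit false

namespace Fermat.Agent.S43.Top0.VLevel

open scoped TensorProduct
open Fermat.Agent.S43.Mid

variable {p : ℕ} [Fact p.Prime] {k : Type*} [Field k] [Algebra (ZMod p) k]
  {X : Type*} [AddCommGroup X] [Module (ZMod p) X] {G : Type*} [Group G] [DistribMulAction G X]

theorem rk_eq_of (g g' : G) (h : ∀ x : X, g • x = g' • x) : rk p k X G g = rk p k X G g' := by
  rw [rk_eq, rk_eq]
  congr 1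
  apply AddMonoidHom.ext
  intro x
  exact h x

theorem rk_eq_one (g : G) (h : ∀ x : X, g • x = x) : rk p k X G g = 1 := by
  rw [← map_one (rk p k X G)]
  exact rk_eq_of g 1 (fun x => by rw [h x, one_smul])

theorem bc_sub_one (g : G) (v : k ⊗[ZMod p] X) :
    bc p k X (DistribMulAction.toAddMonoidEnd G X g - 1) v = rk p k X G g v - v := by
  rw [map_sub, map_one, rk_eq]
  rfl

theorem bc_sub_int (g : G) (e : ℤ) (v : k ⊗[ZMod p] X) :
    bc p k X (DistribMulAction.toAddMonoidEnd G X g - (e : AddMonoid.End X)) v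
      = rk p k X G g v - (e : k) • v := by
  rw [map_sub, bc_intCast, rk_eq]
  rfl

/-- (`x` fixed by all `s i` ⟹ `g x = e x`) passes to `V`. -/
theorem fix_imp {ι : Type*} (s : ι → G) (g : G) (e : ℤ)
    (h : ∀ x : X, (∀ i, s i • x = x) → g • x = e • x) (v : k ⊗[ZMod p] X)
    (hv : ∀ i, rk p k X G (s i) v = v) : rk p k X G g v = (e : k) • v := by
  have key := bc_ker (p := p) (k := k) (X := X)
    (fun i => DistribMulAction.toAddMonoidEnd G X (s i) - 1)
    (DistribMulAction.toAddMonoidEnd G X g - (e : AddMonoid.End X))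
    (by
      intro x hx
      have h1 : ∀ i, s i • x = x := fun i => sub_eq_zero.1 (hx i)
      show g • x - (e : AddMonoid.End X) x = 0
      rw [AddMonoid.End.intCast_apply, h x h1, sub_self]) v
    (fun i => by rw [bc_sub_one, hv i, sub_self])
  rw [bc_sub_int] at key
  exact sub_eq_zero.1 key

/-- (`x` fixed by all `s i` ⟹ `x` fixed by `g`) passes to `V`. -/
theorem fix_imp_one {ι : Type*} (s : ι → G) (g : G)
    (h : ∀ x : X, (∀ i, s i • x = x) → g • x = x) (v : k ⊗[ZMod p] X)
    (hv : ∀ i, rk p k X G (s i) v = v) : rk p k X G g v = v := by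
  have := fix_imp (p := p) (k := k) s g 1 (fun x hx => by rw [h x hx, one_smul]) v hv
  rwa [Int.cast_one, one_smul] at this

/-- `(σ - 1)(τ - 1) = 0` passes to `V`. -/
theorem unip_V (σ τ : G) (h : ∀ x : X, σ • τ • x - σ • x - τ • x + x = 0) (v : k ⊗[ZMod p] X) :
    rk p k X G σ (rk p k X G τ v) - rk p k X G σ v - rk p k X G τ v + v = 0 := by
  have h0 : DistribMulAction.toAddMonoidEnd G X σ * DistribMulAction.toAddMonoidEnd G X τ
      - DistribMulAction.toAddMonoidEnd G X σ - DistribMulAction.toAddMonoidEnd G X τ + 1 = 0 := by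
    apply AddMonoidHom.ext
    intro x
    exact h x
  have h1 := congrArg (fun f => bc p k X f v) h0
  simp only [map_add, map_sub, map_mul, map_one, map_zero] at h1
  exact h1

/-- the ordered product of the norms. -/
theorem bc_norm (σ : G) (n : ℕ) :
    bc p k X (∑ j ∈ Finset.range n, DistribMulAction.toAddMonoidEnd G X (σ ^ j))
      = ∑ j ∈ Finset.range n, rk p k X G σ ^ j := by
  rw [map_sum]
  refine Finset.sum_congr rfl fun j _ => ?_
  rw [← rk_eq, map_pow]

theorem size_V {n₀ : ℕ} (σ : Fin n₀ → G) (Pv : Fin n₀ → ℕ) (x : X)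
    (h : (List.ofFn fun i => ∑ j ∈ Finset.range (Pv i),
      DistribMulAction.toAddMonoidEnd G X (σ i ^ j)).prod x ≠ 0) :
    (List.ofFn fun i => ∑ j ∈ Finset.range (Pv i), rk p k X G (σ i) ^ j).prod
      ((1 : k) ⊗ₜ[ZMod p] x) ≠ 0 := by
  have e : (List.ofFn fun i => ∑ j ∈ Finset.range (Pv i), rk p k X G (σ i) ^ j).prod
      = bc p k X (List.ofFn fun i => ∑ j ∈ Finset.range (Pv i),
          DistribMulAction.toAddMonoidEnd G X (σ i ^ j)).prod := by
    rw [map_list_prod, List.map_ofFn]
    congr 2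
    funext i
    exact (bc_norm (σ i) (Pv i)).symm
  rw [e, bc_tmul]
  intro h0
  exact h ((one_tmul_eq_zero_iff _).1 h0)

/-- the bound on the fixed points. -/
theorem ctrl_V [Finite k] [Finite X] {n₀ : ℕ} (σ : Fin n₀ → G) (I : Fin n₀ → Set G)
    (hI : ∀ i (x : X), σ i • x = x → ∀ τ ∈ I i, τ • x = x) (C : ℕ)
    (hC : Nat.card {x : X // ∀ i, ∀ τ ∈ I i, τ • x = x} ≤ C)
    (U : Submodule k (k ⊗[ZMod p] X)) (hU : ∀ v ∈ U, ∀ i, rk p k X G (σ i) v = v) :
    Module.finrank k U ≤ C := by
  have h1 := pow_finrank_le_card (p := p) (k := k) (X := X)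
    (fun it : (Σ i, I i) => DistribMulAction.toAddMonoidEnd G X (it.2 : G) - 1) U
    (by
      rintro v hv ⟨i, τ, hτ⟩
      rw [bc_sub_one, sub_eq_zero]
      exact fix_imp_one (fun _ : Unit => σ i) τ (fun x hx => hI i x (hx ()) τ hτ) v
        (fun _ => hU v hv i))
  have h2 : Nat.card {x : X // ∀ it : (Σ i, I i),
      (DistribMulAction.toAddMonoidEnd G X (it.2 : G) - 1) x = 0}
      ≤ Nat.card {x : X // ∀ i, ∀ τ ∈ I i, τ • x = x} := by
    refine Nat.card_le_card_of_injective
      (fun x => ⟨x.1, fun i τ hτ => sub_eq_zero.1 (x.2 ⟨i, τ, hτ⟩)⟩) ?_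
    intro x y hxy
    exact Subtype.ext (congrArg (fun z : {x : X // ∀ i, ∀ τ ∈ I i, τ • x = x} => z.1) hxy)
  have h3 : Module.finrank k U < p ^ Module.finrank k U :=
    Nat.lt_pow_self (Fact.out : p.Prime).one_lt
  omega

end Fermat.Agent.S43.Top0.VLevel
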