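import Fermat.Agent.S43.Top0.Quad
import Fermat.Agent.S43.Top0.VLevel
import Fermat.Agent.S43.Top0.Arith
import Fermat.Agent.S43.Bridge.In
import Fermat.Agent.S43.Core.Frey
import Fermat.Agent.S43.Loc.Module
import Fermat.Agent.S43.Top0.BadFields
import Fermat.Agent.S43.Top0.ResFrey
import Fermat.Agent.S43.Top0.PGrp
import Fermat.Agent.S43.Top0.VFlat
import Fermat.Agent.S43.Bridge.Main
import Fermat.Agent.S56.Lq.Glue

/-!
# S43 / Top0 / Main : `LevelData ⟹ Bridge.BrIn`  (arrow (3) of the chain)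
-/

set_option autoImplicit false

noncomputable section

namespace Fermat.Agent.S43.Top0

open Fermat.Agent.S53 (G M2)
open Fermat.Agent.PT.Local (Plc)
open Fermat.Agent.S43.BigImg Fermat.Agent.S56
open Fermat.Agent.S43.Top0.BadFields (SmoothOp smoothOp_rk bad_exists_sg bad_hGA)
open WeierstrassCurve WeierstrassCurve.Affine WeierstrassCurve.Affine.Point
open Polynomial
open scoped TensorProduct

/-- `LevelData ⟹ BrIn`, with a given `𝔽_p`-module structure on `X`. -/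
theorem brIn_of_levelData_aux (P : FreyPackage)
    (hirr : GaloisRepIsIrreducible (K := AlgebraicClosure ℚ) ℚ P.freyCurve P.p)
    (W : WeierstrassCurve ℤ) (hW : W.IsIntegralModelOf P.freyCurve)
    {t : ℕ} (bad : Fin t → ℕ) (hprime : ∀ j, (bad j).Prime) (hne2 : ∀ j, bad j ≠ 2)
    (hnep : ∀ j, bad j ≠ P.p) (S : Finset ℕ) (h2S : 2 ∈ S) (hpS : P.p ∈ S)
    (eps : ℕ → ℤ) {n₀ n : ℕ} (qv : Fin n₀ → ℕ) (hTW : Core.IsTWSet P S n qv) (C : ℕ)
    {X : Type} [AddCommGroup X] [DistribMulAction G X] [Module (ZMod P.p) X]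
    {TX : ℕ → AddMonoid.End X}
    (D : LevelData P.p W.apOfModel S (Finset.univ.image bad) eps qv C X TX) :
    Nonempty (Bridge.BrIn P.p (T.matRep (rho P)) (Core.ramSet P bad qv) bad n₀ (P.p ^ (n + 1)) C) := by
  classical
  have hq := quadHyp_of_levelData P W hW D
  haveI : Finite X := D.fin
  obtain ⟨-, hq1, hq2⟩ := hTW
  -- places, tame generators, Frobenius elements at the TW primes
  let Pl : Fin n₀ → Plc := fun i => Lq.plcV ⟨qv i, (hq1 i).1⟩
  have hPl : ∀ i, (Pl i).ℓ = qv i := fun i => rfl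
  have hnp : ∀ i, qv i ≠ P.p := fun i h => (hq1 i).2.1 (h ▸ hpS)
  have hn2 : ∀ i, qv i ≠ 2 := fun i h => (hq1 i).2.1 (h ▸ h2S)
  choose σ hσ using fun i => Loc.exists_isTameGen P.p (Pl i) (hnp i)
  choose φ hφ using fun i =>
    Fermat.Agent.Lib.Frobenius.exists_isFrobeniusAt (Pl i).A (Pl i).prime (Pl i).liesOver
  obtain ⟨e, x, hx⟩ := D.size Pl σ hPl hσ
  haveI : Nontrivial X := ⟨x, 0, fun h => hx (by rw [h, _root_.map_zero])⟩
  obtain ⟨c, hcc, hχc⟩ := Mid.exists_conj_chi P hirr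
  -- the residual representation on the inertia groups
  have hresT : ∀ i, ∀ τ ∈ (Pl i).ine, Mid.rb P τ = 1 := fun i τ hτ =>
    rb_eq_one P (hq1 i).1 (hn2 i) (hnp i) (Pl i).A (Pl i).liesOver τ hτ
  have hpg : ∀ i, ∀ τ ∈ (Pl i).ine, ∃ N : ℕ, ∀ x : X, τ ^ (P.p ^ N) • x = x := fun i τ hτ =>
    pgroup_of_res P hirr hq τ (hresT i τ hτ)
  -- the bad primes
  have hmem : ∀ j, bad j ∈ Finset.univ.image bad := fun j =>
    Finset.mem_image_of_mem bad (Finset.mem_univ j)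
  have hsmV := smoothOp_rk P.p (kk P) X D.smooth
  have hunipV : ∀ j, ∀ A : ValuationSubring (AlgebraicClosure ℚ), A.LiesOverPrime (bad j) →
      ∀ τ ∈ A.inertiaSubgroupIn ℚ, ∀ v : kk P ⊗[ZMod P.p] X,
        Mid.rV P X τ (Mid.rV P X τ v) - Mid.rV P X τ v
          - Mid.rV P X τ v + v = 0 := fun j A hA τ hτ v =>
    VLevel.unip_V τ τ (D.unip _ (hmem j) A hA τ hτ τ hτ) v
  choose P₀ sg hP₀ hsgT hsgGen using fun j =>
    bad_exists_sg P.p (Mid.rV P X) hsmV (hprime j) (hnep j) (hunipV j)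
  have hGA := fun j => bad_hGA (Mid.rV P X) hsmV (hprime j) ((eps (bad j) : ℤ) : kk P)
    (fun A hA v hv φ hφ => VLevel.fix_imp (fun τ : A.inertiaSubgroupIn ℚ => (τ : G)) φ (eps (bad j))
      (fun x hx => D.ga _ (hmem j) A hA x (fun τ hτ => hx ⟨τ, hτ⟩) φ hφ) v (fun τ => hv τ τ.2))
  have hresB : ∀ j, Mid.rb P (sg j) = 1 := fun j =>
    rb_eq_one P (hprime j) (hne2 j) (hnep j) (P₀ j).A (hP₀ j ▸ (P₀ j).liesOver) _ (hsgT j).1
  have hchi : ∀ τ : G, Mid.rb P τ = 1 → Mid.chi P τ = 1 := fun τ h => by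
    rw [Mid.chi, MonoidHom.comp_apply, h, map_one]
  choose u hu1 hu2 hu3 hu4 using fun i =>
    Arith.exists_eu (n := n) P.pp (hq1 (e i)).1.one_lt (hq1 (e i)).2.2
  refine ⟨{
    V := kk P ⊗[ZMod P.p] X
    rV := Mid.rV P X
    χ := Mid.chi P
    hcent := Mid.central P hirr hq
    hnilp := Mid.nilAt P hirr hq
    hdet := fun g => rfl
    cc := c
    hcc := hcc
    hχc := hχc
    hsm := ?_
    hunr := ?_
    X := X
    hX := D.flat
    hann := fun a ha v => VLevel.hann_V a ha v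
    sg := sg
    hsg_unip := ?_
    hsg_chi := fun j => hchi _ (hresB j)
    hsg_res := hresB
    hsg_gen := hsgGen
    hGA := hGA
    sT := fun i => σ (e i)
    fT := fun i => φ (e i)
    s := fun i => qv (e i)
    e := fun i => (qv (e i) - 1).factorization P.p
    u := u
    hs := hu1
    he := hu2
    hu := hu3
    hP0 := hu4
    hrel := ?_
    hsT_chi := fun i => hchi _ (hresT _ _ (hσ (e i)).1)
    hsT_res := fun i => hresT _ _ (hσ (e i)).1
    heig := ?_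
    hsize := ⟨(1 : kk P) ⊗ₜ[ZMod P.p] x, VLevel.size_V (fun i => σ (e i)) _ x hx⟩
    hctrl := ?_ }⟩
  · obtain ⟨F, hF, h⟩ := D.smooth
    exact ⟨F, hF, fun τ hτ => VLevel.rk_eq_one τ (h τ hτ)⟩
  · intro q hq' hqS A hA τ hτ
    simp only [Core.ramSet, Finset.mem_union, Finset.mem_insert, Finset.mem_singleton,
      not_or] at hqS
    refine VLevel.rk_eq_one τ (D.unram q hq' hqS.1.1.1 hqS.1.1.2 hqS.1.2 (fun i h => hqS.2 ?_) A hA τ hτ)
    exact Finset.mem_image.2 ⟨i, Finset.mem_univ _, h.symm⟩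
  · intro j v
    exact hunipV j (P₀ j).A (hP₀ j ▸ (P₀ j).liesOver) _ (hsgT j).1 v
  · intro i
    exact VLevel.rk_eq_of _ _
      ((hσ (e i)).frob_mul_smul D.smooth (hpg (e i)) (hnp (e i)) (hφ (e i)))
  · intro i
    obtain ⟨α, β, hαβ, h⟩ := hq2 (e i) (Pl (e i)).A (Pl (e i)).liesOver (φ (e i)) (hφ (e i))
    exact ⟨α, β, hαβ, rb_tw P _ α β h⟩
  · intro U hU
    refine VLevel.ctrl_V (fun i => σ (e i)) (fun i => ((Pl (e i)).ine : Set G))
      (fun i x hx τ hτ => (hσ (e i)).fixed_of_fixed D.smooth (hpg (e i)) hx hτ) C ?_ U hU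
    refine le_trans (Nat.card_le_card_of_injective
      (fun x : {x : X // ∀ i, ∀ τ ∈ ((Pl (e i)).ine : Set G), τ • x = x} =>
        (⟨x.1, fun i τ hτ => by
          have := x.2 (e.symm i) τ (by rw [Equiv.apply_symm_apply]; exact hτ)
          exact this⟩ : {x : X // ∀ i, ∀ τ ∈ (Pl i).A.inertiaSubgroupIn ℚ, τ • x = x})) ?_)
      (D.ctrl (fun i => (Pl i).A) (fun i => (Pl i).liesOver))
    intro x y hxy
    exact Subtype.ext (congrArg
      (fun z : {x : X // ∀ i, ∀ τ ∈ (Pl i).A.inertiaSubgroupIn ℚ, τ • x = x} => z.1) hxy)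

/-- **Arrow (3): `LevelData ⟹ BrIn`.** -/
theorem brIn_of_levelData (P : FreyPackage)
    (hirr : GaloisRepIsIrreducible (K := AlgebraicClosure ℚ) ℚ P.freyCurve P.p)
    (W : WeierstrassCurve ℤ) (hW : W.IsIntegralModelOf P.freyCurve)
    {t : ℕ} (bad : Fin t → ℕ) (hprime : ∀ j, (bad j).Prime) (hne2 : ∀ j, bad j ≠ 2)
    (hnep : ∀ j, bad j ≠ P.p) (S : Finset ℕ) (h2S : 2 ∈ S) (hpS : P.p ∈ S)
    (eps : ℕ → ℤ) {n₀ n : ℕ} (qv : Fin n₀ → ℕ) (hTW : Core.IsTWSet P S n qv) (C : ℕ)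
    {X : Type} [AddCommGroup X] [DistribMulAction G X] {TX : ℕ → AddMonoid.End X}
    (D : LevelData P.p W.apOfModel S (Finset.univ.image bad) eps qv C X TX) :
    Nonempty (Bridge.BrIn P.p (T.matRep (rho P)) (Core.ramSet P bad qv) bad n₀ (P.p ^ (n + 1)) C) := by
  letI : Module (ZMod P.p) X := AddCommGroup.zmodModule D.tors
  exact brIn_of_levelData_aux P hirr W hW bad hprime hne2 hnep S h2S hpS eps qv hTW C D

/-- **Arrows (3) + (4): `LevelData ⟹ AlgOut`.** -/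
theorem algOut_of_levelData (P : FreyPackage)
    (hirr : GaloisRepIsIrreducible (K := AlgebraicClosure ℚ) ℚ P.freyCurve P.p)
    (W : WeierstrassCurve ℤ) (hW : W.IsIntegralModelOf P.freyCurve)
    {t : ℕ} (bad : Fin t → ℕ) (hprime : ∀ j, (bad j).Prime) (hne2 : ∀ j, bad j ≠ 2)
    (hnep : ∀ j, bad j ≠ P.p) (S : Finset ℕ) (h2S : 2 ∈ S) (hpS : P.p ∈ S)
    (eps : ℕ → ℤ) {n₀ n : ℕ} (qv : Fin n₀ → ℕ) (hTW : Core.IsTWSet P S n qv) (C : ℕ)
    {X : Type} [AddCommGroup X] [DistribMulAction G X] {TX : ℕ → AddMonoid.End X}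
    (D : LevelData P.p W.apOfModel S (Finset.univ.image bad) eps qv C X TX) :
    Nonempty (Core.AlgOut P.p (T.matRep (rho P)) (Core.ramSet P bad qv) bad n₀ (P.p ^ (n + 1)) C) := by
  obtain ⟨I⟩ := brIn_of_levelData P hirr W hW bad hprime hne2 hnep S h2S hpS eps qv hTW C D
  exact Bridge.algOut_of_brIn (two_ne_zero_kk' P) P.p (T.matRep (rho P)) (rSmooth_rb P)
    (hM_frey P hirr) (Core.ramSet P bad qv) bad n₀ (P.p ^ (n + 1)) C I

end Fermat.Agent.S43.Top0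

end
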