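import Fermat.Agent.S43.CountFin

/-!
# S43 / Top0 / CountKer : the counting lemma in KERNEL form, with unbalanced exponents

`count_ker` : the data of `CountAbs.count_false`, but with all the module theoretic hypotheses stated on KERNELS
(`L[z] = {l | z l = 0}`) instead of images; proved by applying `count_false` to the `k`-dual of `L[y_i ^ P]`.
-/

set_option autoImplicit false

namespace Fermat.Agent.S43.Top0

open Module Fermat.Agent.S43.CountAbs

section dual

/-- the `k`-dual of `L`, with the transposed action of `A`. -/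
def Du (k : Type*) (_A : Type*) (L : Type*) [Field k] [AddCommGroup L] [Module k L] : Type _ :=
  Module.Dual k L

variable (k A L : Type*) [Field k] [CommRing A] [Algebra k A] [AddCommGroup L] [Module k L]
  [Module A L] [IsScalarTower k A L]

instance : AddCommGroup (Du k A L) := inferInstanceAs (AddCommGroup (Module.Dual k L))
instance : Module k (Du k A L) := inferInstanceAs (Module k (Module.Dual k L))

/-- the transposed action. -/
def duHom : A →+* Module.End k (Module.Dual k L) where
  toFun a := (Algebra.lsmul k k L a).dualMap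
  map_one' := by
    ext f l
    simp
  map_mul' a b := by
    ext f l
    simp [smul_comm a b l]
  map_zero' := by
    ext f l
    simp
  map_add' a b := by
    ext f l
    simp

instance : Module A (Du k A L) := Module.compHom (Module.Dual k L) (duHom k A L)

variable {k A L}

/-- evaluation. -/
def Du.ev (f : Du k A L) : L →ₗ[k] k := f

/-- a form, as an element of `Du`. -/
def Du.of (f : L →ₗ[k] k) : Du k A L := f

theorem Du.smul_ev (a : A) (f : Du k A L) (l : L) : (a • f).ev l = f.ev (a • l) := rfl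

theorem Du.ksmul_ev (a : k) (f : Du k A L) (l : L) : (a • f).ev l = a * f.ev l := rfl

theorem Du.ext {f g : Du k A L} (h : ∀ l, f.ev l = g.ev l) : f = g := LinearMap.ext h

instance : IsScalarTower k A (Du k A L) := ⟨fun a b f => by
  apply Du.ext
  intro l
  rw [Du.smul_ev, Du.ksmul_ev, Du.smul_ev, smul_assoc, map_smul, smul_eq_mul]⟩

instance [FiniteDimensional k L] : FiniteDimensional k (Du k A L) :=
  inferInstanceAs (FiniteDimensional k (Module.Dual k L))

variable [FiniteDimensional k L]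

/-- the coannihilator of `∑ z_i L^*` is contained in `L[z]`. -/
theorem smul_eq_zero_of_coann {ι : Type*} (z : ι → A) (N : Submodule A (Du k A L))
    (hN : ∀ i, mulTop (Du k A L) (z i) ≤ N) (l : L) (hl : ∀ f ∈ N, Du.ev f l = 0) (i : ι) :
    z i • l = 0 := by
  rw [← Module.forall_dual_apply_eq_zero_iff k]
  intro f
  exact hl ((z i) • (Du.of f : Du k A L)) (hN i (smul_mem_mulTop _ _))

/-- **duality**: a form vanishing on the coannihilator of `N` lies in `N`. -/
theorem mem_of_vanish (N : Submodule A (Du k A L)) (f : Du k A L)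
    (hf : ∀ l : L, (∀ g ∈ N, Du.ev g l = 0) → f.ev l = 0) : f ∈ N := by
  set N' : Subspace k (Module.Dual k L) := N.restrictScalars k with hN'
  have h1 : N'.dualCoannihilator.dualAnnihilator = N' := Subspace.dualCoannihilator_dualAnnihilator_eq
  have h2 : f.ev ∈ N'.dualCoannihilator.dualAnnihilator := by
    rw [Submodule.mem_dualAnnihilator]
    intro l hl
    rw [Submodule.mem_dualCoannihilator] at hl
    exact hf l hl
  rw [h1] at h2
  exact h2

/-- `codim N = dim (coannihilator)`. -/
theorem cd_le_of_coann (N : Submodule A (Du k A L)) (K : Submodule k L)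
    (hK : ∀ l : L, (∀ g ∈ N, Du.ev g l = 0) → l ∈ K) : cd k N ≤ finrank k K := by
  set N' : Subspace k (Module.Dual k L) := N.restrictScalars k with hN'
  have h1 := Subspace.finrank_add_finrank_dualCoannihilator_eq N'
  have h2 : cd k N + finrank k N' = finrank k (Module.Dual k L) := cd_add (k := k) N
  rw [Subspace.dual_finrank_eq] at h2
  have h3 : finrank k N'.dualCoannihilator ≤ finrank k K := by
    apply Submodule.finrank_mono
    intro l hl
    rw [Submodule.mem_dualCoannihilator] at hl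
    exact hK l hl
  omega

end dual

variable {k A L : Type*} [Field k] [CommRing A] [Algebra k A] [AddCommGroup L] [Module k L]
  [Module A L] [IsScalarTower k A L] [FiniteDimensional k L]

/-- kernel form, balanced exponents. -/
theorem count_ker_bal {t g r : ℕ} (P d : ℕ) (a b c : Fin t → A) (x : Fin g → A) (y : Fin r → A)
    (hrel : ∀ j (l : L), (a j ^ 2 + b j * c j) • l = 0)
    (hyP : ∀ i (l : L), y i ^ P • l = 0)
    (hnb : ∀ j, ∃ n, ∀ l : L, b j ^ n • l = 0)
    (hnc : ∀ j, ∃ n, ∀ l : L, c j ^ n • l = 0)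
    (hnx : ∀ i, ∃ n, ∀ l : L, x i ^ n • l = 0)
    (hy : ∀ i (l : L), (∀ j, a j • l = 0) → (∀ j, b j • l = 0) → (∀ j, c j • l = 0) →
      (∀ j, x j • l = 0) → y i • l = 0)
    (hA : ∃ v : L, (∏ i, y i ^ (P - 1)) • v ≠ 0)
    (K : Submodule k L) (hK : ∀ l : L, (∀ i, y i • l = 0) → l ∈ K) (hB : finrank k K ≤ d)
    (hdim : 2 * t + g < r)
    (hP : d * 2 ^ t * (d * (r + 1)) ^ (2 * t + g) < P) : False := by
  have hz : ∀ z : A, (∀ l : L, z • l = 0) → ∀ f : Du k A L, z • f = 0 := by
    intro z hz f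
    apply Du.ext
    intro l
    rw [Du.smul_ev, hz l, map_zero]
    rfl
  refine count_false (k := k) (A := A) (L := Du k A L) P d a b c x y (fun j => hz _ (hrel j))
    (fun i => hz _ (hyP i)) (fun j => ?_) (fun j => ?_) (fun j => ?_) (fun i => ?_) ?_ ?_ hdim hP
  · obtain ⟨n, hn⟩ := hnb j
    exact ⟨n, hz _ hn⟩
  · obtain ⟨n, hn⟩ := hnc j
    exact ⟨n, hz _ hn⟩
  · obtain ⟨n, hn⟩ := hnx j
    exact ⟨n, hz _ hn⟩
  · rintro _ ⟨f, rfl⟩
    simp only [LinearMap.lsmul_apply]
    apply mem_of_vanish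
    intro l hl
    rw [Du.smul_ev, hy i l, map_zero]
    · exact smul_eq_zero_of_coann a _ (fun j => le_sup_of_le_right (le_iSup (fun j => mulTop _ (a j)) j)) l hl
    · exact smul_eq_zero_of_coann b _ (fun j => le_sup_of_le_left (le_sup_of_le_left
        (le_sup_of_le_left (le_iSup (fun j => mulTop _ (b j)) j)))) l hl
    · exact smul_eq_zero_of_coann c _ (fun j => le_sup_of_le_left (le_sup_of_le_left
        (le_sup_of_le_right (le_iSup (fun j => mulTop _ (c j)) j)))) l hl
    · exact smul_eq_zero_of_coann x _ (fun j => le_sup_of_le_left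
        (le_sup_of_le_right (le_iSup (fun j => mulTop _ (x j)) j))) l hl
  · obtain ⟨v, hv⟩ := hA
    obtain ⟨f, hf⟩ : ∃ f : Module.Dual k L, f ((∏ i, y i ^ (P - 1)) • v) ≠ 0 := by
      by_contra hcon
      push Not at hcon
      exact hv ((Module.forall_dual_apply_eq_zero_iff k _).1 hcon)
    refine ⟨(Du.of f : Du k A L), fun h0 => hf ?_⟩
    have := congrArg (fun e : Du k A L => e.ev v) h0
    exact this
  · refine (cd_le_of_coann _ K fun l hl => hK l ?_).trans hB
    exact smul_eq_zero_of_coann y _ (fun j => le_iSup (fun j => mulTop _ (y j)) j) l hl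

/-- **The counting lemma, kernel form, unbalanced exponents `Pv i ≥ P`.** -/
theorem count_ker {t g r : ℕ} (P d : ℕ) (Pv : Fin r → ℕ) (hPv : ∀ i, P ≤ Pv i)
    (a b c : Fin t → A) (x : Fin g → A) (y : Fin r → A)
    (hrel : ∀ j (l : L), (a j ^ 2 + b j * c j) • l = 0)
    (hyP : ∀ i (l : L), y i ^ Pv i • l = 0)
    (hnb : ∀ j, ∃ n, ∀ l : L, b j ^ n • l = 0)
    (hnc : ∀ j, ∃ n, ∀ l : L, c j ^ n • l = 0)
    (hnx : ∀ i, ∃ n, ∀ l : L, x i ^ n • l = 0)
    (hy : ∀ i (l : L), (∀ j, a j • l = 0) → (∀ j, b j • l = 0) → (∀ j, c j • l = 0) →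
      (∀ j, x j • l = 0) → y i • l = 0)
    (hA : ∃ v : L, (∏ i, y i ^ (Pv i - 1)) • v ≠ 0)
    (K : Submodule k L) (hK : ∀ l : L, (∀ i, y i • l = 0) → l ∈ K) (hB : finrank k K ≤ d)
    (hdim : 2 * t + g < r)
    (hP : d * 2 ^ t * (d * (r + 1)) ^ (2 * t + g) < P) : False := by
  -- `L' = L[y_i ^ P]`
  obtain ⟨L', hmem⟩ : ∃ L' : Submodule A L, ∀ l : L, l ∈ L' ↔ ∀ i, y i ^ P • l = 0 :=
    ⟨⨅ i, LinearMap.ker (LinearMap.lsmul A L (y i ^ P)), fun l => by simp [Submodule.mem_iInf]⟩
  have : FiniteDimensional k L' :=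
    inferInstanceAs (FiniteDimensional k (L'.restrictScalars k))
  have hsub : ∀ (z : A) (l : L'), z • l = 0 ↔ z • (l : L) = 0 := by
    intro z l
    rw [← Submodule.coe_smul, Submodule.coe_eq_zero]
  refine count_ker_bal (k := k) (A := A) (L := L') P d a b c x y (fun j l => (hsub _ l).2 (hrel j l))
    (fun i l => (hsub _ l).2 ((hmem l).1 l.2 i)) (fun j => ?_) (fun j => ?_) (fun j => ?_)
    (fun i l h1 h2 h3 h4 => (hsub _ l).2 (hy i l (fun j => (hsub _ l).1 (h1 j))
      (fun j => (hsub _ l).1 (h2 j)) (fun j => (hsub _ l).1 (h3 j)) (fun j => (hsub _ l).1 (h4 j))))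
    ?_ (K.comap (L'.subtype.restrictScalars k)) (fun l hl => hK l fun i => (hsub _ l).1 (hl i)) ?_ hdim hP
  · obtain ⟨n, hn⟩ := hnb j
    exact ⟨n, fun l => (hsub _ l).2 (hn l)⟩
  · obtain ⟨n, hn⟩ := hnc j
    exact ⟨n, fun l => (hsub _ l).2 (hn l)⟩
  · obtain ⟨n, hn⟩ := hnx j
    exact ⟨n, fun l => (hsub _ l).2 (hn l)⟩
  · obtain ⟨v, hv⟩ := hA
    have hv' : (∏ i, y i ^ (Pv i - P)) • v ∈ L' := by
      rw [hmem]
      intro i
      rw [smul_smul, ← Finset.mul_prod_erase Finset.univ _ (Finset.mem_univ i), ← mul_assoc, ← pow_add,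
        Nat.add_sub_cancel' (hPv i), mul_comm, mul_smul, hyP i, smul_zero]
    refine ⟨⟨_, hv'⟩, fun h0 => hv ?_⟩
    have h1 := (hsub _ _).1 h0
    rw [Submodule.coe_mk, smul_smul, ← Finset.prod_mul_distrib] at h1
    rw [← h1]
    congr 1
    refine Finset.prod_congr rfl fun i _ => ?_
    rw [← pow_add]
    congr 1
    have := hPv i
    omega
  · refine le_trans ?_ hB
    exact LinearMap.finrank_le_finrank_of_injective
      (f := ((L'.subtype.restrictScalars k).restrict (p := K.comap (L'.subtype.restrictScalars k)) (q := K)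
        (fun l hl => hl)))
      (by
        intro l l' h
        have := congrArg Subtype.val h
        exact Subtype.ext (Subtype.ext this))

end Fermat.Agent.S43.Top0
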