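import Fermat.Agent.S43.Tan.Rep
import Fermat.Agent.S43.Top0.CountKer

/-!
# S43 / Top0 / Abs : the algebraic core of route TWX0

`Datum` = everything the algebra needs to know about ONE Taylor-Wiles level:  a finite local `k`-algebra `A` (the trace
algebra), the representation `R : G_ℚ → GL₂(A)` lifting `r` EXACTLY, and the finite `A`-module `L` (`V = L²`), with

* at the strict primes `q ∈ Sstr` : `a q, b q, c q ∈ 𝔪` (entries of `R τ_q - 1`), `a² + b c = 0` on `L`, and, in KERNEL form,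
  `R σ` is scalar on `L[a,b,c]` for `σ` in the decomposition set `D q`;
* at the Taylor-Wiles primes `qv i` : `y i ∈ 𝔪`, `y i ^ Pv i = 0`, `Pv i ≥ P`, `∏ y i ^ (Pv i - 1) ≠ 0` on `L` (SIZE),
  `# L[y] ≤ d` (CONTROL).

`Datum.scalar` : `r` is scalar on `D q` (Mazur).     `Datum.false` : contradiction with the Selmer bound.
-/

set_option autoImplicit false

open Matrix Module

noncomputable section

namespace Fermat.Agent.S43.Top0

open Fermat.Agent.S53 (G M2)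
open Fermat.Agent.S56
open Fermat.Agent.S56.C (rm IsCoc IsCob liftMat)

variable {k : Type} [Field k]

/-- One Taylor-Wiles level, algebraic form. -/
structure Datum (p : ℕ) (r : G →* GL (Fin 2) k) (Sram Sstr : Finset ℕ) (D : ℕ → Set G)
    {n₀ : ℕ} (qv : Fin n₀ → ℕ) (P d : ℕ) where
  A : Type
  [cA : CommRing A]
  [aA : Algebra k A]
  [fA : Module.Finite k A]
  π : A →ₐ[k] k
  hnil : ∃ N, (RingHom.ker π : Ideal A) ^ N = ⊥
  R : G → M2 A
  hR : ∀ σ, (R σ).map π = rm r σ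
  htr : Algebra.adjoin k (Set.range fun σ => (R σ).trace) = ⊤
  hmul : ∀ σ τ, R (σ * τ) = R σ * R τ
  hsm : ∃ F : IntermediateField ℚ (AlgebraicClosure ℚ), FiniteDimensional ℚ F ∧
    ∀ σ : G, (∀ x ∈ F, σ x = x) → R σ = 1
  hdet : ∀ σ, ∃ u : k, (R σ).det = algebraMap k A u
  hunr : ∀ q : ℕ, q.Prime → q ∉ Sram ∪ Sstr ∪ Finset.univ.image qv →
    ∀ B : ValuationSubring (AlgebraicClosure ℚ), B.LiesOverPrime q → ∀ σ ∈ B.inertiaSubgroupIn ℚ, R σ = 1
  hunip : ∀ q ∈ Sram, q.Prime → q ≠ p → ∀ B : ValuationSubring (AlgebraicClosure ℚ),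
    B.LiesOverPrime q → ∀ σ ∈ B.inertiaSubgroupIn ℚ, (R σ).trace = 2
  hflat : ∀ (φ : A →ₐ[k] DualNumber k) (c : G → M2 k), Function.Surjective φ →
    (∀ σ, (R σ).map φ = liftMat r c σ) → C.FlatAt r c p
  L : Type
  [gL : AddCommGroup L]
  [kL : Module k L]
  [mL : Module A L]
  [tL : IsScalarTower k A L]
  [fL : FiniteDimensional k L]
  a : ℕ → A
  b : ℕ → A
  c : ℕ → A
  ha : ∀ q ∈ Sstr, a q ∈ RingHom.ker π
  hb : ∀ q ∈ Sstr, b q ∈ RingHom.ker π
  hc : ∀ q ∈ Sstr, c q ∈ RingHom.ker π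
  hrel : ∀ q ∈ Sstr, ∀ l : L, (a q ^ 2 + b q * c q) • l = 0
  hstr : ∀ q ∈ Sstr, ∀ σ ∈ D q, ∀ l : L, a q • l = 0 → b q • l = 0 → c q • l = 0 →
    R σ 0 1 • l = 0 ∧ R σ 1 0 • l = 0 ∧ (R σ 0 0 - R σ 1 1) • l = 0
  y : Fin n₀ → A
  hy : ∀ i, y i ∈ RingHom.ker π
  Pv : Fin n₀ → ℕ
  hPv : ∀ i, P ≤ Pv i
  hyP : ∀ i (l : L), y i ^ Pv i • l = 0
  hA : ∃ v : L, (∏ i, y i ^ (Pv i - 1)) • v ≠ 0
  hB : Nat.card {l : L // ∀ i, y i • l = 0} ≤ d

attribute [instance] Datum.cA Datum.aA Datum.fA Datum.gL Datum.kL Datum.mL Datum.tL Datum.fL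

section socle

variable {A L : Type*} [CommRing A] [AddCommGroup L] [Module A L]

/-- a nonzero module over a ring with a nilpotent ideal `𝔪` has a nonzero element killed by `𝔪`. -/
theorem exists_socle (m : Ideal A) (N : ℕ) (hN : m ^ N = ⊥) (v : L) (hv : v ≠ 0) :
    ∃ l : L, l ≠ 0 ∧ ∀ z ∈ m, z • l = 0 := by
  have key : ∀ N : ℕ, (∀ z ∈ m ^ N, ∀ l : L, z • l = 0) → ∃ l : L, l ≠ 0 ∧ ∀ z ∈ m, z • l = 0 := by
    intro N
    induction N with
    | zero =>
      intro h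
      exact absurd (by simpa using h 1 (by simp) v) hv
    | succ N ih =>
      intro h
      by_cases h' : ∀ z ∈ m ^ N, ∀ l : L, z • l = 0
      · exact ih h'
      · push Not at h'
        obtain ⟨z, hz, l, hl⟩ := h'
        refine ⟨z • l, hl, fun w hw => ?_⟩
        rw [smul_smul]
        refine h _ ?_ l
        rw [pow_succ']
        exact Ideal.mul_mem_mul hw hz
  refine key N fun z hz l => ?_
  rw [hN, Ideal.mem_bot] at hz
  rw [hz, zero_smul]

end socle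

namespace Datum

variable {p : ℕ} {r : G →* GL (Fin 2) k} {Sram Sstr : Finset ℕ} {D : ℕ → Set G}
  {n₀ : ℕ} {qv : Fin n₀ → ℕ} {P d : ℕ} (X : Datum p r Sram Sstr D qv P d)

theorem smul_eq_of_socle {l : X.L} (hl : ∀ z ∈ (RingHom.ker X.π : Ideal X.A), z • l = 0) (z : X.A) :
    z • l = X.π z • l := by
  have h := hl _ (Tan.sub_algebraMap_mem_ker X.π z)
  rw [sub_smul, sub_eq_zero, algebraMap_smul] at h
  exact h

include X in
/-- **Mazur's principle, algebraic form**: `r` is scalar on the decomposition sets at the strict primes. -/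
theorem scalar (q : ℕ) (hq : q ∈ Sstr) (σ : G) (hσ : σ ∈ D q) : ∃ a : k, rm r σ = a • (1 : M2 k) := by
  obtain ⟨v, hv⟩ := X.hA
  have hv0 : v ≠ 0 := fun h => hv (by rw [h, smul_zero])
  obtain ⟨N, hN⟩ := X.hnil
  obtain ⟨l, hl0, hl⟩ := exists_socle _ N hN v hv0
  obtain ⟨h01, h10, hd⟩ := X.hstr q hq σ hσ l (hl _ (X.ha q hq)) (hl _ (X.hb q hq)) (hl _ (X.hc q hq))
  rw [X.smul_eq_of_socle hl] at h01 h10 hd
  have e01 := (smul_eq_zero.1 h01).resolve_right hl0
  have e10 := (smul_eq_zero.1 h10).resolve_right hl0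
  have ed := (smul_eq_zero.1 hd).resolve_right hl0
  have hπ : ∀ i j, X.π (X.R σ i j) = rm r σ i j := by
    intro i j
    rw [← X.hR σ]
    rfl
  rw [map_sub, sub_eq_zero] at ed
  rw [hπ] at e01 e10 ed
  rw [hπ] at ed
  refine ⟨rm r σ 0 0, ?_⟩
  ext i j
  fin_cases i <;> fin_cases j <;> simp [e01, e10, ← ed]

/-- the ideal of the elements of `A` killing `L[a_q, b_q, c_q ; q ∈ Sstr]`. -/
def strId : Ideal X.A where
  carrier := {z | ∀ l : X.L, (∀ q ∈ Sstr, X.a q • l = 0 ∧ X.b q • l = 0 ∧ X.c q • l = 0) → z • l = 0}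
  add_mem' := by
    intro z w hz hw l hl
    rw [add_smul, hz l hl, hw l hl, add_zero]
  zero_mem' := by
    intro l _
    rw [zero_smul]
  smul_mem' := by
    intro e z hz l hl
    rw [smul_eq_mul, mul_smul, hz l hl, smul_zero]

theorem nilp {z : X.A} (hz : z ∈ (RingHom.ker X.π : Ideal X.A)) : ∃ n, ∀ l : X.L, z ^ n • l = 0 := by
  obtain ⟨N, hN⟩ := X.hnil
  refine ⟨N, fun l => ?_⟩
  have : z ^ N ∈ (RingHom.ker X.π : Ideal X.A) ^ N := Ideal.pow_mem_pow hz N
  rw [hN, Ideal.mem_bot] at this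
  rw [this, zero_smul]

include X in
/-- **The contradiction**: a datum cannot coexist with a Selmer bound `g` with `2 #Sstr + g < n₀` when `P` is large. -/
theorem false [Finite k] (h2 : (2 : k) ≠ 0)
    (T₁ : Finset (G → M2 k)) (g : ℕ) (hcard : T₁.card ≤ Nat.card k ^ g)
    (ht0 : ∃ t ∈ T₁, IsCob r t)
    (hT : ∀ c, IsCoc r c → C.Smooth c → C.TraceZero c →
      (∀ q : ℕ, q.Prime → q ∉ Sram ∪ Sstr ∪ Finset.univ.image qv → C.UnramAt c q) → C.FlatAt r c p →
      (∀ q ∈ Sram, q.Prime → q ≠ p → C.UnipAt r c q) → (∀ q ∈ Sstr, ∀ σ ∈ D q, c σ = 0) →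
      ∃ t ∈ T₁, IsCob r (c - t))
    (hdim : 2 * Sstr.card + g < n₀)
    (hP : d * 2 ^ Sstr.card * (d * (n₀ + 1)) ^ (2 * Sstr.card + g) < P) : False := by
  classical
  obtain ⟨x, hx, hle⟩ := Tan.tan_ideal h2 X.π X.hnil r X.R X.hR X.htr p
    (Sram ∪ Sstr ∪ Finset.univ.image qv) Sram
    (fun φ c hs hc => Tan.selProps_of_fun r X.R _ Sram X.hmul X.hsm X.hdet X.hunr X.hunip φ c
      (X.hflat φ c hs hc) hc)
    {σ | ∃ q ∈ Sstr, σ ∈ D q}
    (by
      rintro σ ⟨q, hq, hσ⟩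
      exact X.scalar q hq σ hσ)
    X.strId
    (by
      rintro σ ⟨q, hq, hσ⟩
      refine ⟨fun l hl => ?_, fun l hl => ?_, fun l hl => ?_⟩
      · exact (X.hstr q hq σ hσ l (hl q hq).1 (hl q hq).2.1 (hl q hq).2.2).1
      · exact (X.hstr q hq σ hσ l (hl q hq).1 (hl q hq).2.1 (hl q hq).2.2).2.1
      · exact (X.hstr q hq σ hσ l (hl q hq).1 (hl q hq).2.1 (hl q hq).2.2).2.2)
    T₁ g hcard ht0
    (fun c h1 h3 h4 h5 h6 h7 h8 => hT c h1 h3 h4 h5 h6 h7 fun q hq σ hσ => h8 σ ⟨q, hq, hσ⟩)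
  -- enumeration of the strict primes
  let e := Sstr.equivFin
  let K : Submodule k X.L :=
    { carrier := {l | ∀ i, X.y i • l = 0}
      add_mem' := by
        intro l l' hl hl' i
        rw [smul_add, hl i, hl' i, add_zero]
      zero_mem' := by
        intro i
        rw [smul_zero]
      smul_mem' := by
        intro u l hl i
        rw [smul_comm, hl i, smul_zero] }
  have hK : finrank k K ≤ d := by
    have h1 : Nat.card K = Nat.card k ^ finrank k K := Module.natCard_eq_pow_finrank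
    have h3 : Nat.card K ≤ d := X.hB
    have h4 : 1 < Nat.card k := Finite.one_lt_card
    have h5 : finrank k K < Nat.card k ^ finrank k K := Nat.lt_pow_self h4
    omega
  refine count_ker (k := k) (A := X.A) (L := X.L) P d X.Pv X.hPv
    (fun j => X.a (e.symm j)) (fun j => X.b (e.symm j)) (fun j => X.c (e.symm j)) x X.y
    (fun j => X.hrel _ (e.symm j).2) X.hyP (fun j => X.nilp (X.hb _ (e.symm j).2))
    (fun j => X.nilp (X.hc _ (e.symm j).2)) (fun i => X.nilp (hx i)) ?_ X.hA K (fun l hl => hl) hK hdim hP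
  intro i l ha hb hc hxl
  obtain ⟨z, hz, w, hw, hzw⟩ := Submodule.mem_sup.1 (hle (X.hy i))
  rw [← hzw, add_smul]
  have h1 : z • l = 0 := by
    refine hz l fun q hq => ?_
    have hq' : ((e.symm (e ⟨q, hq⟩) : Sstr) : ℕ) = q := by rw [Equiv.symm_apply_apply]
    have ha' := ha (e ⟨q, hq⟩)
    have hb' := hb (e ⟨q, hq⟩)
    have hc' := hc (e ⟨q, hq⟩)
    simp only [hq'] at ha' hb' hc'
    exact ⟨ha', hb', hc'⟩
  have h3 : w • l = 0 := by
    obtain ⟨f, rfl⟩ := (Ideal.mem_span_range_iff_exists_fun).1 hw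
    rw [Finset.sum_smul]
    refine Finset.sum_eq_zero fun j _ => ?_
    rw [mul_smul, hxl j, smul_zero]
  rw [h1, h3, add_zero]

end Datum

end Fermat.Agent.S43.Top0
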