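import Mathlib

/-!
# S43 / Top0 / BC : base change `X ↦ k ⊗_{𝔽_p} X` of additive endomorphisms, and coordinates `k ⊗ X ≃ X^d`
-/

set_option autoImplicit false

noncomputable section

namespace Fermat.Agent.S43.Top0

open scoped TensorProduct

variable (p : ℕ) [Fact p.Prime] (k : Type) [Field k] [Algebra (ZMod p) k]
  {X : Type} [AddCommGroup X] [Module (ZMod p) X]

/-- base change of an additive endomorphism, as a ring homomorphism. -/
def bc : AddMonoid.End X →+* Module.End k (k ⊗[ZMod p] X) where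
  toFun f := (AddMonoidHom.toZModLinearMap p f).baseChange k
  map_one' := by
    have : AddMonoidHom.toZModLinearMap p (1 : AddMonoid.End X) = LinearMap.id := rfl
    rw [this, LinearMap.baseChange_id]; rfl
  map_mul' f g := by
    have : AddMonoidHom.toZModLinearMap p (f * g : AddMonoid.End X) =
      (AddMonoidHom.toZModLinearMap p f).comp (AddMonoidHom.toZModLinearMap p g) := rfl
    rw [this, LinearMap.baseChange_comp]; rfl
  map_zero' := by
    have : AddMonoidHom.toZModLinearMap p (0 : AddMonoid.End X) = 0 := rfl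
    rw [this, LinearMap.baseChange_zero]
  map_add' f g := by
    have : AddMonoidHom.toZModLinearMap p (f + g : AddMonoid.End X) =
      AddMonoidHom.toZModLinearMap p f + AddMonoidHom.toZModLinearMap p g := rfl
    rw [this, LinearMap.baseChange_add]

theorem bc_tmul (f : AddMonoid.End X) (c : k) (x : X) :
    bc p k f (c ⊗ₜ[ZMod p] x) = c ⊗ₜ[ZMod p] f x := rfl

/-- **coordinates**: `k ⊗ X ≃ X^d`, compatible with all base changed endomorphisms. -/
theorem exists_coord [Finite k] :
    ∃ (d : ℕ) (e : (k ⊗[ZMod p] X) ≃+ (Fin d → X)), Nat.card k = p ^ d ∧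
      (∀ (f : AddMonoid.End X) (w : k ⊗[ZMod p] X) (i : Fin d), e (bc p k f w) i = f (e w i)) ∧
      ∃ i₀ : Fin d, ∀ x : X, e ((1 : k) ⊗ₜ[ZMod p] x) i₀ ≠ 0 ∨ x = 0 := by
  classical
  haveI : Module.Finite (ZMod p) k := Module.Finite.of_finite
  let b := Module.finBasis (ZMod p) k
  let e₁ := TensorProduct.equivFinsuppOfBasisLeft (N := X) b
  let e₂ := Finsupp.linearEquivFunOnFinite (ZMod p) X (Fin (Module.finrank (ZMod p) k))
  have he : ∀ (c : k) (x : X) i, (e₁.trans e₂) (c ⊗ₜ[ZMod p] x) i = b.repr c i • x := by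
    intro c x i
    show e₁ (c ⊗ₜ[ZMod p] x) i = _
    exact TensorProduct.equivFinsuppOfBasisLeft_apply_tmul_apply b c x i
  refine ⟨Module.finrank (ZMod p) k, (e₁.trans e₂).toAddEquiv, ?_, ?_, ?_⟩
  · rw [Module.natCard_eq_pow_finrank (K := ZMod p) (V := k), Nat.card_zmod]
  · intro f w i
    show (e₁.trans e₂) (bc p k f w) i = f ((e₁.trans e₂) w i)
    induction w using TensorProduct.induction_on with
    | zero => simp
    | tmul c x =>
      rw [bc_tmul, he, he]
      exact (ZMod.map_smul f _ _).symm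
    | add w w' h h' =>
      rw [map_add, map_add, Pi.add_apply, h, h', map_add, Pi.add_apply, map_add]
  · have h1 : b.repr (1 : k) ≠ 0 := by
      intro h
      exact one_ne_zero (b.repr.map_eq_zero_iff.1 h)
    obtain ⟨i₀, hi₀⟩ := Finsupp.ne_iff.1 h1
    refine ⟨i₀, fun x => ?_⟩
    by_cases hx : x = 0
    · exact Or.inr hx
    · left
      show (e₁.trans e₂) ((1 : k) ⊗ₜ[ZMod p] x) i₀ ≠ 0
      rw [he]
      exact smul_ne_zero hi₀ hx

end Fermat.Agent.S43.Top0
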