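import Fermat.Agent.S43.Loc.Module
import Fermat.Agent.PT.Bridge.Levels
import Fermat.Agent.PT.Global.PlaceSystem
import Fermat.Agent.S56.Lq.Glue
import Fermat.Agent.S53.Defs

/-!
# S43 / Top0 / BadX : the strict primes, on the abstract module `X` of `Top0.LevelData` (leaf L3 of the consumer chain)
-/

set_option autoImplicit false

namespace Fermat.Agent.S43.Top0

open Fermat.Agent.S53 (G)
open Fermat.Agent.PT
open Fermat.Agent.PT.Local (Plc)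
open Fermat.Agent.S43.Loc
open scoped Pointwise

variable {X : Type*} [AddCommGroup X] [DistribMulAction G X]

/-- `(τ - 1)² = 0` and `p X = 0` ⟹ `τ ^ (p ^ 2) = 1` on `X`. -/
theorem pow_smul_of_sq_zero (p : ℕ) (htors : ∀ x : X, p • x = 0) (τ : G)
    (h : ∀ x : X, τ • τ • x - τ • x - τ • x + x = 0) (x : X) : τ ^ (p ^ (1 * 2)) • x = x := by
  refine pow_smul_eq_of_unip p 1 τ ⊤ (fun _ _ => trivial)
    (fun x _ => by rw [pow_one]; exact htors x) 2 x trivial ?_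
  show τ • (τ • x - x) - (τ • x - x) = 0
  rw [smul_sub, ← h x]
  abel

/-- the decomposition group acts on the inertia invariants through powers of `e`. -/
theorem dec_fixed_X (p : ℕ) [Fact p.Prime]
    (hsm : ∃ F : IntermediateField ℚ (AlgebraicClosure ℚ), FiniteDimensional ℚ F ∧
      ∀ σ : G, (∀ z ∈ F, σ z = z) → ∀ x : X, σ • x = x)
    (P : Plc) (hqp : P.ℓ ≠ p) (e : ℤ)
    (hpg : ∀ τ ∈ P.ine, ∃ N : ℕ, ∀ x : X, τ ^ (p ^ N) • x = x)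
    (hga : ∀ x : X, (∀ σ ∈ P.ine, σ • x = x) → ∀ φ : G, P.A.IsFrobeniusAt φ P.ℓ → φ • x = e • x) :
    ∀ d ∈ P.dec, ∃ j : ℕ, ∀ x : X, (∀ t ∈ P.ine, t • x = x) → d • x = (e ^ j) • x := by
  intro d hd
  obtain ⟨τA, hτA⟩ := exists_isTameGen p P hqp
  obtain ⟨φ, hφ⟩ := Fermat.Agent.Lib.Frobenius.exists_isFrobeniusAt P.A P.prime P.liesOver
  obtain ⟨j, n, hjn⟩ := hτA.dec_smul (X := X) hsm hpg (φ := φ) hφ (d := d) hd
  refine ⟨j, fun x hx => ?_⟩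
  rw [hjn x, zpow_smul_of_fixed (hx τA hτA.1)]
  clear hjn
  induction j with
  | zero => simp
  | succ j ih =>
    rw [pow_succ, mul_smul, hga x hx φ hφ, smul_comm, ih, smul_smul, pow_succ']

/-- **L3**, with respect to a base place `P0`. -/
theorem bad_X_aux (p : ℕ) [Fact p.Prime] (htors : ∀ x : X, p • x = 0)
    (hsm : ∃ F : IntermediateField ℚ (AlgebraicClosure ℚ), FiniteDimensional ℚ F ∧
      ∀ σ : G, (∀ z ∈ F, σ z = z) → ∀ x : X, σ • x = x)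
    (P0 : Plc) (hqp : P0.ℓ ≠ p) (e : ℤ)
    (hunip : ∀ A : ValuationSubring (AlgebraicClosure ℚ), A.LiesOverPrime P0.ℓ →
      ∀ σ ∈ A.inertiaSubgroupIn ℚ, ∀ τ ∈ A.inertiaSubgroupIn ℚ, ∀ x : X,
        σ • τ • x - σ • x - τ • x + x = 0)
    (hga : ∀ A : ValuationSubring (AlgebraicClosure ℚ), A.LiesOverPrime P0.ℓ → ∀ x : X,
      (∀ σ ∈ A.inertiaSubgroupIn ℚ, σ • x = x) → ∀ φ : G, A.IsFrobeniusAt φ P0.ℓ → φ • x = e • x)
    {sg : G} (hsg : IsTameGen p P0 sg) :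
      (∀ A : ValuationSubring (AlgebraicClosure ℚ), A.LiesOverPrime P0.ℓ →
        ∀ t ∈ A.inertiaSubgroupIn ℚ,
        ∃ (g : G) (n : ℕ), ∀ x : X, t • x = (g * sg ^ n * g⁻¹) • x) ∧
      (∀ A : ValuationSubring (AlgebraicClosure ℚ), A.LiesOverPrime P0.ℓ →
        ∀ g ∈ A.decompositionSubgroup ℚ, ∃ j : ℕ, ∀ x : X,
          (∀ t ∈ A.inertiaSubgroupIn ℚ, t • x = x) → g • x = (e ^ j) • x) := by
  have hq := P0.prime
  have hpg : ∀ A : ValuationSubring (AlgebraicClosure ℚ), A.LiesOverPrime P0.ℓ →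
      ∀ τ ∈ A.inertiaSubgroupIn ℚ, ∃ N : ℕ, ∀ x : X, τ ^ (p ^ N) • x = x := fun A hA τ hτ =>
    ⟨1 * 2, pow_smul_of_sq_zero p htors τ (hunip A hA τ hτ τ hτ)⟩
  refine ⟨fun A hA t ht => ?_, fun A hA d hd => ?_⟩
  · obtain ⟨g, hg⟩ := exists_smul_eq_of_liesOverPrime hq A P0.A hA P0.liesOver
    have h1 : g * t * g⁻¹ ∈ P0.ine := by
      have := Levels_conj_mem_inertiaSubgroupIn (K := ℚ) A g t ht
      rw [hg] at this
      exact this
    obtain ⟨n, hn⟩ := hsg.exists_pow_smul (X := X) hsm (hpg P0.A P0.liesOver) h1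
    refine ⟨g⁻¹, n, fun x => ?_⟩
    have h2 := hn (g • x)
    rw [← mul_smul, inv_mul_cancel_right, mul_smul] at h2
    rw [inv_inv, mul_smul, mul_smul, ← h2, inv_smul_smul]
  · exact dec_fixed_X p hsm ⟨A, P0.ℓ, hq, hA⟩ hqp e (hpg A hA) (hga A hA) d hd

/-- **L3.** -/
theorem bad_X (p : ℕ) [Fact p.Prime] (htors : ∀ x : X, p • x = 0)
    (hsm : ∃ F : IntermediateField ℚ (AlgebraicClosure ℚ), FiniteDimensional ℚ F ∧
      ∀ σ : G, (∀ z ∈ F, σ z = z) → ∀ x : X, σ • x = x)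
    {q : ℕ} (hq : q.Prime) (hqp : q ≠ p) (e : ℤ)
    (hunip : ∀ A : ValuationSubring (AlgebraicClosure ℚ), A.LiesOverPrime q →
      ∀ σ ∈ A.inertiaSubgroupIn ℚ, ∀ τ ∈ A.inertiaSubgroupIn ℚ, ∀ x : X,
        σ • τ • x - σ • x - τ • x + x = 0)
    (hga : ∀ A : ValuationSubring (AlgebraicClosure ℚ), A.LiesOverPrime q → ∀ x : X,
      (∀ σ ∈ A.inertiaSubgroupIn ℚ, σ • x = x) → ∀ φ : G, A.IsFrobeniusAt φ q → φ • x = e • x) :
    ∃ sg : G,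
      (∃ A : ValuationSubring (AlgebraicClosure ℚ), A.LiesOverPrime q ∧ sg ∈ A.inertiaSubgroupIn ℚ) ∧
      (∀ A : ValuationSubring (AlgebraicClosure ℚ), A.LiesOverPrime q → ∀ t ∈ A.inertiaSubgroupIn ℚ,
        ∃ (g : G) (n : ℕ), ∀ x : X, t • x = (g * sg ^ n * g⁻¹) • x) ∧
      (∀ A : ValuationSubring (AlgebraicClosure ℚ), A.LiesOverPrime q →
        ∀ g ∈ A.decompositionSubgroup ℚ, ∃ j : ℕ, ∀ x : X,
          (∀ t ∈ A.inertiaSubgroupIn ℚ, t • x = x) → g • x = (e ^ j) • x) := by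
  obtain ⟨P0, hP0⟩ : ∃ P0 : Plc, P0.ℓ = q := ⟨Fermat.Agent.S56.Lq.plcV ⟨q, hq⟩, rfl⟩
  subst hP0
  obtain ⟨sg, hsg⟩ := exists_isTameGen p P0 hqp
  obtain ⟨h1, h2⟩ := bad_X_aux p htors hsm P0 hqp e hunip hga hsg
  exact ⟨sg, ⟨P0.A, P0.liesOver, hsg.1⟩, h1, h2⟩

end Fermat.Agent.S43.Top0
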