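import Fermat.Agent.S43.Top0.Iface
import Fermat.Agent.S43.Geo.Contract
import Fermat.Agent.S43.GMA.CH
import Fermat.Agent.S43.Size.Unram
import Fermat.Agent.S43.Basic.Unip
import Fermat.Agent.S43.FlatB.Conc

/-!
# S43 / Top0 / Basic : the BASIC fields of `Top0.LevelData` for the generalised eigenspace (helper71)

`Vth n p S a` : the generalised eigenspace `Geo.genKV n p S a` of `V_p(F(n)) = KV Kbar (FN n) p` as a TYPE, with its structure of
`G_ℚ`-module; `TV n p S a ℓ` : the restriction of `T_ℓ` (`0` if `ℓ` is not a prime `∤ n`).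

All the fields of `LevelData` except `ga`, `ctrl`, `size` are proved here, each one as a separate theorem
(`Vth.fin, tors, T_comm, T_gal, smooth, unram, es, nil, flat, unip`), for a GENERAL level `n`.
`levelData_of` : `LevelData` from the three remaining fields, stated on `KV Kbar (FN n) p` (no subtype).
-/

set_option autoImplicit false
set_option linter.unusedSectionVars false
set_option linter.style.haveILetI false

noncomputable section

namespace Fermat.Agent.S43.Top0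

open AlgebraicCurve ModularCurve Fermat.Agent.S24 Fermat.Agent.GAL Fermat.Agent.GAL.Hecke
  Fermat.Agent.MR.Glue Fermat.Agent.S43.Geo Fermat.Agent.S43.CH
open Fermat.Agent.PT.Local (Plc)
open Fermat.Agent.S53 (G)

variable (n p : ℕ) [NeZero n] (S : Finset ℕ) (a : ℕ → ℤ)

/-! ### stability -/

theorem genKV_smul (g : GQ) {x : KV Kbar (FN n) p} (hx : x ∈ genKV n p S a) :
    g • x ∈ genKV n p S a := by
  rw [mem_genKV] at hx ⊢
  intro ℓ _ h1 h2 h3
  obtain ⟨k, hk⟩ := hx ℓ h1 h2 h3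
  refine ⟨k, ?_⟩
  have hc : Function.Semiconj (fun y : KV Kbar (FN n) p => g • y) (uKV n p ℓ (a ℓ))
      (uKV n p ℓ (a ℓ)) := by
    intro y
    show g • uKV n p ℓ (a ℓ) y = uKV n p ℓ (a ℓ) (g • y)
    rw [uKV_apply, uKV_apply, heckeT_galois_smul, smul_sub, smul_comm]
  have := (hc.iterate_right k) x
  show (uKV n p ℓ (a ℓ))^[k] (g • x) = 0
  rw [← this]
  show g • (uKV n p ℓ (a ℓ))^[k] x = 0
  rw [hk, smul_zero]

theorem genKV_tE [NeZero p] {ℓ : ℕ} (hℓ : ℓ.Prime) (hℓn : ¬ ℓ ∣ n) {x : KV Kbar (FN n) p}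
    (hx : x ∈ genKV n p S a) : tE n p ℓ x ∈ genKV n p S a := by
  rw [mem_genKV] at hx ⊢
  intro ℓ' _ h1 h2 h3
  obtain ⟨k, hk⟩ := hx ℓ' h1 h2 h3
  refine ⟨k, ?_⟩
  have hc : Function.Semiconj (tE n p ℓ) (uKV n p ℓ' (a ℓ')) (uKV n p ℓ' (a ℓ')) := by
    intro y
    rw [uKV_apply, uKV_apply, map_sub, map_zsmul, ← tE_apply, ← tE_apply]
    have := DFunLike.congr_fun (tE_comm n p hℓ h1 hℓn h2) y
    rw [show tE n p ℓ (tE n p ℓ' y) = tE n p ℓ' (tE n p ℓ y) from this]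
  have := (hc.iterate_right k) x
  rw [← this, hk, map_zero]

/-! ### the type -/

/-- **the generalised `θ`-part of `V_p(F(n))` as a type.** -/
def Vth : Type := ↥(genKV n p S a)

instance : AddCommGroup (Vth n p S a) := inferInstanceAs (AddCommGroup ↥(genKV n p S a))

/-- the inclusion. -/
def Vth.incl : Vth n p S a →+ KV Kbar (FN n) p := (genKV n p S a).subtype

variable {n p S a}

theorem Vth.incl_injective : Function.Injective (Vth.incl n p S a) := Subtype.val_injective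

theorem Vth.incl_mem (x : Vth n p S a) : Vth.incl n p S a x ∈ genKV n p S a := x.2

/-- constructor. -/
def Vth.mk (x : KV Kbar (FN n) p) (hx : x ∈ genKV n p S a) : Vth n p S a := ⟨x, hx⟩

@[simp] theorem Vth.incl_mk (x : KV Kbar (FN n) p) (hx : x ∈ genKV n p S a) :
    Vth.incl n p S a (Vth.mk x hx) = x := rfl

theorem Vth.ext {x y : Vth n p S a} (h : Vth.incl n p S a x = Vth.incl n p S a y) : x = y :=
  Vth.incl_injective h

instance : DistribMulAction G (Vth n p S a) where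
  smul g x := Vth.mk (g • Vth.incl n p S a x) (genKV_smul n p S a g x.2)
  one_smul x := Vth.ext (one_smul G (Vth.incl n p S a x))
  mul_smul g h x := Vth.ext (mul_smul g h (Vth.incl n p S a x))
  smul_zero g := Vth.ext (smul_zero g)
  smul_add g x y := Vth.ext (smul_add g (Vth.incl n p S a x) (Vth.incl n p S a y))

@[simp] theorem Vth.incl_smul (g : G) (x : Vth n p S a) :
    Vth.incl n p S a (g • x) = g • Vth.incl n p S a x := rfl

variable (n p S a)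

/-- the restriction of `T_ℓ`. -/
def TVaux [NeZero p] (ℓ : ℕ) (h : ℓ.Prime ∧ ¬ ℓ ∣ n) : AddMonoid.End (Vth n p S a) :=
  { toFun := fun x => Vth.mk (tE n p ℓ (Vth.incl n p S a x)) (genKV_tE n p S a h.1 h.2 x.2)
    map_zero' := Vth.ext (by rw [Vth.incl_mk, map_zero, map_zero])
    map_add' := fun x y => Vth.ext (by
      rw [Vth.incl_mk, map_add, map_add, map_add, Vth.incl_mk, Vth.incl_mk]) }

/-- **the Hecke operators on `Vth`** (total in `ℓ`). -/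
def TV [NeZero p] (ℓ : ℕ) : AddMonoid.End (Vth n p S a) :=
  if h : ℓ.Prime ∧ ¬ ℓ ∣ n then TVaux n p S a ℓ h else 0

variable {n p S a}

theorem Vth.incl_TV [NeZero p] {ℓ : ℕ} (hℓ : ℓ.Prime) (hℓn : ¬ ℓ ∣ n) (x : Vth n p S a) :
    Vth.incl n p S a (TV n p S a ℓ x) = tE n p ℓ (Vth.incl n p S a x) := by
  rw [TV, dif_pos ⟨hℓ, hℓn⟩]
  rfl

theorem Vth.incl_TV' [NeZero p] {ℓ : ℕ} [NeZero ℓ] (hℓ : ℓ.Prime) (hℓn : ¬ ℓ ∣ n)
    (x : Vth n p S a) :
    Vth.incl n p S a (TV n p S a ℓ x) = heckeT Kbar n ℓ p (Vth.incl n p S a x) := by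
  rw [Vth.incl_TV hℓ hℓn, tE_apply]

/-! ### the fields -/

theorem Vth.fin [NeZero p] : Finite (Vth n p S a) :=
  haveI := kv_finite n p
  Finite.of_injective _ (Vth.incl_injective (n := n) (p := p) (S := S) (a := a))

theorem Vth.tors (x : Vth n p S a) : p • x = 0 :=
  Vth.ext (by rw [map_nsmul, map_zero]; exact KV.nsmul_eq_zero _)

theorem Vth.T_comm [NeZero p] {ℓ ℓ' : ℕ} (hℓ : ℓ.Prime) (hℓn : ¬ ℓ ∣ n) (hℓ' : ℓ'.Prime)
    (hℓn' : ¬ ℓ' ∣ n) : Commute (TV n p S a ℓ) (TV n p S a ℓ') := by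
  apply AddMonoidHom.ext
  intro x
  apply Vth.ext
  show Vth.incl n p S a (TV n p S a ℓ (TV n p S a ℓ' x))
    = Vth.incl n p S a (TV n p S a ℓ' (TV n p S a ℓ x))
  rw [Vth.incl_TV hℓ hℓn, Vth.incl_TV hℓ' hℓn', Vth.incl_TV hℓ' hℓn', Vth.incl_TV hℓ hℓn]
  exact DFunLike.congr_fun (tE_comm n p hℓ hℓ' hℓn hℓn') _

theorem Vth.T_gal [NeZero p] (ℓ : ℕ) (σ : G) (x : Vth n p S a) :
    TV n p S a ℓ (σ • x) = σ • TV n p S a ℓ x := by
  by_cases h : ℓ.Prime ∧ ¬ ℓ ∣ n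
  · apply Vth.ext
    rw [Vth.incl_TV h.1 h.2, Vth.incl_smul, Vth.incl_smul, Vth.incl_TV h.1 h.2]
    exact (DFunLike.congr_fun (tE_gE n p ℓ σ).eq _).symm
  · rw [TV, dif_neg h]
    exact (smul_zero σ).symm

theorem Vth.smooth [NeZero p] :
    ∃ F : IntermediateField ℚ (AlgebraicClosure ℚ), FiniteDimensional ℚ F ∧
      ∀ σ : G, (∀ z ∈ F, σ z = z) → ∀ x : Vth n p S a, σ • x = x := by
  obtain ⟨F, hF, h⟩ := kv_cont n p
  exact ⟨F, hF, fun σ hσ x => Vth.ext (h σ hσ _)⟩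

theorem Vth.unram [NeZero p] {ℓ : ℕ} (hℓ : ℓ.Prime) (hℓn : ¬ ℓ ∣ n) (hℓp : ¬ ℓ ∣ p)
    (A : ValuationSubring (AlgebraicClosure ℚ)) (hA : A.LiesOverPrime ℓ) (σ : G)
    (hσ : σ ∈ A.inertiaSubgroupIn ℚ) (x : Vth n p S a) : σ • x = x :=
  Vth.ext (Size.kv_unram n p ℓ (Nat.pos_of_ne_zero (NeZero.ne p)) hℓ hℓn hℓp A hA σ hσ _)

theorem Vth.es [NeZero p] {ℓ : ℕ} (hℓ : ℓ.Prime) (hℓn : ¬ ℓ ∣ n) (hℓp : ¬ ℓ ∣ p)
    (A : ValuationSubring (AlgebraicClosure ℚ)) (hA : A.LiesOverPrime ℓ) (φ : G)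
    (hφ : A.IsFrobeniusAt φ ℓ) (x : Vth n p S a) :
    φ • φ • x - TV n p S a ℓ (φ • x) + ℓ • x = 0 := by
  haveI : NeZero ℓ := ⟨hℓ.ne_zero⟩
  apply Vth.ext
  rw [map_add, map_sub, map_nsmul, map_zero, Vth.incl_TV' hℓ hℓn, Vth.incl_smul, Vth.incl_smul]
  exact kv_frob n p ℓ hℓ hℓn hℓp A hA φ hφ _

theorem Vth.incl_pow [NeZero p] {ℓ : ℕ} [NeZero ℓ] (hℓ : ℓ.Prime) (hℓn : ¬ ℓ ∣ n) (c : ℤ) (k : ℕ)
    (x : Vth n p S a) :
    Vth.incl n p S a (((TV n p S a ℓ - (c : AddMonoid.End (Vth n p S a))) ^ k) x)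
      = (uKV n p ℓ c)^[k] (Vth.incl n p S a x) := by
  induction k generalizing x with
  | zero => rfl
  | succ k ih =>
    rw [pow_succ, Function.iterate_succ_apply]
    show Vth.incl n p S a (((TV n p S a ℓ - (c : AddMonoid.End (Vth n p S a))) ^ k)
      ((TV n p S a ℓ - (c : AddMonoid.End (Vth n p S a))) x)) = _
    rw [ih]
    congr 1
    show Vth.incl n p S a (TV n p S a ℓ x - (c : AddMonoid.End (Vth n p S a)) x) = _
    rw [map_sub, Vth.incl_TV' hℓ hℓn, AddMonoid.End.intCast_apply, map_zsmul, uKV_apply]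

theorem Vth.nil [NeZero p] {ℓ : ℕ} (hℓ : ℓ.Prime) (hℓn : ¬ ℓ ∣ n) (hℓS : ℓ ∉ S) :
    ∃ N : ℕ, ∀ x : Vth n p S a,
      ((TV n p S a ℓ - (a ℓ : AddMonoid.End (Vth n p S a))) ^ N) x = 0 := by
  haveI : NeZero ℓ := ⟨hℓ.ne_zero⟩
  haveI := Vth.fin (n := n) (p := p) (S := S) (a := a)
  haveI := Fintype.ofFinite (Vth n p S a)
  have h : ∀ x : Vth n p S a, ∃ k : ℕ, (uKV n p ℓ (a ℓ))^[k] (Vth.incl n p S a x) = 0 :=
    fun x => mem_genKV.1 x.2 ℓ hℓ hℓn hℓS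
  choose k hk using h
  refine ⟨∑ x, k x, fun x => Vth.ext ?_⟩
  have hle : k x ≤ ∑ y, k y := Finset.single_le_sum (fun _ _ => Nat.zero_le _) (Finset.mem_univ x)
  obtain ⟨m, hm⟩ := Nat.exists_eq_add_of_le hle
  rw [Vth.incl_pow hℓ hℓn, hm, add_comm, Function.iterate_add_apply, hk, iterate_map_zero, map_zero]

theorem Vth.flat [Fact p.Prime] (hpn : ¬ p ∣ n) : Fermat.Agent.S19.IsFunFlat p (Vth n p S a) :=
  Fermat.Agent.S19.IsFunFlat.of_injective (Vth.incl n p S a) Vth.incl_injective (fun _ _ => rfl)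
    (FlatB.isFunFlat_KV_one n p hpn)

theorem Vth.unip {q : ℕ} (hp : p.Prime) (hq : q.Prime) (hqp : q ≠ p) (M : ℕ) (hn : n = M * q)
    (hqM : ¬ q ∣ M) (A : ValuationSubring (AlgebraicClosure ℚ)) (hA : A.LiesOverPrime q)
    (σ : G) (hσ : σ ∈ A.inertiaSubgroupIn ℚ) (τ : G) (hτ : τ ∈ A.inertiaSubgroupIn ℚ)
    (x : Vth n p S a) : σ • τ • x - σ • x - τ • x + x = 0 := by
  apply Vth.ext
  rw [map_add, map_sub, map_sub, map_zero, Vth.incl_smul, Vth.incl_smul, Vth.incl_smul]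
  exact Basic.unip_exact' M q p 1 hn (pow_one p).symm hq hqM hp hqp A hA σ hσ τ hτ _

/-! ### norms -/

theorem Vth.incl_nrm (σ : G) (P : ℕ) (x : Vth n p S a) :
    Vth.incl n p S a (nrm (Vth n p S a) σ P x) = Tower.nrm σ P (Vth.incl n p S a x) := by
  have h : ∀ (s : Finset ℕ), (∑ i ∈ s, DistribMulAction.toAddMonoidEnd G (Vth n p S a) (σ ^ i)) x
      = ∑ i ∈ s, (σ ^ i) • x := by
    intro s
    induction s using Finset.cons_induction with
    | empty => rfl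
    | cons i s hi ih =>
      rw [Finset.sum_cons, Finset.sum_cons, ← ih]
      rfl
  rw [nrm, Tower.nrm, h, map_sum]
  rfl

/-! ### assembly -/

/-- **`LevelData` for `Vth n p S a` from `ga`, `ctrl`, `size`** (stated on `V_p(F(n))`). -/
theorem levelData_of [Fact p.Prime] (bad Sstr : Finset ℕ) (eps : ℕ → ℤ) {r : ℕ} (qv : Fin r → ℕ)
    (C : ℕ) (hpn : ¬ p ∣ n)
    (hgood : ∀ ℓ, Good bad qv ℓ → ¬ ℓ ∣ n ∧ ℓ ∉ S ∧ ℓ ≠ p)
    (hlev : ∀ ℓ : ℕ, ℓ.Prime → ℓ ≠ 2 → ℓ ∉ Sstr → (∀ i, ℓ ≠ qv i) → ¬ ℓ ∣ n)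
    (hstr : ∀ q ∈ Sstr, q.Prime ∧ q ≠ p ∧ ∃ M, n = M * q ∧ ¬ q ∣ M)
    (ga : ∀ q ∈ Sstr, ∀ A : ValuationSubring (AlgebraicClosure ℚ), A.LiesOverPrime q →
      ∀ x ∈ genKV n p S a, (∀ σ ∈ A.inertiaSubgroupIn ℚ, σ • x = x) →
      ∀ φ : G, A.IsFrobeniusAt φ q → φ • x = eps q • x)
    (ctrl : ∀ A : Fin r → ValuationSubring (AlgebraicClosure ℚ), (∀ i, (A i).LiesOverPrime (qv i)) →
      Nat.card {x : KV Kbar (FN n) p // x ∈ genKV n p S a ∧
        ∀ i, ∀ σ ∈ (A i).inertiaSubgroupIn ℚ, σ • x = x} ≤ C)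
    (size : ∀ (Pl : Fin r → Plc) (σ : Fin r → G), (∀ i, (Pl i).ℓ = qv i) →
      (∀ i, Loc.IsTameGen p (Pl i) (σ i)) →
      ∃ (e : Equiv.Perm (Fin r)), ∃ x ∈ genKV n p S a,
        Tower.nprod ((List.ofFn fun i => (σ (e i), ppart p (qv (e i)))).reverse) x ≠ 0) :
    haveI : NeZero p := ⟨(Fact.out : p.Prime).ne_zero⟩
    LevelData p a bad Sstr eps qv C (Vth n p S a) (TV n p S a) := by
  haveI : NeZero p := ⟨(Fact.out : p.Prime).ne_zero⟩
  have hp : p.Prime := Fact.out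
  have hnd : ∀ {ℓ : ℕ}, ℓ.Prime → ℓ ≠ p → ¬ ℓ ∣ p := fun hℓ hne h =>
    hne ((Nat.prime_dvd_prime_iff_eq hℓ hp).1 h)
  refine
    { fin := Vth.fin
      tors := Vth.tors
      T_comm := fun ℓ ℓ' h h' => Vth.T_comm h.1 (hgood ℓ h).1 h'.1 (hgood ℓ' h').1
      T_gal := fun ℓ _ σ x => Vth.T_gal ℓ σ x
      smooth := Vth.smooth
      unram := fun ℓ hℓ h2 hℓp hS hq A hA σ hσ x =>
        Vth.unram hℓ (hlev ℓ hℓ h2 hS hq) (hnd hℓ hℓp) A hA σ hσ x
      es := fun ℓ h A hA φ hφ x =>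
        Vth.es h.1 (hgood ℓ h).1 (hnd h.1 (hgood ℓ h).2.2) A hA φ hφ x
      nil := fun ℓ h => Vth.nil h.1 (hgood ℓ h).1 (hgood ℓ h).2.1
      flat := Vth.flat hpn
      unip := fun q hq A hA σ hσ τ hτ x => by
        obtain ⟨h1, h2, M, h3, h4⟩ := hstr q hq
        exact Vth.unip hp h1 h2 M h3 h4 A hA σ hσ τ hτ x
      ga := fun q hq A hA x hx φ hφ => Vth.ext (by
        rw [Vth.incl_smul, map_zsmul]
        exact ga q hq A hA _ x.2 (fun σ hσ => congrArg (Vth.incl n p S a) (hx σ hσ)) φ hφ)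
      ctrl := fun A hA => ?_
      size := fun Pl σ h1 h2 => ?_ }
  · haveI := kv_finite n p
    refine le_trans (Nat.card_le_card_of_injective
      (fun x : {x : Vth n p S a // ∀ i, ∀ σ ∈ (A i).inertiaSubgroupIn ℚ, σ • x = x} =>
        (⟨Vth.incl n p S a x.1, x.1.2, fun i σ hσ => congrArg (Vth.incl n p S a) (x.2 i σ hσ)⟩ :
          {x : KV Kbar (FN n) p // x ∈ genKV n p S a ∧
            ∀ i, ∀ σ ∈ (A i).inertiaSubgroupIn ℚ, σ • x = x})) ?_) (ctrl A hA)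
    intro x y hxy
    have h1 : Vth.incl n p S a x.1 = Vth.incl n p S a y.1 :=
      congrArg (fun z : {x : KV Kbar (FN n) p // x ∈ genKV n p S a ∧
        ∀ i, ∀ σ ∈ (A i).inertiaSubgroupIn ℚ, σ • x = x} => z.1) hxy
    exact Subtype.ext (Vth.ext h1)
  · obtain ⟨e, x, hx, hne⟩ := size Pl σ h1 h2
    refine ⟨e, Vth.mk x hx, fun h0 => hne ?_⟩
    have key : ∀ (l : List (G × ℕ)) (y : Vth n p S a),
        Vth.incl n p S a ((l.map fun t => nrm (Vth n p S a) t.1 t.2).prod y)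
          = Tower.nprod l.reverse (Vth.incl n p S a y) := by
      intro l
      induction l with
      | nil => intro y; rfl
      | cons t l ih =>
        intro y
        rw [List.map_cons, List.prod_cons, List.reverse_cons]
        show Vth.incl n p S a (nrm (Vth n p S a) t.1 t.2
          ((l.map fun t => nrm (Vth n p S a) t.1 t.2).prod y)) = _
        rw [Vth.incl_nrm, ih]
        generalize l.reverse = l'
        generalize Vth.incl n p S a y = z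
        induction l' generalizing z with
        | nil => rfl
        | cons u l' ih' => exact ih' _
    have h3 := key (List.ofFn fun i => (σ (e i), ppart p (qv (e i)))) (Vth.mk x hx)
    rw [List.map_ofFn] at h3
    rw [← Vth.incl_mk x hx, ← h3]
    exact (congrArg (Vth.incl n p S a) h0).trans (map_zero _)

end Fermat.Agent.S43.Top0
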