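import Fermat.Agent.S43.GMA.CH
import Fermat.Agent.S43.Basic.Unip
import Fermat.Agent.S43.Size.Unram
import Fermat.Agent.S53.Defs

/-!
# S43 / Top0 / BasicKV : the four Galois fields of `Top0.LevelData` on the WHOLE `V_p(F(n)) = KV Kbar (FN n) p`

Everything is stated for all `x : KV Kbar (FN n) p`, in the exact shape of the fields `smooth`, `unram`, `es`, `unip` of
`Top0.LevelData` (with `G = S53.G`), so that they restrict to any stable subgroup by `Subtype.ext`.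

* `kv_smooth` : a finite extension `F / ℚ` such that the elements fixing `F` act trivially;
* `kv_unram`  : the inertia groups at `ℓ ∤ n p` act trivially;
* `kv_es`     : Eichler-Shimura `φ² x - T_ℓ (φ x) + ℓ x = 0`, `ℓ ∤ n p`, with `T_ℓ = CH.tE n p ℓ` (`kv_es'` : with `heckeT`);
* `kv_unip`   : `(σ - 1)(τ - 1) = 0` for `σ, τ` in an inertia group at `q ∥ n`, `q ≠ p`;
* (finiteness : `MR.Glue.kv_finite n p`; torsion : `KV.nsmul_eq_zero x`.)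
-/

set_option autoImplicit false
set_option linter.unusedSectionVars false

noncomputable section

namespace Fermat.Agent.S43.Top0

open AlgebraicCurve ModularCurve Fermat.Agent.S24 Fermat.Agent.GAL Fermat.Agent.GAL.Hecke
open Fermat.Agent.S53 (G)

variable (n p : ℕ) [NeZero n]

/-- field `smooth`. -/
theorem kv_smooth [NeZero p] : ∃ F : IntermediateField ℚ (AlgebraicClosure ℚ), FiniteDimensional ℚ F ∧
    ∀ σ : G, (∀ z ∈ F, σ z = z) → ∀ x : KV Kbar (FN n) p, σ • x = x :=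
  Fermat.Agent.MR.Glue.kv_cont n p

/-- field `unram`. -/
theorem kv_unram (hp : 0 < p) (ℓ : ℕ) (hℓ : ℓ.Prime) (hℓn : ¬ ℓ ∣ n) (hℓp : ¬ ℓ ∣ p)
    (A : ValuationSubring (AlgebraicClosure ℚ)) (hA : A.LiesOverPrime ℓ)
    (σ : G) (hσ : σ ∈ A.inertiaSubgroupIn ℚ) (x : KV Kbar (FN n) p) : σ • x = x :=
  Size.kv_unram n p ℓ hp hℓ hℓn hℓp A hA σ hσ x

/-- field `es`, with `heckeT`. -/
theorem kv_es' (hp : 0 < p) (ℓ : ℕ) [NeZero ℓ] (hℓ : ℓ.Prime) (hℓn : ¬ ℓ ∣ n) (hℓp : ¬ ℓ ∣ p)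
    (A : ValuationSubring (AlgebraicClosure ℚ)) (hA : A.LiesOverPrime ℓ)
    (φ : G) (hφ : A.IsFrobeniusAt φ ℓ) (x : KV Kbar (FN n) p) :
    φ • φ • x - heckeT Kbar n ℓ p (φ • x) + ℓ • x = 0 :=
  Size.kv_ES n p ℓ hp hℓ hℓn hℓp A hA φ hφ x

/-- field `es`, with `CH.tE`. -/
theorem kv_es [NeZero p] (ℓ : ℕ) (hℓ : ℓ.Prime) (hℓn : ¬ ℓ ∣ n) (hℓp : ¬ ℓ ∣ p)
    (A : ValuationSubring (AlgebraicClosure ℚ)) (hA : A.LiesOverPrime ℓ)
    (φ : G) (hφ : A.IsFrobeniusAt φ ℓ) (x : KV Kbar (FN n) p) :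
    φ • φ • x - CH.tE n p ℓ (φ • x) + ℓ • x = 0 := by
  have : NeZero ℓ := ⟨hℓ.ne_zero⟩
  rw [CH.tE_apply]
  exact kv_es' n p (Nat.pos_of_ne_zero (NeZero.ne p)) ℓ hℓ hℓn hℓp A hA φ hφ x

/-- field `unip`: `q ∥ n`, `q ≠ p`. -/
theorem kv_unip (hp : p.Prime) (q : ℕ) (hq : q.Prime) (hqp : q ≠ p) (hqn : q ∣ n) (hqq : ¬ q * q ∣ n)
    (A : ValuationSubring (AlgebraicClosure ℚ)) (hA : A.LiesOverPrime q)
    (σ : G) (hσ : σ ∈ A.inertiaSubgroupIn ℚ) (τ : G) (hτ : τ ∈ A.inertiaSubgroupIn ℚ)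
    (x : KV Kbar (FN n) p) : σ • τ • x - σ • x - τ • x + x = 0 := by
  obtain ⟨M, hM⟩ := hqn
  refine Basic.unip_exact' M q p 1 (by rw [hM, mul_comm]) (pow_one p).symm hq ?_ hp hqp A hA σ hσ τ hτ x
  rintro ⟨c, rfl⟩
  exact hqq ⟨c, by rw [hM, mul_assoc]⟩

end Fermat.Agent.S43.Top0
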