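import Fermat.Agent.S43.Top0.Main

/-!
# S43 / Top0 / Close : arrows (3) + (4) + (5) : a family of `LevelData` is contradictory

`false_of_forall_levelData` : let `bad j` (`j < t`, `t ≥ 1`) be distinct primes `≠ 2, p` at which `rho P` is scalar.  If for every
`n₀` there is a constant `C` such that EVERY Taylor-Wiles set `qv : Fin n₀ → ℕ` (outside `S`, any depth `n`) carries a
`LevelData P.p a S (image bad) eps qv C X TX`, then `False`.
-/

set_option autoImplicit false

noncomputable section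

namespace Fermat.Agent.S43.Top0

open Fermat.Agent.S53 (G M2)
open Fermat.Agent.S43.BigImg Fermat.Agent.S56
open WeierstrassCurve WeierstrassCurve.Affine WeierstrassCurve.Affine.Point

theorem false_of_forall_levelData (P : FreyPackage)
    (hirr : GaloisRepIsIrreducible (K := AlgebraicClosure ℚ) ℚ P.freyCurve P.p)
    (W : WeierstrassCurve ℤ) (hW : W.IsIntegralModelOf P.freyCurve)
    {t : ℕ} (ht : 0 < t) (bad : Fin t → ℕ) (hinj : Function.Injective bad)
    (hprime : ∀ j, (bad j).Prime) (hne2 : ∀ j, bad j ≠ 2) (hnep : ∀ j, bad j ≠ P.p)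
    (hscal : ∀ j, GWS.ScalarAt (T.matRep (rho P)) (bad j))
    (S : Finset ℕ) (h2S : 2 ∈ S) (hpS : P.p ∈ S) (hbadS : ∀ j, bad j ∈ S)
    (H : ∀ n₀ : ℕ, ∃ C : ℕ, ∀ (n : ℕ) (qv : Fin n₀ → ℕ), Core.IsTWSet P S n qv →
      ∃ (eps : ℕ → ℤ) (X : Type) (_ : AddCommGroup X) (_ : DistribMulAction G X)
        (TX : ℕ → AddMonoid.End X),
        LevelData P.p W.apOfModel S (Finset.univ.image bad) eps qv C X TX) :
    False := by
  refine Core.false_of_forall_algOut P hirr ht bad hinj hprime hne2 hnep hscal S h2S hpS hbadS ?_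
  intro n₀
  obtain ⟨C, hC⟩ := H n₀
  refine ⟨C, fun n qv hqv => ?_⟩
  obtain ⟨eps, X, _, _, TX, D⟩ := hC n qv hqv
  exact algOut_of_levelData P hirr W hW bad hprime hne2 hnep S h2S hpS eps qv hqv C D

end Fermat.Agent.S43.Top0

end
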