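import Fermat.Agent.S43.Top0.Iface
import Fermat.Agent.S43.Top0.BC
import Fermat.Agent.S43.Mid.Abs
import Fermat.Agent.S43.GMA.CH
import Fermat.Agent.PT.R.Char
import Fermat.Agent.Lib.Frobenius
import Fermat.Agent.PT.Base.WBDefs

/-!
# S43 / Top0 / Dat : `LevelData` ⇒ `Mid.Dat` on `W = k ⊗_{𝔽_p} X`  (abstract Cayley--Hamilton from ES + Frobenius density)
-/

set_option autoImplicit false

noncomputable section

namespace Fermat.Agent.S43.Top0

open Fermat.Agent.S53 (G)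
open ExtCitation (cycloChar)
open Fermat.Agent.S43.CH (luc)
open scoped TensorProduct
open Polynomial

variable {p : ℕ} [Fact p.Prime] (k : Type) [Field k] [Algebra (ZMod p) k]
  {a : ℕ → ℤ} {bad Sstr : Finset ℕ} {eps : ℕ → ℤ} {r : ℕ} {qv : Fin r → ℕ} {C : ℕ}
  {X : Type} [AddCommGroup X] [DistribMulAction G X] {T : ℕ → AddMonoid.End X}

/-- the Galois action as a monoid hom to `AddMonoid.End X`. -/
abbrev gX (X : Type) [AddCommGroup X] [DistribMulAction G X] : G →* AddMonoid.End X :=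
  DistribMulAction.toAddMonoidEnd G X

/-- the Galois action on `k ⊗ X`. -/
def gk (p : ℕ) [Fact p.Prime] (k : Type) [Field k] [Algebra (ZMod p) k] (X : Type) [AddCommGroup X]
    [DistribMulAction G X] [Module (ZMod p) X] : G →* Module.End k (k ⊗[ZMod p] X) :=
  ((bc p k : AddMonoid.End X →+* _) : AddMonoid.End X →* _).comp (gX X)

/-- the mod `p` cyclotomic character with values in `kˣ`. -/
def chik (p : ℕ) [Fact p.Prime] (k : Type) [Field k] [Algebra (ZMod p) k] : G →* kˣ :=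
  (Units.map ((algebraMap (ZMod p) k : ZMod p →+* k) : ZMod p →* k)).comp (cycloChar p)

/-- **(TOP0-CH) abstract Cayley--Hamilton**: every `g` agrees, on `X`, on `μ_p` and on a given finite extension `F'`, with a power
`σ ^ b` of a Frobenius element at a good prime `ℓ`; hence `g² - luc_b(T_ℓ) g + ℓ^b = 0` on `X`. -/
theorem ch_abs (LD : LevelData p a bad Sstr eps qv C X T)
    (F' : IntermediateField ℚ (AlgebraicClosure ℚ)) (hF' : FiniteDimensional ℚ F') (g : G) :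
    ∃ (ℓ b : ℕ) (A : ValuationSubring (AlgebraicClosure ℚ)) (σ : G), Good bad qv ℓ ∧ ℓ ≠ p ∧
      A.LiesOverPrime ℓ ∧ A.IsFrobeniusAt σ ℓ ∧ (∀ z ∈ F', (σ ^ b) z = g z) ∧
      ((cycloChar p g : (ZMod p)ˣ) : ZMod p) = (ℓ : ZMod p) ^ b ∧
      gX X g * gX X g - aeval (T ℓ) (luc ℓ b) * gX X g + ((ℓ ^ b : ℕ) : AddMonoid.End X) = 0 := by
  obtain ⟨F, hF, hfix⟩ := LD.smooth
  have hp : p.Prime := Fact.out
  have hp0 : NeZero p := ⟨hp.ne_zero⟩
  have hFF : FiniteDimensional ℚ (F ⊔ F' : IntermediateField ℚ (AlgebraicClosure ℚ)) :=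
    IntermediateField.finiteDimensional_sup F F'
  obtain ⟨ℓ, A, σ, b, hℓ, hℓB, hℓnm, hA, hσ, hag, -, hμ⟩ :=
    Fermat.Agent.S43.CH.frobData 1 p (F ⊔ F') hFF g (bad ∪ Finset.univ.image qv)
  have hgood : Good bad qv ℓ :=
    ⟨hℓ, fun h => hℓB (Finset.mem_union_left _ h), fun i h =>
      hℓB (Finset.mem_union_right _ (h ▸ Finset.mem_image_of_mem qv (Finset.mem_univ i)))⟩
  have hg : gX X g = gX X σ ^ b := by
    rw [← map_pow]
    apply AddMonoidHom.ext
    intro x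
    show g • x = (σ ^ b) • x
    have h1 : (g⁻¹ * σ ^ b) • x = x := by
      apply hfix
      intro z hz
      rw [AlgEquiv.mul_apply, hag z ((le_sup_left : F ≤ F ⊔ F') hz), ← AlgEquiv.mul_apply,
        inv_mul_cancel, AlgEquiv.one_apply]
    rw [mul_smul] at h1
    calc g • x = g • g⁻¹ • (σ ^ b) • x := by rw [h1]
      _ = (σ ^ b) • x := by rw [smul_smul, mul_inv_cancel, one_smul]
  have hc : Commute (gX X σ) (T ℓ) := by
    apply AddMonoidHom.ext
    intro x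
    show σ • T ℓ x = T ℓ (σ • x)
    rw [LD.T_gal ℓ hgood]
  have hes : gX X σ * gX X σ - T ℓ * gX X σ + (((ℓ : ℤ)) : AddMonoid.End X) = 0 := by
    apply AddMonoidHom.ext
    intro x
    show σ • σ • x - T ℓ (σ • x) + ((ℓ : ℤ)) • x = 0
    rw [natCast_zsmul]
    exact LD.es ℓ hgood A hA σ hσ x
  have key := Fermat.Agent.S43.CH.quad_pow (gX X σ) (T ℓ) (ℓ : ℤ) hc hes b
  refine ⟨ℓ, b, A, σ, hgood, ?_, hA, hσ, fun z hz => hag z ((le_sup_right : F' ≤ F ⊔ F') hz), ?_, ?_⟩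
  · rintro rfl
    exact hℓnm (Dvd.intro_left 1 rfl)
  · rw [Fermat.Agent.PT.cycloChar_eq_of_actsBy (q := p) (g := g) (c := ℓ ^ b) hμ, Nat.cast_pow]
  · rw [hg, Nat.cast_pow]
    rw [Int.cast_natCast] at key
    exact key

variable [Module (ZMod p) X]

theorem gk_apply (g : G) : gk p k X g = bc p k (gX X g) := rfl

theorem gk_mul_inv (g : G) : gk p k X g * gk p k X g⁻¹ = 1 := by
  rw [← map_mul, mul_inv_cancel, map_one]

omit [DistribMulAction G X] in
theorem bc_aeval (f : AddMonoid.End X) (P : ℤ[X]) : bc p k (aeval f P) = aeval (bc p k f) P := by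
  induction P using Polynomial.induction_on' with
  | add P Q hP hQ => rw [map_add, map_add, map_add, hP, hQ]
  | monomial n c =>
    rw [Polynomial.aeval_monomial, Polynomial.aeval_monomial, eq_intCast, eq_intCast, map_mul, map_pow,
      map_intCast]

theorem aeval_mem_of_mem {R : Type*} [Ring R] [Algebra k R] (S : Subalgebra k R) {y : R} (hy : y ∈ S)
    (P : ℤ[X]) : aeval y P ∈ S := by
  induction P using Polynomial.induction_on' with
  | add P Q hP hQ => rw [map_add]; exact S.add_mem hP hQ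
  | monomial n c =>
    rw [Polynomial.aeval_monomial, eq_intCast]
    exact S.mul_mem (intCast_mem S c) (S.pow_mem hy n)

theorem chik_val (g : G) :
    ((chik p k g : kˣ) : k) = algebraMap (ZMod p) k ((cycloChar p g : (ZMod p)ˣ) : ZMod p) := rfl

theorem ring_aux {R : Type*} [Ring R] (g g' t n : R) (hgg' : g * g' = 1)
    (h : g * g - t * g + n = 0) : g + n * g' = t := by
  have h2 := congrArg (fun f => f * g') h
  simp only [add_mul, sub_mul, zero_mul, mul_assoc, hgg', mul_one] at h2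
  rw [← sub_eq_zero, ← h2]
  abel

/-- from a quadratic relation to the trace relation. -/
theorem trace_of_quad (g : G) (t : AddMonoid.End X) (n : ℕ)
    (hχ : ((cycloChar p g : (ZMod p)ˣ) : ZMod p) = (n : ZMod p))
    (h : gX X g * gX X g - t * gX X g + (n : AddMonoid.End X) = 0) :
    gk p k X g + ((chik p k g : kˣ) : k) • gk p k X g⁻¹ = bc p k t := by
  have h1 := congrArg (bc p k) h
  rw [map_add, map_sub, map_mul, map_mul, map_natCast, map_zero, ← gk_apply] at h1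
  rw [chik_val, hχ, map_natCast, Nat.cast_smul_eq_nsmul, nsmul_eq_mul]
  exact ring_aux (R := Module.End k (k ⊗[ZMod p] X)) (gk p k X g) (gk p k X g⁻¹) (bc p k t)
    (n : Module.End k (k ⊗[ZMod p] X)) (gk_mul_inv k g) h1

omit [Module (ZMod p) X] in
theorem commute_gX_T (LD : LevelData p a bad Sstr eps qv C X T) (g : G) {ℓ : ℕ}
    (hℓ : Good bad qv ℓ) : Commute (gX X g) (T ℓ) := by
  ext x
  exact (LD.T_gal ℓ hℓ g x).symm

theorem nil_bc (LD : LevelData p a bad Sstr eps qv C X T) {ℓ : ℕ} (hℓ : Good bad qv ℓ) :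
    IsNilpotent (bc p k (T ℓ) - algebraMap k (Module.End k (k ⊗[ZMod p] X)) (a ℓ : k)) := by
  obtain ⟨n, hn⟩ := LD.nil ℓ hℓ
  refine ⟨n, ?_⟩
  have h0 : (T ℓ - (a ℓ : AddMonoid.End X)) ^ n = 0 := by
    ext x
    exact hn x
  have h1 := congrArg (bc p k) h0
  rw [map_pow, map_sub, map_intCast, map_zero] at h1
  rw [map_intCast]
  exact h1

theorem ch_bc (LD : LevelData p a bad Sstr eps qv C X T) (g : G) :
    gk p k X g + ((chik p k g : kˣ) : k) • gk p k X g⁻¹ ∈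
      Algebra.adjoin k (Set.range fun ℓ : {ℓ : ℕ // Good bad qv ℓ} => bc p k (T ℓ)) := by
  have hbot : FiniteDimensional ℚ (⊥ : IntermediateField ℚ (AlgebraicClosure ℚ)) :=
    Module.finite_of_finrank_eq_succ IntermediateField.finrank_bot
  obtain ⟨ℓ, b, A, σ, hℓ, -, -, -, -, hχ, h⟩ := ch_abs LD ⊥ hbot g
  have hχ' : ((cycloChar p g : (ZMod p)ˣ) : ZMod p) = ((ℓ ^ b : ℕ) : ZMod p) := by
    rw [hχ, Nat.cast_pow]
  have h1 := trace_of_quad k g (aeval (T ℓ) (luc ℓ b)) (ℓ ^ b) hχ' h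
  rw [h1, bc_aeval]
  have hmem : bc p k (T ℓ) ∈
      Algebra.adjoin k (Set.range fun ℓ : {ℓ : ℕ // Good bad qv ℓ} => bc p k (T ℓ)) :=
    Algebra.subset_adjoin ⟨⟨ℓ, hℓ⟩, rfl⟩
  exact aeval_mem_of_mem k (R := Module.End k (k ⊗[ZMod p] X)) _ hmem _

theorem gen_bc (LD : LevelData p a bad Sstr eps qv C X T) (hpb : p ∈ bad) {ℓ : ℕ}
    (hℓ : Good bad qv ℓ) :
    ∃ g : G, gk p k X g + ((chik p k g : kˣ) : k) • gk p k X g⁻¹ = bc p k (T ℓ) := by
  have hℓp : ℓ ≠ p := fun h => hℓ.2.1 (h ▸ hpb)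
  let q : Nat.Primes := ⟨ℓ, hℓ.1⟩
  have hA := Fermat.Agent.PT.WB.primeLocalPlace_liesOver q
  obtain ⟨φ, hφ⟩ := Fermat.Agent.Lib.Frobenius.exists_isFrobeniusAt _ hℓ.1 hA
  refine ⟨φ, trace_of_quad k φ (T ℓ) ℓ ?_ ?_⟩
  · apply Fermat.Agent.PT.cycloChar_eq_of_actsBy
    intro z hz
    refine Fermat.Agent.GAL.S31.frobenius_apply_root _ hℓ.1 hA hφ (n := p) ?_ hz
    intro hdvd
    exact hℓp ((Nat.prime_dvd_prime_iff_eq hℓ.1 Fact.out).1 hdvd)
  · ext x
    exact LD.es ℓ hℓ _ hA φ hφ x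

/-- **(TOP0-DAT)** the Hecke--Galois datum on `k ⊗ X`. -/
def mkDat (LD : LevelData p a bad Sstr eps qv C X T) (hpb : p ∈ bad) :
    Mid.Dat k (k ⊗[ZMod p] X) G {ℓ : ℕ // Good bad qv ℓ} where
  τ ℓ := bc p k (T ℓ)
  θ ℓ := (a ℓ : k)
  comm i j := (LD.T_comm i j i.2 j.2).map (bc p k)
  nil i := nil_bc k LD i.2
  r := gk p k X
  rcomm g i := (commute_gX_T LD g i.2).map (bc p k)
  d := chik p k
  ch g := ch_bc k LD g
  gen i := gen_bc k LD hpb i.2

end Fermat.Agent.S43.Top0
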