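/-
S43 (route TWX0), block TOP0, field `flat` of `Top0.LevelData`.  SORRY-FREE.

* `flat_of_embed` : every `G_ℚ`-module which embeds equivariantly into `KV Kbar (FN M) p = J₀(M)[p]`, `p ∤ M`, is `IsFunFlat p`;
* `stableAct`     : the `G_ℚ`-action on a Galois stable additive subgroup (a `def`, NOT an instance);
* `flat_of_stable`: a Galois stable additive subgroup of `KV Kbar (FN M) p` is `IsFunFlat p` (for `stableAct`);
* `flat_of_stable'`: the same for ANY action on `↥H` compatible with the inclusion.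
-/
import Fermat.Agent.S43.FlatB.Conc

set_option autoImplicit false

noncomputable section

namespace Fermat.Agent.S43.Top0

open Fermat.Agent.S53 (G)
open Fermat.Agent.S19 (IsFunFlat)
open Fermat.Agent.S24 (Kbar FN)
open AlgebraicCurve ModularCurve
open Fermat.Agent.GAL (KV)

/-- every `G_ℚ`-module which embeds equivariantly into `J₀(M)[p]`, `p ∤ M`, is flat at `p`. -/
theorem flat_of_embed (M p : ℕ) [NeZero M] [Fact p.Prime] (hpM : ¬ p ∣ M)
    {X : Type} [AddCommGroup X] [DistribMulAction G X] (φ : X →+ KV Kbar (FN M) p)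
    (hφ : Function.Injective φ) (heq : ∀ (σ : G) (x : X), φ (σ • x) = σ • φ x) : IsFunFlat p X :=
  IsFunFlat.of_injective φ hφ heq (FlatB.isFunFlat_KV_one M p hpM)

/-- the action of `Γ` on a stable additive subgroup. -/
@[reducible] def stableAct {Γ V : Type*} [Monoid Γ] [AddCommGroup V] [DistribMulAction Γ V] (H : AddSubgroup V)
    (hH : ∀ (σ : Γ), ∀ x ∈ H, σ • x ∈ H) : DistribMulAction Γ H where
  smul σ x := ⟨σ • (x : V), hH σ x x.2⟩
  one_smul x := Subtype.ext (one_smul Γ (x : V))
  mul_smul σ τ x := Subtype.ext (mul_smul σ τ (x : V))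
  smul_zero σ := Subtype.ext (smul_zero σ)
  smul_add σ x y := Subtype.ext (smul_add σ (x : V) (y : V))

/-- a subgroup of `J₀(M)[p]`, with any action compatible with the inclusion, is flat at `p`. -/
theorem flat_of_stable' (M p : ℕ) [NeZero M] [Fact p.Prime] (hpM : ¬ p ∣ M)
    (H : AddSubgroup (KV Kbar (FN M) p)) [DistribMulAction G H]
    (heq : ∀ (σ : G) (x : H), ((σ • x : H) : KV Kbar (FN M) p) = σ • (x : KV Kbar (FN M) p)) :
    IsFunFlat p H :=
  flat_of_embed M p hpM H.subtype Subtype.val_injective heq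

/-- a Galois stable subgroup of `J₀(M)[p]` is flat at `p`. -/
theorem flat_of_stable (M p : ℕ) [NeZero M] [Fact p.Prime] (hpM : ¬ p ∣ M)
    (H : AddSubgroup (KV Kbar (FN M) p)) (hH : ∀ (σ : G), ∀ x ∈ H, σ • x ∈ H) :
    letI := stableAct H hH
    IsFunFlat p H :=
  letI := stableAct H hH
  flat_of_stable' M p hpM H fun _ _ => rfl

end Fermat.Agent.S43.Top0
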