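import Fermat.Agent.S43.Tower.Defs

/-!
# S43 / Top0 / GeomAbs : abstract glue for `Top0/Geom.lean`  (pure Mathlib + `Tower/Defs`)

`Γ` a group acting on `V`, `H ≤ V` a subgroup with an action of `Γ` compatible with the inclusion.
* `coe_nrmEnd`, `coe_prod_rev` : `Tower.nprod (List.ofFn f) x` = the ordered product of the norm operators of `↥H`, in the REVERSE order;
* `card_fixed_eq` : `{x : ↥H // fixed}` and `↥(H ⊓ F)` have the same cardinality.
-/

set_option autoImplicit false

namespace Fermat.Agent.S43.Top0.GeomAbs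

open Fermat.Agent.S43

variable {Γ V : Type*} [Group Γ] [AddCommGroup V] [DistribMulAction Γ V] (H : AddSubgroup V)
  [DistribMulAction Γ H] (heq : ∀ (σ : Γ) (x : H), ((σ • x : H) : V) = σ • (x : V))

/-- `1 + σ + ⋯ + σ^(P-1)` (same body as `Top0.nrm`). -/
noncomputable def nrmEnd (X : Type*) [AddCommGroup X] [DistribMulAction Γ X] (σ : Γ) (P : ℕ) :
    AddMonoid.End X :=
  ∑ i ∈ Finset.range P, DistribMulAction.toAddMonoidEnd Γ X (σ ^ i)

theorem nrmEnd_apply (X : Type*) [AddCommGroup X] [DistribMulAction Γ X] (σ : Γ) (P : ℕ) (x : X) :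
    nrmEnd X σ P x = Tower.nrm σ P x := by
  rw [nrmEnd, Tower.nrm]
  have : ∀ (s : Finset ℕ), (∑ i ∈ s, DistribMulAction.toAddMonoidEnd Γ X (σ ^ i)) x
      = ∑ i ∈ s, σ ^ i • x := by
    intro s
    induction s using Finset.cons_induction with
    | empty => rfl
    | cons a s ha ih =>
      rw [Finset.sum_cons, Finset.sum_cons, ← ih]
      rfl
  exact this _

include heq in
theorem coe_nrm (σ : Γ) (P : ℕ) (x : H) : ((Tower.nrm σ P x : H) : V) = Tower.nrm σ P (x : V) := by
  rw [Tower.nrm, Tower.nrm, AddSubgroup.val_finsetSum]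
  exact Finset.sum_congr rfl fun i _ => heq _ _

include heq in
theorem coe_nprod (l : List (Γ × ℕ)) (x : H) :
    ((Tower.nprod l x : H) : V) = Tower.nprod l (x : V) := by
  induction l generalizing x with
  | nil => rfl
  | cons a l ih =>
    show ((Tower.nprod l (Tower.nrm a.1 a.2 x) : H) : V) = Tower.nprod l (Tower.nrm a.1 a.2 (x : V))
    rw [ih, coe_nrm H heq]

/-- `nprod l` is the product of the norm operators in the reverse order. -/
theorem nprod_eq_prod (X : Type*) [AddCommGroup X] [DistribMulAction Γ X] (l : List (Γ × ℕ)) (x : X) :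
    Tower.nprod l x = ((l.reverse.map fun a => nrmEnd X a.1 a.2).prod) x := by
  induction l generalizing x with
  | nil => rfl
  | cons a l ih =>
    show Tower.nprod l (Tower.nrm a.1 a.2 x) = _
    rw [ih, List.reverse_cons, List.map_append, List.prod_append, List.map_singleton,
      List.prod_singleton, ← nrmEnd_apply]
    rfl

theorem reverse_ofFn' {α : Type*} {r : ℕ} (f : Fin r → α) :
    (List.ofFn f).reverse = List.ofFn fun i => f (Fin.revPerm i) := by
  apply List.ext_getElem
  · simp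
  · intro i h1 h2
    simp only [List.getElem_reverse, List.getElem_ofFn, List.length_ofFn, Fin.revPerm_apply]
    congr 1
    apply Fin.ext
    simp only [Fin.val_rev]
    simp only [List.length_reverse, List.length_ofFn] at h1
    omega

include heq in
/-- **the form of `LevelData.size`.** -/
theorem prod_rev_ne_zero {r : ℕ} (σ : Fin r → Γ) (Pn : Fin r → ℕ) (x : V) (hx : x ∈ H)
    (h : Tower.nprod (List.ofFn fun i => (σ i, Pn i)) x ≠ 0) :
    (List.ofFn fun i => nrmEnd H (σ (Fin.revPerm i)) (Pn (Fin.revPerm i))).prod (⟨x, hx⟩ : H) ≠ 0 := by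
  intro h0
  apply h
  have h1 := coe_nprod H heq (List.ofFn fun i => (σ i, Pn i)) ⟨x, hx⟩
  rw [nprod_eq_prod, reverse_ofFn', List.map_ofFn] at h1
  have h2 : ((fun a : Γ × ℕ => nrmEnd (↥H) a.1 a.2) ∘ fun i => (σ (Fin.revPerm i), Pn (Fin.revPerm i)))
      = fun i => nrmEnd H (σ (Fin.revPerm i)) (Pn (Fin.revPerm i)) := rfl
  rw [h2, h0] at h1
  exact h1.symm

/-- fixed points of `↥H` versus `H ⊓ F`. -/
theorem card_fixed_eq (F : AddSubgroup V) (pr : H → Prop) (hpr : ∀ x : H, pr x ↔ (x : V) ∈ F) :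
    Nat.card {x : H // pr x} = Nat.card ↥(H ⊓ F) := by
  refine Nat.card_congr
    { toFun := fun x => ⟨(x.1 : V), x.1.2, (hpr x.1).1 x.2⟩
      invFun := fun y => ⟨⟨y.1, y.2.1⟩, (hpr _).2 y.2.2⟩
      left_inv := fun _ => rfl
      right_inv := fun _ => rfl }

end Fermat.Agent.S43.Top0.GeomAbs
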