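import Fermat.Agent.S43.Loc.Conj
import Fermat.Agent.S43.LocA.QAlg
import Fermat.Agent.S56.Lq.Glue

/-!
# S43 / Top0 / LocQ : Galois wiring at the strict primes

Input: the output `(ρ, L, Φ)` of `GMA.Res.gma_res` on a `G_ℚ`-module `W` over a commutative ring `A` of characteristic `p`, and the
fields `unip`, `ga` of `Top0.LevelData` (after base change) at ONE place `P` over `q ≠ p`.
Output: items (5), (6), (7) of `Master.TWXData` : with `N = ρ τ₀ - 1 = [[a, b], [c, -a]]` (`τ₀` a tame generator at `P`),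
`a² + b c = 0` and for every `σ` in the decomposition group `ρ σ` is scalar on `L[a, b, c]`.
-/

set_option autoImplicit false

namespace Fermat.Agent.S43.Top0

open Fermat.Agent.PT
open Fermat.Agent.PT.Local (Plc IsFrob)
open Fermat.Agent.S43.Exact
open Fermat.Agent.S43.Loc

section

variable {A W L : Type*} [CommRing A] [AddCommGroup W] [Module A W] [AddCommGroup L] [Module A L]
  (rW : GQ →* Module.End A W) (ρ : GQ →* GL (Fin 2) A) (Φ : W ≃ₗ[A] (Fin 2 → L))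
  (hΦ : ∀ g w, Φ (rW g w) = matAct (ρ g).1 (Φ w))

include hΦ in
theorem rW_eq_of_rho_eq {g g' : GQ} (h : ρ g = ρ g') : rW g = rW g' := by
  ext w
  apply Φ.injective
  rw [hΦ, hΦ, h]

include hΦ in
theorem rho_eq_of_rW_eq (hL : ∀ a : A, (∀ l : L, a • l = 0) → a = 0) {g g' : GQ}
    (h : rW g = rW g') : ρ g = ρ g' := by
  apply Units.ext
  apply eq_of_matAct (L := L) hL
  intro v
  obtain ⟨w, rfl⟩ := Φ.surjective v
  rw [← hΦ, ← hΦ, h]

/-- the stabiliser of a vector. -/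
def stabW (w : W) : Subgroup GQ where
  carrier := {g | rW g w = w}
  mul_mem' := by
    intro a b ha hb
    show rW (a * b) w = w
    rw [map_mul, Module.End.mul_apply, hb, ha]
  one_mem' := by
    show rW 1 w = w
    rw [map_one, Module.End.one_apply]
  inv_mem' := by
    intro a ha
    show rW a⁻¹ w = w
    have h1 : rW a⁻¹ (rW a w) = w := by
      rw [← Module.End.mul_apply, ← map_mul, inv_mul_cancel, map_one, Module.End.one_apply]
    rwa [ha] at h1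

theorem mem_stabW {w : W} {g : GQ} : g ∈ stabW rW w ↔ rW g w = w := Iff.rfl

include hΦ in
/-- smoothness of `ρ` from smoothness of `W`. -/
theorem rho_open (hL : ∀ a : A, (∀ l : L, a • l = 0) → a = 0)
    (hsm : ∃ F : IntermediateField ℚ (AlgebraicClosure ℚ), FiniteDimensional ℚ F ∧
      ∀ σ : GQ, (∀ z ∈ F, σ z = z) → ∀ w : W, rW σ w = w) : ∃ U ∈ Lall, U ≤ ρ.ker := by
  obtain ⟨F, hF, h⟩ := hsm
  obtain ⟨U, hU, hle⟩ := isOpen_Lall_of_finiteDimensional hF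
  refine ⟨U, hU, fun σ hσ => ?_⟩
  rw [MonoidHom.mem_ker, ← map_one ρ]
  apply rho_eq_of_rW_eq rW ρ Φ hΦ hL
  ext w
  rw [map_one, Module.End.one_apply]
  exact h σ (fun z hz => (IntermediateField.mem_fixingSubgroup_iff F σ).1 (hle hσ) z hz) w

include hΦ in
/-- unipotent inertia in characteristic `p` has `p`-group image. -/
theorem isPGroup_rho_of_unip (p : ℕ) [Fact p.Prime] [CharP A p]
    (hL : ∀ a : A, (∀ l : L, a • l = 0) → a = 0) (I : Subgroup GQ)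
    (hunip : ∀ σ ∈ I, ∀ w, rW σ (rW σ w) - rW σ w - rW σ w + w = 0) : IsPGroup p (I.map ρ) := by
  rintro ⟨x, σ, hσ, rfl⟩
  refine ⟨1, ?_⟩
  apply Subtype.ext
  apply Units.ext
  have hN : ((ρ σ).1 - 1) * ((ρ σ).1 - 1) = 0 :=
    LocA.QAlg.mul_eq_zero_of_unip rW ((Units.coeHom _).comp ρ) Φ hΦ hL σ σ (hunip σ hσ)
  have h1 : ((ρ σ).1 - 1) ^ p = 0 := by
    obtain ⟨m, hm⟩ : ∃ m, p = 2 + m := ⟨p - 2, by have := (Fact.out : p.Prime).two_le; omega⟩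
    rw [hm, pow_add, pow_two, hN, zero_mul]
  have h2 : (ρ σ).1 ^ p = 1 := by
    have h3 := sub_pow_char_of_commute (R := Matrix (Fin 2) (Fin 2) A) (p := p)
      (Commute.one_right (ρ σ).1)
    rw [h1, one_pow] at h3
    exact (sub_eq_zero.1 h3.symm)
  simpa using h2

include hΦ in
/-- **LOCQ, Galois form** at one place `P`. -/
theorem locq_gal (p : ℕ) [Fact p.Prime] [CharP A p]
    (hL : ∀ a : A, (∀ l : L, a • l = 0) → a = 0)
    (hsm : ∃ F : IntermediateField ℚ (AlgebraicClosure ℚ), FiniteDimensional ℚ F ∧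
      ∀ σ : GQ, (∀ z ∈ F, σ z = z) → ∀ w : W, rW σ w = w)
    (P : Plc)
    (hunip : ∀ σ ∈ P.ine, ∀ w, rW σ (rW σ w) - rW σ w - rW σ w + w = 0)
    (e : A)
    (hga : ∀ w, (∀ σ ∈ P.ine, rW σ w = w) → ∀ φ : GQ, P.A.IsFrobeniusAt φ P.ℓ → rW φ w = e • w)
    (hdet : ∀ σ ∈ P.ine, (ρ σ).1.det = 1) {τ₀ : GQ} (hτ₀ : IsTameGen p P τ₀) :
    ((ρ τ₀).1 - 1) 1 1 = - ((ρ τ₀).1 - 1) 0 0 ∧
    ((ρ τ₀).1 - 1) 0 0 ^ 2 + ((ρ τ₀).1 - 1) 0 1 * ((ρ τ₀).1 - 1) 1 0 = 0 ∧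
    ∀ σ ∈ P.dec, ∀ l : L, ((ρ τ₀).1 - 1) 0 0 • l = 0 → ((ρ τ₀).1 - 1) 0 1 • l = 0 →
      ((ρ τ₀).1 - 1) 1 0 • l = 0 →
      (ρ σ).1 0 1 • l = 0 ∧ (ρ σ).1 1 0 • l = 0 ∧ ((ρ σ).1 0 0 - (ρ σ).1 1 1) • l = 0 := by
  have hop := rho_open rW ρ Φ hΦ hL hsm
  have hpg := isPGroup_rho_of_unip rW ρ Φ hΦ p hL P.ine hunip
  obtain ⟨φ, hφ⟩ := Fermat.Agent.Lib.Frobenius.exists_isFrobeniusAt P.A P.prime P.liesOver
  have hφ' := isFrob_of_isFrobeniusAt P hφ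
  obtain ⟨h11, hrel, hk⟩ := LocA.QAlg.locq_abs rW ((Units.coeHom _).comp ρ) Φ hΦ hL τ₀
    (hunip τ₀ hτ₀.1) (hdet τ₀ hτ₀.1)
  refine ⟨h11, hrel, fun σ hσ l ha hb hc => ?_⟩
  obtain ⟨j, n, hjn⟩ := hτ₀.exists_pow_mul_zpow hφ' ρ hop hpg hσ
  have hfix : ∀ w, rW τ₀ w = w → rW σ w = e ^ j • w := by
    intro w hw
    have hI : ∀ τ ∈ P.ine, rW τ w = w := by
      intro τ hτ
      obtain ⟨m, hm⟩ := hτ₀.exists_zpow ρ hop hpg hτ
      rw [← map_zpow] at hm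
      rw [rW_eq_of_rho_eq rW ρ Φ hΦ hm]
      exact (stabW rW w).zpow_mem hw m
    have h1 : ρ σ = ρ (φ ^ j * τ₀ ^ n) := by rw [hjn, map_mul, map_pow, map_zpow]
    rw [rW_eq_of_rho_eq rW ρ Φ hΦ h1, map_mul, Module.End.mul_apply,
      show rW (τ₀ ^ n) w = w from (stabW rW w).zpow_mem hw n, map_pow]
    clear h1 hjn
    induction j with
    | zero => simp
    | succ j ih =>
      rw [pow_succ', Module.End.mul_apply, ih, map_smul, hga w hI φ hφ, smul_smul, pow_succ]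
  obtain ⟨k1, k2, -, -, k3⟩ := hk σ (e ^ j) hfix l ha hb hc
  exact ⟨k1, k2, k3⟩

end

end Fermat.Agent.S43.Top0
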