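import Fermat.Agent.S43.Top0.Iface
import Fermat.Agent.S43.Mid.Main
import Fermat.Agent.S58.Quad.Mu

/-!
# S43 / Top0 / Quad : `LevelData ⟹ Mid.QuadHyp`  (abstract Cayley-Hamilton)

`quadHyp_of_levelData` : the abstract module `X` of a `LevelData` (with `a = W.apOfModel`, `W` an integral model of the Frey
curve) satisfies the hypothesis `Mid.QuadHyp P X` of `Mid.mid_main`.
(Eichler-Shimura `es` + `smooth` + Frobenius density + `MR.E.E_GLOB` + Lucas polynomials.)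
-/

set_option autoImplicit false

noncomputable section

namespace Fermat.Agent.S43.Top0

open Fermat.Agent.S53 (G)
open Fermat.Agent.MR.E Fermat.Agent.S43.BigImg Fermat.Agent.S43.CH
open Polynomial

theorem commute_aeval {R : Type*} [Ring R] {x a : R} (h : Commute x a) (Q : ℤ[X]) :
    Commute x (aeval a Q) := by
  induction Q using Polynomial.induction_on' with
  | add p q hp hq => rw [map_add]; exact hp.add_right hq
  | monomial n c =>
    rw [aeval_monomial, eq_intCast]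
    exact (Int.cast_commute c x).symm.mul_right (h.pow_right n)

theorem quadHyp_of_levelData (P : FreyPackage) (W : WeierstrassCurve ℤ)
    (hW : W.IsIntegralModelOf P.freyCurve) {bad Sstr : Finset ℕ} {eps : ℕ → ℤ} {r : ℕ}
    {qv : Fin r → ℕ} {C : ℕ} {X : Type} [AddCommGroup X] [DistribMulAction G X]
    {T : ℕ → AddMonoid.End X} (D : LevelData P.p W.apOfModel bad Sstr eps qv C X T) :
    Mid.QuadHyp P X := by
  classical
  intro g
  obtain ⟨F₁, hF₁, hX⟩ := D.smooth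
  obtain ⟨M, hM, hE⟩ := S13.frey_exists_field_of_def P
  obtain ⟨F, hFfd, h1, h2, h3⟩ := S58.exists_level F₁ M hF₁ hM P.p P.pp.pos
  obtain ⟨S, hS⟩ := E_GLOB P W hW
  obtain ⟨ℓ, A, σ, b, hℓ, hℓB, hA, hσ, hgσ⟩ :=
    Fermat.Agent.Lib.FrobDensity.gal_frobeniusDensity F hFfd g
      (S ∪ bad ∪ Finset.univ.image qv ∪ {P.p})
  simp only [Finset.mem_union, Finset.mem_singleton, not_or] at hℓB
  obtain ⟨⟨⟨hℓS, hℓbad⟩, hℓqv⟩, hℓp⟩ := hℓB
  have hgood : Good bad qv ℓ :=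
    ⟨hℓ, hℓbad, fun i h => hℓqv (Finset.mem_image.2 ⟨i, Finset.mem_univ _, h.symm⟩)⟩
  have hℓp' : ¬ ℓ ∣ P.p := fun hd => hℓp ((Nat.prime_dvd_prime_iff_eq hℓ P.pp).1 hd)
  -- `g = σ ^ b * h`, `h` trivial on `F`
  set h : G := (σ ^ b)⁻¹ * g with hh
  have hg : g = σ ^ b * h := by rw [hh, mul_inv_cancel_left]
  have hhF : ∀ x ∈ F, h x = x := by
    intro x hx
    have : (σ ^ b) (h x) = (σ ^ b) x := by
      rw [← AlgEquiv.mul_apply, ← hg, hgσ x hx]
    exact (σ ^ b).injective this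
  have hgX : ∀ x : X, (σ ^ b) • x = g • x := by
    intro x
    rw [hg, mul_smul, hX h (fun y hy => hhF y (h1 hy)) x]
  have hgE : ∀ y : Ep P, (σ ^ b) • y = g • y := by
    intro y
    rw [hg, mul_smul, hE h ((IntermediateField.mem_fixingSubgroup_iff _ h).2
      (fun z hz => hhF z (h2 hz))) y]
  have hcomm : ∀ τ : G, Commute (DistribMulAction.toAddMonoidEnd G X τ) (T ℓ) := by
    intro τ
    apply AddMonoidHom.ext
    intro x
    exact (D.T_gal ℓ hgood τ x).symm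
  refine ⟨aeval (T ℓ) (luc ℓ b), (luc ℓ b).eval (W.apOfModel ℓ), ℓ ^ b, ?_, ?_, ?_, ?_, ?_⟩
  · intro τ x
    exact (DFunLike.congr_fun (commute_aeval (hcomm τ) (luc ℓ b)).eq x).symm
  · intro x
    set Tσ : AddMonoid.End X := DistribMulAction.toAddMonoidEnd G X σ with hTσ
    have hq : Tσ * Tσ - T ℓ * Tσ + (((ℓ : ℕ) : ℤ) : AddMonoid.End X) = 0 := by
      apply AddMonoidHom.ext
      intro z
      show σ • σ • z - T ℓ (σ • z) + (((ℓ : ℕ) : ℤ) : AddMonoid.End X) z = 0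
      rw [AddMonoid.End.intCast_apply, natCast_zsmul]
      exact D.es ℓ hgood A hA σ hσ z
    have hk := quad_pow Tσ (T ℓ) (ℓ : ℤ) (hcomm σ) hq b
    rw [hTσ, ← map_pow] at hk
    have e : (((ℓ : ℕ) : ℤ) : AddMonoid.End X) ^ b = ((ℓ ^ b : ℕ) : AddMonoid.End X) := by
      push_cast; rfl
    rw [e] at hk
    have h4 : (σ ^ b) • (σ ^ b) • x - aeval (T ℓ) (luc ℓ b) ((σ ^ b) • x)
        + ((ℓ ^ b : ℕ) : AddMonoid.End X) x = 0 := DFunLike.congr_fun hk x
    rw [AddMonoid.End.natCast_apply, hgX, hgX] at h4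
    exact h4
  · intro x
    obtain ⟨N, hN⟩ := D.nil ℓ hgood
    refine ⟨N, ?_⟩
    obtain ⟨Q, hQ⟩ := aeval_sub_eval_pow (T ℓ) (W.apOfModel ℓ) (luc ℓ b) N
    rw [hQ]
    show aeval (T ℓ) Q (((T ℓ - ((W.apOfModel ℓ : ℤ) : AddMonoid.End X)) ^ N) x) = 0
    rw [hN x, map_zero]
  · intro ζ hζ
    rw [← hgσ ζ (h3 ζ hζ)]
    exact S58.frobenius_pow_rootOfUnity hℓ hA hσ hℓp' b hζ
  · intro y
    set Tσ : AddMonoid.End (Ep P) := DistribMulAction.toAddMonoidEnd G (Ep P) σ with hTσ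
    have hq : Tσ * Tσ - ((W.apOfModel ℓ : ℤ) : AddMonoid.End (Ep P)) * Tσ
        + (((ℓ : ℕ) : ℤ) : AddMonoid.End (Ep P)) = 0 := by
      apply AddMonoidHom.ext
      intro z
      show σ • σ • z - ((W.apOfModel ℓ : ℤ) : AddMonoid.End (Ep P)) (σ • z)
        + (((ℓ : ℕ) : ℤ) : AddMonoid.End (Ep P)) z = 0
      rw [AddMonoid.End.intCast_apply, AddMonoid.End.intCast_apply]
      exact hS ℓ hℓ hℓS A hA σ hσ z
    have hk := quad_pow Tσ ((W.apOfModel ℓ : ℤ) : AddMonoid.End (Ep P)) (ℓ : ℤ)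
      (Int.cast_commute _ _).symm hq b
    rw [aeval_intCast, hTσ, ← map_pow] at hk
    have e : (((ℓ : ℕ) : ℤ) : AddMonoid.End (Ep P)) ^ b = ((ℓ ^ b : ℕ) : AddMonoid.End (Ep P)) := by
      push_cast; rfl
    rw [e] at hk
    have h4 : (σ ^ b) • (σ ^ b) • y
        - (((luc ℓ b).eval (W.apOfModel ℓ) : ℤ) : AddMonoid.End (Ep P)) ((σ ^ b) • y)
        + ((ℓ ^ b : ℕ) : AddMonoid.End (Ep P)) y = 0 := DFunLike.congr_fun hk y
    rw [AddMonoid.End.natCast_apply, AddMonoid.End.intCast_apply, hgE, hgE] at h4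
    exact h4

end Fermat.Agent.S43.Top0

end
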