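import Fermat.Agent.S43.Mid.BC

/-!
# S43 / Top0 / SizeCtrlV : transfer of SIZE and CONTROL from `X` to `V = k ⊗ X`

`X` a finite `𝔽_p[G]`-module, `V = k ⊗_{𝔽_p} X`, `rk = Mid.rk p k X G : G →* End_k V`.

* `size_V`  : an ordered product of norms which does not kill `x` does not kill `1 ⊗ x`;
* `ctrl_V`  : a `k`-subspace of `V` fixed by the `σ i` has dimension `≤ C` if `#X^{σ} ≤ C`;
* `fix_V`, `rel_V`, `eq_V` : transfer of implications between fixed vectors / of relations.
-/

set_option autoImplicit false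

namespace Fermat.Agent.S43.Top0.SCV

open scoped TensorProduct
open Fermat.Agent.S43.Mid

variable (p : ℕ) [Fact p.Prime] (k : Type*) [Field k] [Algebra (ZMod p) k]
  {X : Type*} [AddCommGroup X] [Module (ZMod p) X] {G : Type*} [Group G] [DistribMulAction G X]

/-- the norm on `V` is the base change of the norm on `X`. -/
theorem bc_nrm (σ : G) (P : ℕ) :
    bc p k X (∑ j ∈ Finset.range P, DistribMulAction.toAddMonoidEnd G X (σ ^ j))
      = ∑ j ∈ Finset.range P, rk p k X G σ ^ j := by
  rw [map_sum]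
  refine Finset.sum_congr rfl fun j _ => ?_
  rw [← map_pow, rk_eq]

/-- the ordered product of the norms on `V` is the base change of the one on `X`. -/
theorem bc_nrm_prod {r : ℕ} (σ : Fin r → G) (Pn : Fin r → ℕ) :
    bc p k X (List.ofFn fun i => ∑ j ∈ Finset.range (Pn i),
        DistribMulAction.toAddMonoidEnd G X (σ i ^ j)).prod
      = (List.ofFn fun i => ∑ j ∈ Finset.range (Pn i), rk p k X G (σ i) ^ j).prod := by
  rw [map_list_prod, List.map_ofFn]
  congr 2
  funext i
  exact bc_nrm p k (σ i) (Pn i)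

/-- **SIZE on `V`.** -/
theorem size_V {r : ℕ} (σ : Fin r → G) (Pn : Fin r → ℕ) (x : X)
    (h : (List.ofFn fun i => ∑ j ∈ Finset.range (Pn i),
        DistribMulAction.toAddMonoidEnd G X (σ i ^ j)).prod x ≠ 0) :
    (List.ofFn fun i => ∑ j ∈ Finset.range (Pn i), rk p k X G (σ i) ^ j).prod
      ((1 : k) ⊗ₜ[ZMod p] x) ≠ 0 := by
  rw [← bc_nrm_prod, bc_tmul]
  intro h0
  exact h ((one_tmul_eq_zero_iff _).1 h0)

/-- `rk g v = v` as a kernel condition. -/
theorem rk_fix_iff (g : G) (v : k ⊗[ZMod p] X) :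
    rk p k X G g v = v ↔ bc p k X (DistribMulAction.toAddMonoidEnd G X g - 1) v = 0 := by
  rw [map_sub, map_one, LinearMap.sub_apply, Module.End.one_apply, sub_eq_zero, rk_eq]

theorem smul_fix_iff (g : G) (x : X) :
    g • x = x ↔ (DistribMulAction.toAddMonoidEnd G X g - 1) x = 0 := by
  show g • x = x ↔ g • x - x = 0
  rw [sub_eq_zero]

/-- **CONTROL on `V`**, exponential form. -/
theorem ctrl_V_pow [Finite k] [Finite X] {ι : Type*} (σ : ι → G) (C : ℕ)
    (hC : Nat.card {x : X // ∀ i, σ i • x = x} ≤ C)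
    (U : Submodule k (k ⊗[ZMod p] X)) (hU : ∀ v ∈ U, ∀ i, rk p k X G (σ i) v = v) :
    p ^ Module.finrank k U ≤ C := by
  have h1 := pow_finrank_le_card (p := p) (k := k) (X := X)
    (fun i => DistribMulAction.toAddMonoidEnd G X (σ i) - 1) U
    (fun v hv i => (rk_fix_iff p k (σ i) v).1 (hU v hv i))
  refine h1.trans (le_trans (le_of_eq ?_) hC)
  refine Nat.card_congr (Equiv.subtypeEquivRight fun x => ?_)
  exact forall_congr' fun i => (smul_fix_iff (σ i) x).symm

/-- **CONTROL on `V`.** -/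
theorem ctrl_V [Finite k] [Finite X] {ι : Type*} (σ : ι → G) (C : ℕ)
    (hC : Nat.card {x : X // ∀ i, σ i • x = x} ≤ C)
    (U : Submodule k (k ⊗[ZMod p] X)) (hU : ∀ v ∈ U, ∀ i, rk p k X G (σ i) v = v) :
    Module.finrank k U ≤ C :=
  (Nat.lt_pow_self (Fact.out : p.Prime).one_lt).le.trans (ctrl_V_pow p k σ C hC U hU)

/-- transfer of "fixed by the `σ i` ⟹ fixed by `τ`". -/
theorem fix_V {ι : Type*} (σ : ι → G) (τ : G)
    (h : ∀ x : X, (∀ i, σ i • x = x) → τ • x = x) (v : k ⊗[ZMod p] X)
    (hv : ∀ i, rk p k X G (σ i) v = v) : rk p k X G τ v = v := by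
  rw [rk_fix_iff]
  refine bc_ker (fun i => DistribMulAction.toAddMonoidEnd G X (σ i) - 1) _ (fun x hx => ?_) v
    (fun i => (rk_fix_iff p k (σ i) v).1 (hv i))
  exact (smul_fix_iff τ x).1 (h x fun i => (smul_fix_iff (σ i) x).2 (hx i))

/-- transfer of "fixed by the `σ i` ⟹ `g` acts by the integer `e`". -/
theorem eig_V {ι : Type*} (σ : ι → G) (g : G) (e : ℤ)
    (h : ∀ x : X, (∀ i, σ i • x = x) → g • x = e • x) (v : k ⊗[ZMod p] X)
    (hv : ∀ i, rk p k X G (σ i) v = v) : rk p k X G g v = (e : k) • v := by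
  have key : bc p k X (DistribMulAction.toAddMonoidEnd G X g - (e : AddMonoid.End X)) v = 0 := by
    refine bc_ker (fun i => DistribMulAction.toAddMonoidEnd G X (σ i) - 1) _ (fun x hx => ?_) v
      (fun i => (rk_fix_iff p k (σ i) v).1 (hv i))
    show g • x - e • x = 0
    rw [sub_eq_zero]
    exact h x fun i => (smul_fix_iff (σ i) x).2 (hx i)
  rw [map_sub, bc_intCast, LinearMap.sub_apply, sub_eq_zero] at key
  rw [rk_eq, key]
  rfl

/-- two elements acting in the same way on `X` act in the same way on `V`. -/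
theorem eq_V (g g' : G) (h : ∀ x : X, g • x = g' • x) : rk p k X G g = rk p k X G g' := by
  rw [rk_eq, rk_eq]
  congr 1
  apply AddMonoidHom.ext
  exact h

/-- an element acting trivially on `X` acts trivially on `V`. -/
theorem one_V (g : G) (h : ∀ x : X, g • x = x) : rk p k X G g = 1 := by
  rw [← map_one (rk p k X G)]
  exact eq_V p k g 1 fun x => by rw [h x, one_smul]

/-- transfer of `(σ - 1)(τ - 1) = 0`. -/
theorem unip_V (σ τ : G) (h : ∀ x : X, σ • τ • x - σ • x - τ • x + x = 0) (v : k ⊗[ZMod p] X) :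
    rk p k X G σ (rk p k X G τ v) - rk p k X G σ v - rk p k X G τ v + v = 0 := by
  have key : DistribMulAction.toAddMonoidEnd G X σ * DistribMulAction.toAddMonoidEnd G X τ
      - DistribMulAction.toAddMonoidEnd G X σ - DistribMulAction.toAddMonoidEnd G X τ + 1 = 0 := by
    apply AddMonoidHom.ext
    exact h
  have := congrArg (fun f => bc p k X f v) key
  simpa only [map_add, map_sub, map_mul, map_one, map_zero, LinearMap.add_apply,
    LinearMap.sub_apply, Module.End.mul_apply, Module.End.one_apply, LinearMap.zero_apply,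
    ← rk_eq] using this

end Fermat.Agent.S43.Top0.SCV
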