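import Fermat.Agent.S43.LocA.QAlg
import Fermat.Agent.S43.Loc.Gen
import Fermat.Agent.S43.TameRel
import Fermat.Agent.PT.Global.PlaceSystem
import Fermat.Agent.Lib.Frobenius

/-!
# S43 / Top0 / Str : the strict primes (`a q, b q, c q`, `hrel`, `hstr` of `Top0.Datum`)

Abstract form, in the language of `GMA.Res.gma_res`: `rW : G →* End_A W`, `ρ : G →* GL₂(A)`, `Φ : W ≃ L²` equivariant, `L` faithful.
At a prime `q ≠ p` where the inertia groups act unipotently (`(σ-1)(τ-1) = 0`) and every inertia-fixed vector is an eigenvector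
(eigenvalue `e`) of every Frobenius element:  there are a place `B₀ ∣ q` and `τ₀ ∈ I_{B₀}` such that, with
`a = ρ τ₀ 0 0 - 1`, `b = ρ τ₀ 0 1`, `c = ρ τ₀ 1 0`:  `a² + b c = 0` and `ρ σ` is scalar on `L[a,b,c]` for every `σ` in the
decomposition group of EVERY place `B ∣ q`.
-/

set_option autoImplicit false

open Matrix
open scoped Pointwise

namespace Fermat.Agent.S43.Top0.Str

open Fermat.Agent.S43.Exact
open Fermat.Agent.PT.Local (Plc)
open Fermat.Agent.S43.Loc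
open Fermat.Agent.S43.LocA

/-- the absolute Galois group. -/
local notation "GQ'" => (AlgebraicClosure ℚ ≃ₐ[ℚ] AlgebraicClosure ℚ)

section alg

variable {A L : Type*} [CommRing A] [AddCommGroup L] [Module A L]

/-- the entries of `U N V` kill what the entries of `N` kill. -/
theorem kills_conj (U N V : Matrix (Fin 2) (Fin 2) A) (l : L) (h : ∀ i j, N i j • l = 0)
    (i j : Fin 2) : (U * N * V) i j • l = 0 := by
  have key : ∀ (x y : A) (a b : Fin 2), (x * N a b * y) • l = 0 := by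
    intro x y a b
    rw [mul_right_comm, mul_smul, h, smul_zero]
  simp only [Matrix.mul_apply, Fin.sum_univ_two, add_mul, add_smul, key, add_zero]

/-- `(1 + N)^n = 1 + n N` if `N² = 0`. -/
theorem one_add_pow_of_sq_zero (N : Matrix (Fin 2) (Fin 2) A) (hN : N * N = 0) (n : ℕ) :
    (1 + N) ^ n = 1 + n • N := by
  induction n with
  | zero => simp
  | succ n ih =>
    rw [pow_succ, ih, add_mul, mul_add, mul_add, one_mul, mul_one, one_mul, smul_mul_assoc, hN,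
      smul_zero, add_zero, succ_nsmul]
    abel

/-- the stabiliser of a vector of `L²`. -/
def stab (v : Fin 2 → L) : Subgroup (GL (Fin 2) A) where
  carrier := {u | matAct u.1 v = v}
  mul_mem' := by
    intro u u' hu hu'
    show matAct (u * u' : GL (Fin 2) A).1 v = v
    rw [Units.val_mul, matAct_mul, hu', hu]
  one_mem' := matAct_one v
  inv_mem' := by
    intro u hu
    show matAct (u⁻¹ : GL (Fin 2) A).1 v = v
    have h1 : matAct (u⁻¹ : GL (Fin 2) A).1 (matAct u.1 v) = v := by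
      rw [← matAct_mul, ← Units.val_mul, inv_mul_cancel, Units.val_one, matAct_one]
    rwa [hu] at h1

theorem mem_stab {v : Fin 2 → L} {u : GL (Fin 2) A} : u ∈ stab v ↔ matAct u.1 v = v := Iff.rfl

theorem matAct_pow_eigen (u : GL (Fin 2) A) (v : Fin 2 → L) (e : A) (h : matAct u.1 v = e • v)
    (j : ℕ) : matAct (u ^ j : GL (Fin 2) A).1 v = e ^ j • v := by
  induction j with
  | zero => simp [matAct_one]
  | succ j ih =>
    rw [pow_succ, Units.val_mul, matAct_mul, h, map_smul, ih, smul_smul, pow_succ, mul_comm]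

end alg

variable {p : ℕ} [Fact p.Prime] {A W L : Type*} [CommRing A] [AddCommGroup W] [Module A W]
  [AddCommGroup L] [Module A L]

/-- **The strict primes.** -/
theorem str_abs (hp0 : (p : A) = 0) (rW : GQ' →* Module.End A W) (ρ : GQ' →* GL (Fin 2) A)
    (Φ : W ≃ₗ[A] (Fin 2 → L)) (hΦ : ∀ g w, Φ (rW g w) = matAct (ρ g).1 (Φ w))
    (hL : ∀ a : A, (∀ l : L, a • l = 0) → a = 0)
    (hsm : ∃ F : IntermediateField ℚ (AlgebraicClosure ℚ), FiniteDimensional ℚ F ∧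
      ∀ σ : GQ', (∀ x ∈ F, σ x = x) → ρ σ = 1)
    (q : ℕ) (hq : q.Prime) (hqp : q ≠ p) (e : A)
    (hdet : ∀ B : ValuationSubring (AlgebraicClosure ℚ), B.LiesOverPrime q →
      ∀ σ ∈ B.inertiaSubgroupIn ℚ, (ρ σ).1.det = 1)
    (hunip : ∀ B : ValuationSubring (AlgebraicClosure ℚ), B.LiesOverPrime q →
      ∀ σ ∈ B.inertiaSubgroupIn ℚ, ∀ τ ∈ B.inertiaSubgroupIn ℚ, ∀ w : W,
        rW σ (rW τ w) - rW σ w - rW τ w + w = 0)
    (hga : ∀ B : ValuationSubring (AlgebraicClosure ℚ), B.LiesOverPrime q → ∀ w : W,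
      (∀ σ ∈ B.inertiaSubgroupIn ℚ, rW σ w = w) → ∀ φ : GQ', B.IsFrobeniusAt φ q →
        rW φ w = e • w) :
    ∃ (B₀ : ValuationSubring (AlgebraicClosure ℚ)) (τ₀ : GQ'), B₀.LiesOverPrime q ∧
      τ₀ ∈ B₀.inertiaSubgroupIn ℚ ∧
      ((ρ τ₀).1 0 0 - 1) ^ 2 + (ρ τ₀).1 0 1 * (ρ τ₀).1 1 0 = 0 ∧
      ∀ B : ValuationSubring (AlgebraicClosure ℚ), B.LiesOverPrime q →
        ∀ σ ∈ B.decompositionSubgroup ℚ, ∀ l : L,
          ((ρ τ₀).1 0 0 - 1) • l = 0 → (ρ τ₀).1 0 1 • l = 0 → (ρ τ₀).1 1 0 • l = 0 →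
          (ρ σ).1 0 1 • l = 0 ∧ (ρ σ).1 1 0 • l = 0 ∧ ((ρ σ).1 0 0 - (ρ σ).1 1 1) • l = 0 := by
  classical
  obtain ⟨B₀, φ, hB₀, hφ⟩ := Fermat.Agent.Lib.Frobenius.exists_frobenius hq
  set P : Plc := ⟨B₀, q, hq, hB₀⟩ with hP
  obtain ⟨τ₀, hτ₀⟩ := exists_isTameGen p P hqp
  -- the matrix valued version of `ρ`
  set ρ' : GQ' →* Matrix (Fin 2) (Fin 2) A := (Units.coeHom _).comp ρ with hρ'
  have hρ'v : ∀ g, ρ' g = (ρ g).1 := fun g => rfl
  have hf : ∃ U ∈ Fermat.Agent.PT.Lall, U ≤ ρ.ker := by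
    obtain ⟨F, hF, h⟩ := hsm
    refine TameRel.exists_level_le_ker ρ ⟨F, hF, fun g hg => ?_⟩
    rw [MonoidHom.mem_ker]
    exact h g ((IntermediateField.mem_fixingSubgroup_iff F g).1 hg)
  have hN : ∀ σ ∈ P.ine, ((ρ σ).1 - 1) * ((ρ σ).1 - 1) = 0 := fun σ hσ =>
    Fermat.Agent.S43.LocA.QAlg.mul_eq_zero_of_unip rW ρ' Φ hΦ hL σ σ (hunip B₀ hB₀ σ hσ σ hσ)
  have hpg : IsPGroup p (P.ine.map ρ) := by
    rintro ⟨x, σ, hσ, rfl⟩
    refine ⟨1, Subtype.ext (Units.ext ?_)⟩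
    show ((ρ σ) ^ p ^ 1 : GL (Fin 2) A).1 = 1
    rw [pow_one, Units.val_pow_eq_pow_val]
    have h1 : (ρ σ).1 = 1 + ((ρ σ).1 - 1) := by abel
    rw [h1, one_add_pow_of_sq_zero _ (hN σ hσ), ← Nat.cast_smul_eq_nsmul A, hp0, zero_smul, add_zero]
  obtain ⟨h11, hrel, hker⟩ := Fermat.Agent.S43.LocA.QAlg.locq_abs rW ρ' Φ hΦ hL τ₀ (hunip B₀ hB₀ τ₀ hτ₀.1 τ₀ hτ₀.1)
    (hdet B₀ hB₀ τ₀ hτ₀.1)
  have e00 : (ρ' τ₀ - 1) 0 0 = (ρ τ₀).1 0 0 - 1 := by simp [hρ'v]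
  have e01 : (ρ' τ₀ - 1) 0 1 = (ρ τ₀).1 0 1 := by simp [hρ'v]
  have e10 : (ρ' τ₀ - 1) 1 0 = (ρ τ₀).1 1 0 := by simp [hρ'v]
  rw [e00, e01, e10] at hrel
  refine ⟨B₀, τ₀, hB₀, hτ₀.1, hrel, ?_⟩
  -- the base place
  have base : ∀ d ∈ P.dec, ∃ e' : A, ∀ l : L,
      ((ρ τ₀).1 0 0 - 1) • l = 0 → (ρ τ₀).1 0 1 • l = 0 → (ρ τ₀).1 1 0 • l = 0 →
      ∀ i j, ((ρ d).1 - e' • (1 : Matrix (Fin 2) (Fin 2) A)) i j • l = 0 := by
    intro d hd
    obtain ⟨j, n, hjn⟩ := hτ₀.exists_pow_mul_zpow (isFrob_of_isFrobeniusAt P hφ) ρ hf hpg hd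
    refine ⟨e ^ j, fun l ha hb hc => ?_⟩
    have hfix : ∀ w, rW τ₀ w = w → rW d w = e ^ j • w := by
      intro w hw
      have hs : ρ τ₀ ∈ stab (Φ w) := by
        rw [mem_stab, ← hΦ, hw]
      have hI : ∀ σ ∈ B₀.inertiaSubgroupIn ℚ, rW σ w = w := by
        intro σ hσ
        obtain ⟨m, hm⟩ := hτ₀.exists_zpow ρ hf hpg (τ := σ) hσ
        apply Φ.injective
        rw [hΦ, hm]
        exact mem_stab.1 (Subgroup.zpow_mem _ hs m)
      have hφw : matAct (ρ φ).1 (Φ w) = e • Φ w := by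
        rw [← hΦ, hga B₀ hB₀ w hI φ hφ, map_smul]
      apply Φ.injective
      rw [hΦ, hjn, Units.val_mul, matAct_mul, mem_stab.1 (Subgroup.zpow_mem _ hs n),
        matAct_pow_eigen _ _ _ hφw, map_smul]
    obtain ⟨k01, k10, k00, k11, -⟩ := hker d (e ^ j) hfix l (by rw [e00]; exact ha)
      (by rw [e01]; exact hb) (by rw [e10]; exact hc)
    intro i i'
    fin_cases i <;> fin_cases i'
    · simpa [hρ'v] using k00
    · simpa [hρ'v] using k01
    · simpa [hρ'v] using k10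
    · simpa [hρ'v] using k11
  intro B hB σ hσ l ha hb hc
  obtain ⟨g, hg⟩ := Fermat.Agent.PT.exists_smul_eq_of_liesOverPrime hq B₀ B hB₀ hB
  have hd : g⁻¹ * σ * g ∈ P.dec := by
    show (g⁻¹ * σ * g) • B₀ = B₀
    have hσ' : σ • B = B := hσ
    rw [mul_smul, mul_smul, hg, hσ', ← hg, inv_smul_smul]
  obtain ⟨e', he'⟩ := base _ hd
  have hk := he' l ha hb hc
  have hconj : (ρ σ).1 - e' • (1 : Matrix (Fin 2) (Fin 2) A) =
      (ρ g).1 * ((ρ (g⁻¹ * σ * g)).1 - e' • (1 : Matrix (Fin 2) (Fin 2) A)) * (ρ g⁻¹).1 := by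
    have h1 : (ρ g).1 * (ρ (g⁻¹ * σ * g)).1 * (ρ g⁻¹).1 = (ρ σ).1 := by
      rw [← Units.val_mul, ← Units.val_mul, ← map_mul, ← map_mul]
      congr 2
      group
    have h2 : (ρ g).1 * (ρ g⁻¹).1 = 1 := by
      rw [← Units.val_mul, ← map_mul, mul_inv_cancel, map_one, Units.val_one]
    rw [mul_sub, sub_mul, h1, mul_smul_comm, mul_one, smul_mul_assoc, h2]
  have hall : ∀ i j, ((ρ σ).1 - e' • (1 : Matrix (Fin 2) (Fin 2) A)) i j • l = 0 := by
    intro i j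
    rw [hconj]
    exact kills_conj _ _ _ l hk i j
  have a01 := hall 0 1
  have a10 := hall 1 0
  have a00 := hall 0 0
  have a11 := hall 1 1
  simp only [Matrix.sub_apply, Matrix.smul_apply, Matrix.one_apply_eq, Matrix.one_apply_ne,
    ne_eq, zero_ne_one, one_ne_zero, not_false_eq_true, smul_eq_mul, mul_zero, mul_one, sub_zero]
    at a01 a10 a00 a11
  refine ⟨a01, a10, ?_⟩
  have : (ρ σ).1 0 0 - (ρ σ).1 1 1 = ((ρ σ).1 0 0 - e') - ((ρ σ).1 1 1 - e') := by ring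
  rw [this, sub_smul, a00, a11, sub_zero]

end Fermat.Agent.S43.Top0.Str
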