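import Fermat.Agent.S43.BigImg.Defs

/-!
# S43 / Top0 / TWDist : the Taylor--Wiles condition `a_s² ≢ 4 (mod p)` from the condition on the characteristic polynomial

`Core.IsTWSet` says: `charpoly (rho P φ) = (X - α)(X - β)`, `α ≠ β` in `kk P`.  The geometric blocks (`Geo.TWPt.Ok.dist`,
`Tower.TWAt`) want: every `t : ℤ` with `φ² - t φ + s = 0` on `E[p]` satisfies `p ∤ t² - 4` (here `s ≡ 1 mod p`).
-/

set_option autoImplicit false

noncomputable section

namespace Fermat.Agent.S43.Top0

open Polynomial
open Fermat.Agent.S43.BigImg Fermat.Agent.MR.E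
open scoped TensorProduct

/-- a root of the characteristic polynomial is a root of every quadratic polynomial killing the endomorphism. -/
theorem quad_root_of_charpoly_root {k V : Type*} [Field k] [AddCommGroup V] [Module k V]
    [FiniteDimensional k V] (f : Module.End k V) (α t d : k)
    (hα : (LinearMap.charpoly f).IsRoot α) (hq : f * f - t • f + d • (1 : Module.End k V) = 0) :
    α * α - t * α + d = 0 := by
  have hev : f.HasEigenvalue α := (Module.End.hasEigenvalue_iff_isRoot_charpoly f α).2 hα
  obtain ⟨v, hv⟩ := hev.exists_hasEigenvector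
  have h1 : f v = α • v := hv.apply_eq_smul
  have h2 := LinearMap.congr_fun hq v
  simp only [LinearMap.add_apply, LinearMap.sub_apply, Module.End.mul_apply, LinearMap.smul_apply,
    Module.End.one_apply, LinearMap.zero_apply, h1, map_smul] at h2
  have h3 : (α * α - t * α + d) • v = 0 := by
    rw [add_smul, sub_smul, mul_smul, mul_smul]
    exact h2
  exact (smul_eq_zero.1 h3).resolve_right hv.2

/-- distinct eigenvalues: the discriminant of a quadratic relation is not zero. -/
theorem disc_ne_zero_of_charpoly {k V : Type*} [Field k] [AddCommGroup V] [Module k V]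
    [FiniteDimensional k V] (f : Module.End k V) (α β t d : k) (hne : α ≠ β)
    (hchar : LinearMap.charpoly f = (X - C α) * (X - C β))
    (hq : f * f - t • f + d • (1 : Module.End k V) = 0) : t ^ 2 - 4 * d ≠ 0 := by
  have hα : (LinearMap.charpoly f).IsRoot α := by
    rw [hchar, IsRoot.def]; simp
  have hβ : (LinearMap.charpoly f).IsRoot β := by
    rw [hchar, IsRoot.def]; simp
  have e1 := quad_root_of_charpoly_root f α t d hα hq
  have e2 := quad_root_of_charpoly_root f β t d hβ hq
  have hs : α - β ≠ 0 := sub_ne_zero.2 hne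
  have h1 : (α - β) * (α + β - t) = 0 := by linear_combination e1 - e2
  have h2 : α + β - t = 0 := (mul_eq_zero.1 h1).resolve_left hs
  have ht : t = α + β := by linear_combination -h2
  have hd : d = α * β := by
    rw [ht] at e1
    linear_combination e1
  rw [ht, hd]
  intro h
  have h3 : (α - β) ^ 2 = 0 := by linear_combination h
  exact hs (pow_eq_zero_iff (two_ne_zero) |>.1 h3)

/-- **The Taylor--Wiles condition in the form of the geometric blocks.** -/
theorem twDist (P : FreyPackage) {s : ℕ} (hs1 : P.p ∣ s - 1) (hs : 1 ≤ s) (φ : GQ') (α β : kk P)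
    (hne : α ≠ β) (hchar : LinearMap.charpoly ((rho P).ρ φ) = (X - C α) * (X - C β)) (t : ℤ)
    (hq : ∀ y : Ep P, φ • φ • y - t • φ • y + (s : ℤ) • y = 0) : ¬ (P.p : ℤ) ∣ t ^ 2 - 4 := by
  intro hdvd
  set g : Module.End (ZMod P.p) (rhoFp P).V := (rhoFp P).ρ φ with hg
  have hg2 : g * g - (t : ZMod P.p) • g + ((s : ℤ) : ZMod P.p) • (1 : Module.End (ZMod P.p) (rhoFp P).V)
      = 0 := by
    refine LinearMap.ext fun y => ?_
    have h := hq y
    simp only [LinearMap.add_apply, LinearMap.sub_apply, Module.End.mul_apply, LinearMap.smul_apply,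
      Module.End.one_apply, LinearMap.zero_apply, Int.cast_smul_eq_zsmul]
    exact h
  have hf : (rho P).ρ φ = g.baseChange (kk P) := rfl
  have hq' : (rho P).ρ φ * (rho P).ρ φ - ((t : ℤ) : kk P) • (rho P).ρ φ
      + (((s : ℤ) : ℤ) : kk P) • (1 : Module.End (kk P) (rho P).V) = 0 := by
    have h := congrArg (LinearMap.baseChange (kk P)) hg2
    rw [LinearMap.baseChange_add, LinearMap.baseChange_sub, LinearMap.baseChange_mul,
      LinearMap.baseChange_zero, Int.cast_smul_eq_zsmul, Int.cast_smul_eq_zsmul] at h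
    have c1 : ((t : ℤ) : kk P) • (rho P).ρ φ = t • (rho P).ρ φ := Int.cast_smul_eq_zsmul (kk P) t _
    have c2 : (((s : ℤ) : ℤ) : kk P) • (1 : Module.End (kk P) (rho P).V)
        = (s : ℤ) • (1 : Module.End (kk P) (rho P).V) :=
      Int.cast_smul_eq_zsmul (kk P) (s : ℤ) (1 : Module.End (kk P) (rho P).V)
    rw [c1, c2, hf]
    have e1 : (t • g).baseChange (kk P) = t • g.baseChange (kk P) := by
      refine TensorProduct.AlgebraTensorModule.curry_injective ?_
      ext
      simp [TensorProduct.tmul_smul]
    have e2 : ((s : ℤ) • (1 : Module.End (ZMod P.p) (rhoFp P).V)).baseChange (kk P)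
        = (s : ℤ) • (1 : Module.End (kk P) (rho P).V) := by
      refine TensorProduct.AlgebraTensorModule.curry_injective ?_
      ext
      simp [TensorProduct.tmul_smul]
    rw [e1, e2] at h
    exact h
  have hdisc := disc_ne_zero_of_charpoly ((rho P).ρ φ) α β _ _ hne hchar hq'
  apply hdisc
  have : CharP (kk P) P.p := inferInstance
  have hs' : (((s : ℤ) : ℤ) : kk P) = 1 := by
    have h1 : ((s - 1 : ℕ) : kk P) = 0 := (CharP.cast_eq_zero_iff (kk P) P.p _).2 hs1
    rw [Nat.cast_sub hs, Nat.cast_one, sub_eq_zero] at h1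
    rw [Int.cast_natCast, h1]
  have ht : ((t ^ 2 - 4 : ℤ) : kk P) = 0 := (CharP.intCast_eq_zero_iff (kk P) P.p _).2 hdvd
  rw [hs', mul_one]
  push_cast at ht
  exact ht

end Fermat.Agent.S43.Top0

end
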