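import Mathlib
import Fermat.Agent.S53.Defs
import Fermat.Agent.S43.Loc.Conj
import Fermat.Agent.PT.Bridge.GalLevels
import Fermat.Agent.Lib.Frobenius

/-!
# S43 / Top0 / TwX : the Taylor--Wiles primes at the level of an abstract `G_ℚ`-module `X`  (leaf L4 of the consumer chain)

`X` an abelian group with a smooth action of `G = G_ℚ`, `Pl` a place over `ℓ ≠ p`, `s` a tame generator at `Pl`, the inertia group of
`Pl` acting on `X` through a `p`-group.  Then
* `tw_X.1` : `(f * s) • x = (s ^ ℓ * f) • x` for every Frobenius element `f` at `Pl`  (tame relation);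
* `tw_X.2` : `s • x = x → t • x = x` for all `t` in the inertia group;
* `tw_X_pow` : every `t` in the inertia group acts as a power `s ^ n`, `n : ℕ`;
* `exists_frob_plc` : there is a Frobenius element at every place.
-/

set_option autoImplicit false

namespace Fermat.Agent.S43.Top0

open Fermat.Agent.S53 (G)
open Fermat.Agent.PT
open Fermat.Agent.PT.Local (Plc IsFrob)
open Fermat.Agent.S43.Loc

/-- there is a Frobenius element at every place. -/
theorem exists_frob_plc (Pl : Plc) : ∃ f : G, Pl.A.IsFrobeniusAt f Pl.ℓ :=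
  Fermat.Agent.Lib.Frobenius.exists_isFrobeniusAt Pl.A Pl.prime Pl.liesOver

section

variable {X : Type} [AddCommGroup X] [DistribMulAction G X]

/-- the action as a homomorphism to the group of units of `AddMonoid.End X`. -/
noncomputable def autX (X : Type) [AddCommGroup X] [DistribMulAction G X] : G →* (AddMonoid.End X)ˣ :=
  (DistribMulAction.toAddMonoidEnd G X).toHomUnits

theorem autX_apply (g : G) (x : X) : (autX X g : AddMonoid.End X) x = g • x := rfl

theorem autX_ext {g h : G} : autX X g = autX X h ↔ ∀ x : X, g • x = h • x :=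
  ⟨fun e x => by rw [← autX_apply, e, autX_apply],
    fun e => Units.ext (AddMonoidHom.ext fun x => e x)⟩

theorem autX_open
    (hsm : ∃ F : IntermediateField ℚ (AlgebraicClosure ℚ), FiniteDimensional ℚ F ∧
      ∀ σ : G, (∀ z ∈ F, σ z = z) → ∀ x : X, σ • x = x) : ∃ U ∈ Lall, U ≤ (autX X).ker := by
  obtain ⟨F, hF, h⟩ := hsm
  obtain ⟨U, hU, hle⟩ := isOpen_Lall_of_finiteDimensional hF
  refine ⟨U, hU, fun σ hσ => ?_⟩
  rw [MonoidHom.mem_ker, ← map_one (autX X), autX_ext]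
  intro x
  rw [one_smul]
  exact h σ (fun z hz => (IntermediateField.mem_fixingSubgroup_iff F σ).1 (hle hσ) z hz) x

theorem autX_pgroup (p : ℕ) (I : Subgroup G)
    (hpg : ∀ t ∈ I, ∃ N : ℕ, ∀ x : X, (t ^ (p ^ N)) • x = x) : IsPGroup p (I.map (autX X)) := by
  rintro ⟨_, t, ht, rfl⟩
  obtain ⟨N, hN⟩ := hpg t ht
  refine ⟨N, Subtype.ext ?_⟩
  show autX X t ^ p ^ N = 1
  rw [← map_pow, ← map_one (autX X), autX_ext]
  intro x
  rw [one_smul]
  exact hN x

variable {p : ℕ} [Fact p.Prime]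

/-- every element of the inertia group acts as an integral power of the tame generator. -/
theorem tw_X_zpow (Pl : Plc) (s : G) (hs : IsTameGen p Pl s)
    (hsm : ∃ F : IntermediateField ℚ (AlgebraicClosure ℚ), FiniteDimensional ℚ F ∧
      ∀ σ : G, (∀ z ∈ F, σ z = z) → ∀ x : X, σ • x = x)
    (hpg : ∀ t ∈ Pl.ine, ∃ N : ℕ, ∀ x : X, (t ^ (p ^ N)) • x = x) (t : G) (ht : t ∈ Pl.ine) :
    ∃ n : ℤ, ∀ x : X, t • x = (s ^ n) • x := by
  obtain ⟨n, hn⟩ := hs.exists_zpow (autX X) (autX_open hsm) (autX_pgroup p Pl.ine hpg) ht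
  rw [← map_zpow, autX_ext] at hn
  exact ⟨n, hn⟩

/-- every element of the inertia group acts as a natural power of the tame generator. -/
theorem tw_X_pow (Pl : Plc) (s : G) (hs : IsTameGen p Pl s)
    (hsm : ∃ F : IntermediateField ℚ (AlgebraicClosure ℚ), FiniteDimensional ℚ F ∧
      ∀ σ : G, (∀ z ∈ F, σ z = z) → ∀ x : X, σ • x = x)
    (hpg : ∀ t ∈ Pl.ine, ∃ N : ℕ, ∀ x : X, (t ^ (p ^ N)) • x = x) (t : G) (ht : t ∈ Pl.ine) :
    ∃ n : ℕ, ∀ x : X, t • x = (s ^ n) • x := by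
  obtain ⟨n, hn⟩ := tw_X_zpow Pl s hs hsm hpg t ht
  obtain ⟨N, hN⟩ := hpg s hs.1
  have hpos : (0 : ℤ) < ((p ^ N : ℕ) : ℤ) := by
    have : 0 < p ^ N := pow_pos (Fact.out : p.Prime).pos N
    exact_mod_cast this
  -- `n = (p^N) * (n / p^N) + n % p^N`
  refine ⟨(n % ((p ^ N : ℕ) : ℤ)).toNat, fun x => ?_⟩
  have h1 : ((n % ((p ^ N : ℕ) : ℤ)).toNat : ℤ) = n % ((p ^ N : ℕ) : ℤ) :=
    Int.toNat_of_nonneg (Int.emod_nonneg _ hpos.ne')
  have h2 : ∀ (j : ℤ) (y : X), ((s ^ (p ^ N)) ^ j) • y = y := by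
    intro j y
    have hmem : s ^ (p ^ N) ∈ MulAction.stabilizer G y := hN y
    exact (MulAction.stabilizer G y).zpow_mem hmem j
  have h3 : s ^ n = s ^ (n % ((p ^ N : ℕ) : ℤ)).toNat * (s ^ (p ^ N)) ^ (n / ((p ^ N : ℕ) : ℤ)) := by
    rw [← zpow_natCast s (n % ((p ^ N : ℕ) : ℤ)).toNat, h1, ← zpow_natCast s (p ^ N), ← zpow_mul,
      ← zpow_add, Int.emod_add_mul_ediv]
  rw [hn x, h3, mul_smul, h2]

/-- **(L4)** the tame relation and the fixed points at a Taylor--Wiles prime, on `X`. -/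
theorem tw_X (Pl : Plc) (hℓ : Pl.ℓ ≠ p) (s : G) (hs : IsTameGen p Pl s)
    (hsm : ∃ F : IntermediateField ℚ (AlgebraicClosure ℚ), FiniteDimensional ℚ F ∧
      ∀ σ : G, (∀ z ∈ F, σ z = z) → ∀ x : X, σ • x = x)
    (hpg : ∀ t ∈ Pl.ine, ∃ N : ℕ, ∀ x : X, (t ^ (p ^ N)) • x = x) :
    (∀ f : G, Pl.A.IsFrobeniusAt f Pl.ℓ → ∀ x : X, (f * s) • x = (s ^ Pl.ℓ * f) • x) ∧
      (∀ x : X, s • x = x → ∀ t ∈ Pl.ine, t • x = x) := by
  refine ⟨fun f hf x => ?_, fun x hx t ht => ?_⟩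
  · have h := hs.conj hℓ (isFrob_of_isFrobeniusAt Pl hf) (autX X) (autX_open hsm)
      (autX_pgroup p Pl.ine hpg)
    rw [← map_pow, autX_ext] at h
    have h1 := h (f • x)
    rw [← mul_smul, ← mul_smul, inv_mul_cancel_right] at h1
    exact h1
  · obtain ⟨n, hn⟩ := tw_X_zpow Pl s hs hsm hpg t ht
    rw [hn x]
    have hmem : s ∈ MulAction.stabilizer G x := hx
    exact (MulAction.stabilizer G x).zpow_mem hmem n

end

end Fermat.Agent.S43.Top0
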